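/-
Cluster E' (Mazur's descent), seat DESC-ALG (owner: helper85).  NOTES/blueprint-E-S15-v2.md, 2.1.

PURE ALGEBRA.  `M` a finitely generated abelian group, `R` a ring acting on `M` (not assumed
commutative), `ε : R →+* ZMod l'` (the Eisenstein character `T_r ↦ 1 + r`).  If for every `k` there
is `e ∈ R` with `ε e ≠ 0` such that `x ↦ e (m x) mod l'^k M` takes at most `C` values (`C`
independent of `k`), then some `t ∈ R` with `ε t ≠ 0` maps `M` into its torsion subgroup.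

Proof: on `V = M / torsion`, for `k` large `m' e V ⊆ l' V` (`m = l'^a m'`), and the Cayley–Hamilton
theorem gives `χ (m' e) V = 0` with `χ ≡ X^d` modulo `l'`.
-/
import Mathlib

set_option autoImplicit false

open Polynomial

namespace Fermat.Agent.EDesc

section TorsionFree

variable {V : Type*} [AddCommGroup V] [Module.Finite ℤ V] {R : Type*} [Ring R] [Module R V]

/-- **Cayley–Hamilton step.**  If `g V ⊆ l' V` then some `t = χ (g)`, `χ ≡ X ^ d` modulo `l'`,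
kills `V`. -/
theorem desc_alg_cayley (l' : ℕ) (ε : R →+* ZMod l') (g : R)
    (hg : ∀ v : V, ∃ y : V, g • v = l' • y) :
    ∃ (t : R) (d : ℕ), ε t = ε g ^ d ∧ ∀ v : V, t • v = 0 := by
  set f : Module.End ℤ V := Module.toModuleEnd ℤ (S := R) V g with hf
  have hrange : LinearMap.range f ≤ (Ideal.span {(l' : ℤ)}) • (⊤ : Submodule ℤ V) := by
    rintro _ ⟨v, rfl⟩
    obtain ⟨y, hy⟩ := hg v
    have : f v = (l' : ℤ) • y := by
      rw [hf]
      simp only [Module.toModuleEnd_apply, DistribSMul.toLinearMap_apply]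
      rw [hy, natCast_zsmul]
    rw [this]
    exact Submodule.smul_mem_smul (Ideal.subset_span rfl) Submodule.mem_top
  obtain ⟨p, hmonic, -, hcoeff, hzero⟩ :=
    LinearMap.exists_monic_and_natDegree_eq_and_coeff_mem_pow_and_aeval_eq_zero ℤ f _ hrange
  refine ⟨aeval g p, p.natDegree, ?_, ?_⟩
  · -- `ε (χ g) = (ε g) ^ d`
    have h1 : ε (aeval g p) = aeval (ε g) p :=
      (aeval_algHom_apply (ε.toIntAlgHom) g p).symm
    rw [h1, aeval_eq_sum_range, Finset.sum_range_succ]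
    have hlow : ∀ i ∈ Finset.range p.natDegree, p.coeff i • ε g ^ i = 0 := by
      intro i hi
      have hi' : i < p.natDegree := Finset.mem_range.mp hi
      have hmem : p.coeff i ∈ Ideal.span {(l' : ℤ)} := by
        have := hcoeff i
        have hle : Ideal.span {(l' : ℤ)} ^ (p.natDegree - i) ≤ Ideal.span {(l' : ℤ)} :=
          Ideal.pow_le_self (by omega)
        exact hle this
      obtain ⟨c, hc⟩ := Ideal.mem_span_singleton.mp hmem
      rw [hc, zsmul_eq_mul]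
      push_cast
      rw [ZMod.natCast_self]
      ring
    rw [Finset.sum_eq_zero hlow, zero_add, hmonic.coeff_natDegree, one_smul]
  · intro v
    have h2 : (Module.toModuleEnd ℤ (S := R) V) (aeval g p) = aeval f p :=
      (aeval_algHom_apply ((Module.toModuleEnd ℤ (S := R) V).toIntAlgHom) g p).symm
    have h3 : (aeval g p) • v = (Module.toModuleEnd ℤ (S := R) V (aeval g p)) v := by
      simp only [Module.toModuleEnd_apply, DistribSMul.toLinearMap_apply]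
    rw [h3, h2, hzero]
    rfl

omit [Module.Finite ℤ V] in
/-- If `D ≠ 0`, `|D| < l' ^ (C + 1)` and `D w ∈ l' ^ k V`, then `l' ^ C w ∈ l' ^ k V`. -/
theorem desc_alg_gcd (l' : ℕ) (hl : l'.Prime) (C k : ℕ) (D : ℤ) (hD : D ≠ 0)
    (hDlt : D.natAbs < l' ^ (C + 1)) (w y : V) (h : D • w = (l' ^ k) • y) :
    ∃ y' : V, (l' ^ C) • w = (l' ^ k) • y' := by
  -- `gcd (D, l' ^ k) = l' ^ c` with `c ≤ C`
  have hgdvd : (Int.gcd D ((l' : ℤ) ^ k)) ∣ l' ^ k := by
    have := Int.gcd_dvd_natAbs_right D ((l' : ℤ) ^ k)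
    rwa [Int.natAbs_pow, Int.natAbs_natCast] at this
  obtain ⟨c, -, hc⟩ := (Nat.dvd_prime_pow hl).mp hgdvd
  have hcC : c ≤ C := by
    have h1 : l' ^ c ∣ D.natAbs := by
      rw [← hc]; exact Int.gcd_dvd_natAbs_left D ((l' : ℤ) ^ k)
    have h2 : l' ^ c ≤ D.natAbs :=
      Nat.le_of_dvd (Int.natAbs_pos.mpr hD) h1
    have h3 : l' ^ c < l' ^ (C + 1) := lt_of_le_of_lt h2 hDlt
    have := (Nat.pow_lt_pow_iff_right hl.one_lt).mp h3
    omega
  have hbez := Int.gcd_eq_gcd_ab D ((l' : ℤ) ^ k)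
  rw [hc] at hbez
  set α := Int.gcdA D ((l' : ℤ) ^ k)
  set β := Int.gcdB D ((l' : ℤ) ^ k)
  have hL : D • w = ((l' : ℤ) ^ k) • y := by
    rw [h, ← natCast_zsmul]; push_cast; rfl
  -- `l'^c w = (D α + l'^k β) w ∈ l'^k V`
  have h4 : ((l' ^ c : ℕ) : ℤ) • w = ((l' : ℤ) ^ k) • (α • y + β • w) := by
    rw [hbez, add_smul, mul_comm D α, mul_smul, mul_comm ((l' : ℤ) ^ k) β, mul_smul, hL,
      smul_add, smul_comm ((l' : ℤ) ^ k) α, smul_comm ((l' : ℤ) ^ k) β]
  refine ⟨(l' ^ (C - c)) • (α • y + β • w), ?_⟩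
  have h5 : (l' ^ C) • w = (l' ^ (C - c)) • ((l' ^ c) • w) := by
    rw [← mul_smul, ← pow_add]
    congr 2
    omega
  have h6 : (l' ^ c) • w = ((l' ^ c : ℕ) : ℤ) • w := (natCast_zsmul w (l' ^ c)).symm
  have h7 : ((l' : ℤ) ^ k) • (α • y + β • w) = (l' ^ k) • (α • y + β • w) := by
    rw [← natCast_zsmul]; push_cast; rfl
  rw [h5, h6, h4, h7, smul_comm]

/-- **DESC-ALG, torsion-free case.** -/
theorem desc_alg_torsionFree (htf : ∀ (n : ℕ) (v : V), n ≠ 0 → n • v = 0 → v = 0)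
    (l' : ℕ) [Fact l'.Prime] (ε : R →+* ZMod l') (m C : ℕ) (hm : m ≠ 0)
    (h : ∀ k : ℕ, ∃ e : R, ε e ≠ 0 ∧ ∀ (n : ℕ) (x : Fin n → V),
      (∀ i j, i ≠ j → ∀ y : V, e • (m • (x i - x j)) ≠ (l' ^ k) • y) → n ≤ C) :
    ∃ t : R, ε t ≠ 0 ∧ ∀ v : V, t • v = 0 := by
  have hl : l'.Prime := Fact.out
  obtain ⟨a, m', hm', rfl⟩ := Nat.exists_eq_pow_mul_and_not_dvd hm l' hl.ne_one
  obtain ⟨e, hεe, hbound⟩ := h (a + C + 1)
  -- step 1: `l'^C e (m v) ∈ l'^k V`
  have hkey : ∀ v : V, ∃ y : V,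
      (l' ^ C) • (e • ((l' ^ a * m') • v)) = (l' ^ (a + C + 1)) • y := by
    intro v
    by_contra hcon
    push Not at hcon
    have hn := hbound (l' ^ (C + 1)) (fun i => (i : ℕ) • v) ?_
    · exact absurd hn (not_le.mpr (lt_trans (Nat.lt_succ_self C)
        (Nat.lt_pow_self hl.one_lt)))
    · intro i j hij y hy
      have hD : ((i : ℕ) : ℤ) - ((j : ℕ) : ℤ) ≠ 0 := by
        intro h0
        apply hij
        apply Fin.ext
        have : ((i : ℕ) : ℤ) = ((j : ℕ) : ℤ) := by linarith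
        exact_mod_cast this
      have hlt : (((i : ℕ) : ℤ) - ((j : ℕ) : ℤ)).natAbs < l' ^ (C + 1) := by
        have hi := i.isLt
        have hj := j.isLt
        omega
      have hw : (((i : ℕ) : ℤ) - ((j : ℕ) : ℤ)) • (e • ((l' ^ a * m') • v))
          = (l' ^ (a + C + 1)) • y := by
        rw [← hy, sub_smul, natCast_zsmul, natCast_zsmul, smul_sub, smul_sub]
        congr 1
        · rw [smul_comm ((i : ℕ)) e, smul_comm ((i : ℕ)) (l' ^ a * m')]
        · rw [smul_comm ((j : ℕ)) e, smul_comm ((j : ℕ)) (l' ^ a * m')]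
      obtain ⟨y', hy'⟩ := desc_alg_gcd l' hl C (a + C + 1) _ hD hlt _ y hw
      exact hcon y' hy'
  -- step 2: `(m' e) V ⊆ l' V`
  have hg : ∀ v : V, ∃ y : V, ((m' : R) * e) • v = l' • y := by
    intro v
    obtain ⟨y, hy⟩ := hkey v
    refine ⟨y, ?_⟩
    have h3 : ((m' : R) * e) • v = m' • (e • v) := by
      rw [mul_smul, Nat.cast_smul_eq_nsmul]
    have h4 : e • ((l' ^ a * m') • v) = (l' ^ a * m') • (e • v) := by
      rw [smul_comm]
    have h1 : (l' ^ (a + C)) • (((m' : R) * e) • v - l' • y) = 0 := by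
      rw [smul_sub, sub_eq_zero]
      have h2 : (l' ^ (a + C)) • (l' • y) = (l' ^ (a + C + 1)) • y := by
        rw [← mul_smul, ← pow_succ]
      rw [h2, ← hy, h3, h4, ← mul_smul, ← mul_smul]
      congr 1
      ring
    have := htf _ _ (pow_ne_zero _ hl.ne_zero) h1
    exact sub_eq_zero.mp this
  obtain ⟨t, d, hεt, ht⟩ := desc_alg_cayley l' ε ((m' : R) * e) hg
  refine ⟨t, ?_, ht⟩
  rw [hεt]
  apply pow_ne_zero
  rw [map_mul, map_natCast]
  apply mul_ne_zero _ hεe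
  rwa [Ne, ZMod.natCast_eq_zero_iff]

end TorsionFree

section General

variable {M : Type*} [AddCommGroup M] [Module.Finite ℤ M] {R : Type*} [Ring R] [Module R M]

/-- The torsion subgroup as an `R`-submodule. -/
def torsionSub (R : Type*) [Ring R] (M : Type*) [AddCommGroup M] [Module R M] :
    Submodule R M where
  carrier := {x | ∃ n : ℕ, n ≠ 0 ∧ n • x = 0}
  zero_mem' := ⟨1, one_ne_zero, smul_zero _⟩
  add_mem' := by
    rintro x y ⟨n, hn, hx⟩ ⟨n', hn', hy⟩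
    refine ⟨n * n', mul_ne_zero hn hn', ?_⟩
    rw [smul_add, mul_comm, mul_smul, hx, smul_zero, zero_add, mul_comm, mul_smul, hy, smul_zero]
  smul_mem' := by
    rintro c x ⟨n, hn, hx⟩
    exact ⟨n, hn, by rw [smul_comm, hx, smul_zero]⟩

omit [Module.Finite ℤ M] in
theorem mem_torsionSub {x : M} : x ∈ torsionSub R M ↔ ∃ n : ℕ, n ≠ 0 ∧ n • x = 0 := Iff.rfl

/-- **DESC-ALG.**  See the header. -/
theorem desc_alg (l' : ℕ) [Fact l'.Prime] (ε : R →+* ZMod l') (m C : ℕ) (hm : m ≠ 0)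
    (h : ∀ k : ℕ, ∃ e : R, ε e ≠ 0 ∧ ∀ (n : ℕ) (x : Fin n → M),
      (∀ i j, i ≠ j → ∀ y : M, e • (m • (x i - x j)) ≠ (l' ^ k) • y) → n ≤ C) :
    ∃ t : R, ε t ≠ 0 ∧ ∀ x : M, IsOfFinAddOrder (t • x) := by
  set T := torsionSub R M with hT
  have hfin : Module.Finite ℤ (M ⧸ T) :=
    Module.Finite.of_surjective (T.mkQ.toAddMonoidHom.toIntLinearMap) T.mkQ_surjective
  have htf : ∀ (n : ℕ) (v : M ⧸ T), n ≠ 0 → n • v = 0 → v = 0 := by
    intro n v hn hv
    obtain ⟨x, rfl⟩ := T.mkQ_surjective v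
    rw [← map_nsmul, Submodule.mkQ_apply, Submodule.Quotient.mk_eq_zero] at hv
    obtain ⟨n', hn', hx⟩ := hv
    rw [Submodule.mkQ_apply, Submodule.Quotient.mk_eq_zero]
    exact ⟨n' * n, mul_ne_zero hn' hn, by rw [mul_smul, hx]⟩
  have h' : ∀ k : ℕ, ∃ e : R, ε e ≠ 0 ∧ ∀ (n : ℕ) (x : Fin n → M ⧸ T),
      (∀ i j, i ≠ j → ∀ y : M ⧸ T, e • (m • (x i - x j)) ≠ (l' ^ k) • y) → n ≤ C := by
    intro k
    obtain ⟨e, he, hb⟩ := h k
    refine ⟨e, he, fun n x hx => ?_⟩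
    choose x' hx' using fun i => T.mkQ_surjective (x i)
    apply hb n x'
    intro i j hij y hy
    apply hx i j hij (T.mkQ y)
    rw [← hx' i, ← hx' j, ← map_sub, ← map_nsmul, ← map_smul, hy, map_nsmul]
  obtain ⟨t, ht, hzero⟩ := desc_alg_torsionFree htf l' ε m C hm h'
  refine ⟨t, ht, fun x => ?_⟩
  have := hzero (T.mkQ x)
  rw [← map_smul, Submodule.mkQ_apply, Submodule.Quotient.mk_eq_zero] at this
  obtain ⟨n, hn, hx⟩ := this
  exact isOfFinAddOrder_iff_nsmul_eq_zero.mpr ⟨n, Nat.pos_of_ne_zero hn, hx⟩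

end General

end Fermat.Agent.EDesc
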