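/-
Cluster E' (Mazur's descent), seat DESC-COMM (helper68), formal part: Laurent series only.

`hkProd ℓ ζ y = y(q^{ℓ²}) · ∏_{b<ℓ} y(ζ^b q)`  is the right-hand side of the product formula
`(T_ℓ y)(q^ℓ) = hkProd ℓ ζ y`  (`Lib/Kronecker/ProdDefs.lean`).  For coprime `r`, `s`:

* `qExpand_hkProd`  : `(hkProd r ζ u)(q^s) = hkProd r ζ (u(q^s))`;
* `hkProd_comm`     : `hkProd r ζ (hkProd s ξ y) = hkProd s ξ (hkProd r ζ y)`;
* `eq_of_hkProd`    : two operators `t_r`, `t_s` satisfying the product formulas commute.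
-/
import Mathlib
import Fermat.Agent.Lib.Kronecker.Formal

set_option autoImplicit false

noncomputable section

namespace Fermat.Agent.EDesc

open ModularCurve Fermat.Agent.Kronecker

variable {R : Type*} [CommRing R]

/-- reindexing a product over the powers of a root of unity by a unit exponent. -/
theorem comm_prod_range_pow_mul {M : Type*} [CommMonoid M] (m a : ℕ) (ha : Nat.Coprime a m)
    (ζ : Rˣ) (hζ : ζ ^ m = 1) (g : Rˣ → M) :
    ∏ b ∈ Finset.range m, g (ζ ^ (b * a)) = ∏ b ∈ Finset.range m, g (ζ ^ b) := by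
  rcases Nat.eq_zero_or_pos m with hm | hm
  · subst hm
    simp
  have hmod : ∀ n : ℕ, ζ ^ n = ζ ^ (n % m) := fun n => pow_eq_pow_mod n hζ
  have hinj : Set.InjOn (fun b : ℕ => (b * a) % m) (Finset.range m : Set ℕ) := by
    intro b hb b' hb' h
    have hb1 : b < m := Finset.mem_range.mp hb
    have hb2 : b' < m := Finset.mem_range.mp hb'
    have h1 : b * a ≡ b' * a [MOD m] := h
    have h2 : b ≡ b' [MOD m] :=
      Nat.ModEq.cancel_right_of_coprime (by rwa [Nat.coprime_comm] at ha) h1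
    exact Nat.ModEq.eq_of_lt_of_lt h2 hb1 hb2
  have himg : (Finset.range m).image (fun b : ℕ => (b * a) % m) = Finset.range m := by
    apply Finset.eq_of_subset_of_card_le
    · intro x hx
      obtain ⟨b, -, rfl⟩ := Finset.mem_image.mp hx
      exact Finset.mem_range.mpr (Nat.mod_lt _ hm)
    · rw [Finset.card_image_of_injOn hinj]
  calc ∏ b ∈ Finset.range m, g (ζ ^ (b * a))
      = ∏ b ∈ Finset.range m, g (ζ ^ ((b * a) % m)) :=
        Finset.prod_congr rfl fun b _ => by rw [← hmod]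
    _ = ∏ x ∈ (Finset.range m).image (fun b : ℕ => (b * a) % m), g (ζ ^ x) :=
        (Finset.prod_image (f := fun x => g (ζ ^ x)) hinj).symm
    _ = ∏ b ∈ Finset.range m, g (ζ ^ b) := by rw [himg]

/-- `y(q^{ℓ²}) · ∏_{b<ℓ} y(ζ^b q)`. -/
def hkProd (ℓ : ℕ) [NeZero ℓ] (ζ : Rˣ) (y : LaurentSeries R) : LaurentSeries R :=
  qExpand R (ℓ * ℓ) y * ∏ b ∈ Finset.range ℓ, scaleL (ζ ^ b) y

theorem comm_qExpand_comm (m n : ℕ) [NeZero m] [NeZero n] (y : LaurentSeries R) :
    qExpand R m (qExpand R n y) = qExpand R n (qExpand R m y) := by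
  rw [qExpand_qExpand, qExpand_qExpand]
  exact qExpand_congr (mul_comm m n) y

theorem comm_scaleL_comm (z w : Rˣ) (y : LaurentSeries R) :
    scaleL z (scaleL w y) = scaleL w (scaleL z y) := by
  rw [← scaleL_mul, ← scaleL_mul, mul_comm]

/-- `∏_b (u(q^s))(ζ^b q) = (∏_b u(ζ^b q))(q^s)` for `s` prime to `r`. -/
theorem comm_prod_scaleL_qExpand (r s : ℕ) [NeZero s] (hcop : Nat.Coprime s r) (ζ : Rˣ)
    (hζ : ζ ^ r = 1) (u : LaurentSeries R) :
    ∏ b ∈ Finset.range r, scaleL (ζ ^ b) (qExpand R s u) =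
      qExpand R s (∏ b ∈ Finset.range r, scaleL (ζ ^ b) u) := by
  rw [map_prod]
  have h1 : ∀ b : ℕ, scaleL (ζ ^ b) (qExpand R s u) = qExpand R s (scaleL (ζ ^ (b * s)) u) := by
    intro b
    rw [scaleL_qExpand, ← pow_mul]
  simp_rw [h1]
  exact comm_prod_range_pow_mul r s hcop ζ hζ (fun z => qExpand R s (scaleL z u))

/-- `(hkProd r ζ u)(q^s) = hkProd r ζ (u(q^s))` for `s` prime to `r`. -/
theorem qExpand_hkProd (r s : ℕ) [NeZero r] [NeZero s] (hcop : Nat.Coprime s r) (ζ : Rˣ)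
    (hζ : ζ ^ r = 1) (u : LaurentSeries R) :
    qExpand R s (hkProd r ζ u) = hkProd r ζ (qExpand R s u) := by
  rw [hkProd, hkProd, map_mul, comm_qExpand_comm s (r * r),
    comm_prod_scaleL_qExpand r s hcop ζ hζ u]

/-- the two product operators commute. -/
theorem hkProd_comm (r s : ℕ) [NeZero r] [NeZero s] (hcop : Nat.Coprime r s) (ζ ξ : Rˣ)
    (hζ : ζ ^ r = 1) (hξ : ξ ^ s = 1) (y : LaurentSeries R) :
    hkProd r ζ (hkProd s ξ y) = hkProd s ξ (hkProd r ζ y) := by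
  have hcop1 : Nat.Coprime (r * r) s := Nat.Coprime.mul_left hcop hcop
  have hcop2 : Nat.Coprime (s * s) r := Nat.Coprime.mul_left hcop.symm hcop.symm
  have hA : qExpand R (r * r) (hkProd s ξ y) = hkProd s ξ (qExpand R (r * r) y) :=
    qExpand_hkProd s (r * r) hcop1 ξ hξ y
  have hB : qExpand R (s * s) (hkProd r ζ y) = hkProd r ζ (qExpand R (s * s) y) :=
    qExpand_hkProd r (s * s) hcop2 ζ hζ y
  have hL : hkProd r ζ (hkProd s ξ y) =
      hkProd s ξ (qExpand R (r * r) y) * ∏ b ∈ Finset.range r, scaleL (ζ ^ b) (hkProd s ξ y) := by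
    rw [← hA]
    rfl
  have hR : hkProd s ξ (hkProd r ζ y) =
      hkProd r ζ (qExpand R (s * s) y) * ∏ c ∈ Finset.range s, scaleL (ξ ^ c) (hkProd r ζ y) := by
    rw [← hB]
    rfl
  have hL2 : ∏ b ∈ Finset.range r, scaleL (ζ ^ b) (hkProd s ξ y) =
      (∏ b ∈ Finset.range r, scaleL (ζ ^ b) (qExpand R (s * s) y)) *
        ∏ b ∈ Finset.range r, ∏ c ∈ Finset.range s, scaleL (ζ ^ b) (scaleL (ξ ^ c) y) := by
    rw [← Finset.prod_mul_distrib]
    refine Finset.prod_congr rfl fun b _ => ?_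
    rw [hkProd, map_mul, map_prod]
  have hR2 : ∏ c ∈ Finset.range s, scaleL (ξ ^ c) (hkProd r ζ y) =
      (∏ c ∈ Finset.range s, scaleL (ξ ^ c) (qExpand R (r * r) y)) *
        ∏ c ∈ Finset.range s, ∏ b ∈ Finset.range r, scaleL (ξ ^ c) (scaleL (ζ ^ b) y) := by
    rw [← Finset.prod_mul_distrib]
    refine Finset.prod_congr rfl fun c _ => ?_
    rw [hkProd, map_mul, map_prod]
  have hD : ∏ b ∈ Finset.range r, ∏ c ∈ Finset.range s, scaleL (ζ ^ b) (scaleL (ξ ^ c) y) =
      ∏ c ∈ Finset.range s, ∏ b ∈ Finset.range r, scaleL (ξ ^ c) (scaleL (ζ ^ b) y) := by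
    rw [Finset.prod_comm]
    refine Finset.prod_congr rfl fun c _ => Finset.prod_congr rfl fun b _ => ?_
    exact comm_scaleL_comm _ _ y
  rw [hL, hR, hL2, hR2, hD]
  rw [hkProd, hkProd, comm_qExpand_comm (s * s) (r * r)]
  ring

/-- **Two operators satisfying the product formulas at coprime `r`, `s` commute.** -/
theorem eq_of_hkProd (r s : ℕ) [NeZero r] [NeZero s] (hcop : Nat.Coprime r s) (ζ ξ : Rˣ)
    (hζ : ζ ^ r = 1) (hξ : ξ ^ s = 1) {y a b a' b' : LaurentSeries R}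
    (ha : qExpand R s a = hkProd s ξ y) (hb : qExpand R r b = hkProd r ζ a)
    (ha' : qExpand R r a' = hkProd r ζ y) (hb' : qExpand R s b' = hkProd s ξ a') :
    b = b' := by
  have h1 : qExpand R s (qExpand R r b) = hkProd r ζ (hkProd s ξ y) := by
    rw [hb, qExpand_hkProd r s hcop.symm ζ hζ, ha]
  have h2 : qExpand R r (qExpand R s b') = hkProd s ξ (hkProd r ζ y) := by
    rw [hb', qExpand_hkProd s r hcop ξ hξ, ha']
  have h3 : qExpand R s (qExpand R r b) = qExpand R s (qExpand R r b') := by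
    rw [h1, hkProd_comm r s hcop ζ ξ hζ hξ, ← h2, comm_qExpand_comm]
  exact qExpand_injective r (qExpand_injective s h3)

end Fermat.Agent.EDesc
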