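/-
Cluster E' (Mazur's descent), seat DESC-COMM (helper68): **the Hecke operators at good primes
commute** on the torsion of `J₀(N)` and on `J₀(N)(ℚ)`.

* `heckeFun_comm` : for primes `r, s ∤ N` the multiplicative operators
  `T_ℓ f = Norm_{F_{Nℓ}/F_N} (f(q^ℓ))` on `F_N` commute
  (formal identity from the product formula `Kronecker.normProductFormula`);
* `heckeOperatorBar_comm_of_torsion` : `T_r T_s x = T_s T_r x` for every torsion class `x`;
* `heckeOperatorBar_comm_of_fixed` : `T_r T_s x = T_s T_r x` for every `G_ℚ`-fixed `x`, if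
  `J₀(N)(ℚ)` is finitely generated (S17) and `J₀(N)(ℚ̄)` is divisible (`Div.jZero_divisible`).
-/
import Mathlib
import Fermat.Agent.E.Desc.CommFormal
import Fermat.Agent.Lib.Kronecker.ConjExp
import Fermat.Agent.Lib.Kronecker.NormProd
import Fermat.Agent.Lib.HeckeInputs.Qbar
import Fermat.Agent.F3.Galois.NormDesc
import Fermat.Agent.F3.Galois.HeckeComm

set_option autoImplicit false
set_option linter.style.haveILetI false

noncomputable section

namespace Fermat.Agent.EDesc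

open ModularCurve AlgebraicCurve Fermat.Agent.Kronecker Fermat.Agent.F3G

local notation "GQ" => (AlgebraicClosure ℚ ≃ₐ[ℚ] AlgebraicClosure ℚ)

/-- a finitely generated abelian group has no nonzero divisible element. -/
theorem comm_eq_zero_of_divisible {M : Type*} [AddCommGroup M] [Module.Finite ℤ M] (c : M)
    (h : ∀ n : ℕ, 0 < n → ∃ z : M, n • z = c) : c = 0 := by
  have key : ∀ a : ℤ, a ≠ 0 → ∃ t : ℤ, (a * t) • c = c := by
    intro a ha
    have hmem : c ∈ (⨅ i : ℕ, (Ideal.span {a}) ^ i • (⊤ : Submodule ℤ M)) := by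
      rw [Submodule.mem_iInf]
      intro i
      rw [Ideal.span_singleton_pow]
      obtain ⟨z, hz⟩ := h (a.natAbs ^ i) (pow_pos (Int.natAbs_pos.mpr ha) i)
      have hdvd : a ^ i ∣ ((a.natAbs : ℤ)) ^ i :=
        pow_dvd_pow_of_dvd (Int.dvd_natAbs.mpr dvd_rfl) i
      obtain ⟨u, hu⟩ := hdvd
      have hc : c = (a ^ i) • (u • z) := by
        rw [← mul_smul, ← hu, ← hz, ← natCast_zsmul]
        push_cast
        rfl
      rw [hc]
      exact Submodule.smul_mem_smul (Ideal.subset_span rfl) Submodule.mem_top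
    obtain ⟨r, hr⟩ := (Ideal.mem_iInf_smul_pow_eq_bot_iff (Ideal.span {a}) c).mp hmem
    obtain ⟨t, ht⟩ := Ideal.mem_span_singleton.mp r.2
    exact ⟨t, by rw [← ht]; exact hr⟩
  obtain ⟨t, ht⟩ := key 2 two_ne_zero
  have ha : (1 - 2 * t : ℤ) • c = 0 := by rw [sub_smul, one_smul, ht, sub_self]
  have ha0 : (1 - 2 * t : ℤ) ≠ 0 := by omega
  obtain ⟨t', ht'⟩ := key (1 - 2 * t) ha0
  rw [← ht', mul_comm, mul_smul, ha, smul_zero]

variable (N : ℕ) [NeZero N]

/-- the product formula in the shape of `hkProd`. -/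
theorem comm_normProduct (ℓ : ℕ) [NeZero ℓ] (hℓ : ℓ.Prime) (hℓN : ¬ ℓ ∣ N) :
    ∃ ζ : Qbˣ, ζ ^ ℓ = 1 ∧ ∀ y : ↥(modularFunctionFieldBar N),
      qExpand Qb ℓ ((heckeFun Qb N ℓ y : ↥(modularFunctionFieldBar N)) : LaurentSeries Qb) =
        hkProd ℓ ζ (y : LaurentSeries Qb) := by
  obtain ⟨ζ, hζ, h⟩ := normProductFormula_of_conjugateExpansions N ℓ hℓ hℓN
    (conjugateExpansions N ℓ ((Nat.Prime.coprime_iff_not_dvd hℓ).mpr hℓN))
  exact ⟨ζ, hζ.pow_eq_one, h⟩

/-- **The multiplicative Hecke operators on `F_N` at good primes commute.** -/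
theorem heckeFun_comm (r s : ℕ) [NeZero r] [NeZero s] (hr : r.Prime) (hs : s.Prime)
    (hrN : ¬ r ∣ N) (hsN : ¬ s ∣ N) (y : ↥(modularFunctionFieldBar N)) :
    heckeFun Qb N r (heckeFun Qb N s y) = heckeFun Qb N s (heckeFun Qb N r y) := by
  by_cases hrs : r = s
  · subst hrs
    rfl
  have hcop : Nat.Coprime r s := (Nat.coprime_primes hr hs).mpr hrs
  obtain ⟨ζ, hζ, hR⟩ := comm_normProduct N r hr hrN
  obtain ⟨ξ, hξ, hS⟩ := comm_normProduct N s hs hsN
  apply Subtype.ext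
  exact eq_of_hkProd r s hcop ζ ξ hζ hξ (hS y) (hR (heckeFun Qb N s y)) (hR y)
    (hS (heckeFun Qb N r y))

/-- **`T_r T_s x = T_s T_r x` for every torsion class `x` of `J₀(N)`**, `r, s ∤ N` primes. -/
theorem heckeOperatorBar_comm_of_torsion (r s : Nat.Primes) (hrN : ¬ (r : ℕ) ∣ N)
    (hsN : ¬ (s : ℕ) ∣ N) {n : ℕ} (hn : n ≠ 0) {x : JZero N} (hx : n • x = 0) :
    heckeOperatorBar N r (heckeOperatorBar N s x) =
      heckeOperatorBar N s (heckeOperatorBar N r x) := by
  haveI : NeZero (r : ℕ) := ⟨r.2.ne_zero⟩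
  haveI : NeZero (s : ℕ) := ⟨s.2.ne_zero⟩
  have hinr := Fermat.Agent.HeckeInputs.hi_heckeInputsAlong_Qbar N (r : ℕ)
  have hins := Fermat.Agent.HeckeInputs.hi_heckeInputsAlong_Qbar N (s : ℕ)
  have hx' : (n : ℤ) • x = 0 := by rw [natCast_zsmul]; exact hx
  obtain ⟨D, f, hf, rfl, hD⟩ := exists_div_of_zsmul_eq_zero (n : ℤ) x hx'
  obtain ⟨Es, hEs, hEs'⟩ := heckeOperatorAlong_mk_of_zsmul_eq_div hins D (n : ℤ) hf hD
  obtain ⟨Ers, hErs, hErs'⟩ :=
    heckeOperatorAlong_mk_of_zsmul_eq_div hinr Es (n : ℤ) (heckeFun_ne_zero hins hf) hEs'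
  obtain ⟨Er, hEr, hEr'⟩ := heckeOperatorAlong_mk_of_zsmul_eq_div hinr D (n : ℤ) hf hD
  obtain ⟨Esr, hEsr, hEsr'⟩ :=
    heckeOperatorAlong_mk_of_zsmul_eq_div hins Er (n : ℤ) (heckeFun_ne_zero hinr hf) hEr'
  have hE : Ers = Esr := by
    apply Subtype.ext
    ext v
    have h1 := hErs' v
    have h2 := hEsr' v
    rw [heckeFun_comm N (r : ℕ) (s : ℕ) r.2 s.2 hrN hsN f] at h1
    have h3 : (n : ℤ) * (Ers : Divisor Qb _) v = (n : ℤ) * (Esr : Divisor Qb _) v := by
      rw [h1, h2]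
    exact mul_left_cancel₀ (by exact_mod_cast hn) h3
  have e1 : heckeOperatorBar N s (Pic0.mk D) = Pic0.mk Es := hEs
  have e2 : heckeOperatorBar N r (Pic0.mk Es) = Pic0.mk Ers := hErs
  have e3 : heckeOperatorBar N r (Pic0.mk D) = Pic0.mk Er := hEr
  have e4 : heckeOperatorBar N s (Pic0.mk Er) = Pic0.mk Esr := hEsr
  rw [e1, e2, e3, e4, hE]

/-- the commutator of two Hecke operators at good primes. -/
def heckeCommutator (r s : Nat.Primes) : Module.End ℤ (JZero N) :=
  heckeOperatorBar N r * heckeOperatorBar N s - heckeOperatorBar N s * heckeOperatorBar N r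

theorem heckeCommutator_apply (r s : Nat.Primes) (x : JZero N) :
    heckeCommutator N r s x =
      heckeOperatorBar N r (heckeOperatorBar N s x) -
        heckeOperatorBar N s (heckeOperatorBar N r x) := rfl

theorem heckeCommutator_of_torsion (r s : Nat.Primes) (hrN : ¬ (r : ℕ) ∣ N)
    (hsN : ¬ (s : ℕ) ∣ N) {n : ℕ} (hn : n ≠ 0) {x : JZero N} (hx : n • x = 0) :
    heckeCommutator N r s x = 0 := by
  rw [heckeCommutator_apply, heckeOperatorBar_comm_of_torsion N r s hrN hsN hn hx, sub_self]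

theorem heckeCommutator_galois (r s : Nat.Primes) (σ : GQ) (x : JZero N) :
    heckeCommutator N r s (σ • x) = σ • heckeCommutator N r s x := by
  have hsub : ∀ a b : JZero N, σ • (a - b) = σ • a - σ • b := fun a b =>
    map_sub (DistribSMul.toAddMonoidHom (JZero N) σ) a b
  rw [heckeCommutator_apply, heckeCommutator_apply, hsub, heckeGaloisComm N s σ x,
    heckeGaloisComm N r σ x, heckeGaloisComm N r σ, heckeGaloisComm N s σ]

/-- the commutator maps a rational point into `n J₀(N)(ℚ)` for every `n`. -/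
theorem heckeCommutator_mem_nsmul_fixed (r s : Nat.Primes) (hrN : ¬ (r : ℕ) ∣ N)
    (hsN : ¬ (s : ℕ) ∣ N)
    (hdiv : ∀ n : ℕ, 0 < n → ∀ y : JZero N, ∃ w : JZero N, n • w = y)
    {x : JZero N} (hx : ∀ σ : GQ, σ • x = x) {n : ℕ} (hn : 0 < n) :
    ∃ z : JZero N, (∀ σ : GQ, σ • z = z) ∧ n • z = heckeCommutator N r s x := by
  obtain ⟨w, hw⟩ := hdiv n hn x
  refine ⟨heckeCommutator N r s w, fun σ => ?_, ?_⟩
  · have hsub : ∀ a b : JZero N, σ • (a - b) = σ • a - σ • b := fun a b =>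
      map_sub (DistribSMul.toAddMonoidHom (JZero N) σ) a b
    have hnsmul : ∀ a : JZero N, σ • (n • a) = n • (σ • a) := fun a =>
      map_nsmul (DistribSMul.toAddMonoidHom (JZero N) σ) n a
    have htor : n • (σ • w - w) = 0 := by
      rw [nsmul_sub, ← hnsmul, hw, hx σ, sub_self]
    have h0 := heckeCommutator_of_torsion N r s hrN hsN hn.ne' htor
    rw [map_sub, sub_eq_zero] at h0
    rw [← heckeCommutator_galois, h0]
  · rw [← map_nsmul, hw]

/-- **`T_r T_s x = T_s T_r x` for every rational point `x` of `J₀(N)`**, `r, s ∤ N` primes, if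
`J₀(N)(ℚ)` is finitely generated and `J₀(N)(ℚ̄)` is divisible. -/
theorem heckeOperatorBar_comm_of_fixed (r s : Nat.Primes) (hrN : ¬ (r : ℕ) ∣ N)
    (hsN : ¬ (s : ℕ) ∣ N)
    (hfg : AddGroup.FG ↥(FixedPoints.addSubgroup GQ (JZero N)))
    (hdiv : ∀ n : ℕ, 0 < n → ∀ y : JZero N, ∃ w : JZero N, n • w = y)
    {x : JZero N} (hx : ∀ σ : GQ, σ • x = x) :
    heckeOperatorBar N r (heckeOperatorBar N s x) =
      heckeOperatorBar N s (heckeOperatorBar N r x) := by
  rw [← sub_eq_zero, ← heckeCommutator_apply]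
  set M := FixedPoints.addSubgroup GQ (JZero N) with hM
  have hcM : heckeCommutator N r s x ∈ M := fun σ => by
    rw [← heckeCommutator_galois, hx σ]
  -- `c := [T_r, T_s] x` is divisible by every `n` inside the finitely generated group `M`
  haveI : Module.Finite ℤ M := Module.Finite.iff_addGroup_fg.mpr hfg
  set c : M := ⟨heckeCommutator N r s x, hcM⟩ with hc
  have hdivc : ∀ n : ℕ, 0 < n → ∃ z : M, n • z = c := by
    intro n hn
    obtain ⟨z, hz, hnz⟩ := heckeCommutator_mem_nsmul_fixed N r s hrN hsN hdiv hx hn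
    exact ⟨⟨z, hz⟩, Subtype.ext hnz⟩
  have hc0 : c = 0 := comm_eq_zero_of_divisible c hdivc
  exact congrArg Subtype.val hc0

end Fermat.Agent.EDesc
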