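/-
Cluster E' (helper3): Mazur's descent, ABSTRACT PART.  Definitions + the exact statement of the
inequality `h¹ - h⁰ ≤ δ - α` (seat DESC-DEV).  Blueprint: NOTES/blueprint-E-S15-v2.md, section 2.3.

`W` is a finite `G_ℚ`-module of `l'`-power order, unramified outside `{p, l'}`, with a
`G_ℚ`-stable chain `0 = F 0 ≤ F 1 ≤ … ≤ F L = W` whose pieces have order `l'` and are of type
* `et` : `G_ℚ` acts trivially on `F (i+1) / F i`  (the group scheme `ℤ/l'`), or
* `mu` : `F (i+1) / F i ≅ μ_{l'} ⊆ ℚ̄ˣ` equivariantly, through the coordinate `ι i`  (`μ_{l'}`).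
`Flat` is the local condition at `l'` (a predicate on global cocycles).
-/
import Mathlib
import Fermat.Prelude.Def_FLTPrelim_Ramification

set_option autoImplicit false

noncomputable section

namespace Fermat.Agent.EDesc

local notation "Qb" => AlgebraicClosure ℚ
local notation "GQb" => (AlgebraicClosure ℚ ≃ₐ[ℚ] AlgebraicClosure ℚ)

section Cocycles

variable {W : Type*} [AddCommGroup W] [DistribMulAction GQb W]

/-- `c` is a 1-cocycle. -/
def IsCoc (c : GQb → W) : Prop := ∀ σ τ : GQb, c (σ * τ) = c σ + σ • c τ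

/-- `c` is locally constant (factors through a finite quotient on the right). -/
def IsCtsCoc (c : GQb → W) : Prop :=
  ∃ E : IntermediateField ℚ Qb, FiniteDimensional ℚ E ∧
    ∀ σ τ : GQb, τ ∈ E.fixingSubgroup → c (σ * τ) = c σ

/-- on the subgroup `H` the cocycle `c` is the coboundary of `w`. -/
def IsCobOn (H : Subgroup GQb) (c : GQb → W) (w : W) : Prop := ∀ σ ∈ H, c σ = σ • w - w

/-- `c` and `c'` are cohomologous. -/
def Cohom (c c' : GQb → W) : Prop := ∃ w : W, ∀ σ : GQb, c σ - c' σ = σ • w - w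

/-- `c` vanishes on the inertia groups at all places over the primes outside `S`. -/
def UnramCoc (S : Set ℕ) (c : GQb → W) : Prop :=
  ∀ r : ℕ, r.Prime → r ∉ S → ∀ A : ValuationSubring Qb, A.LiesOverPrime r →
    ∀ σ ∈ A.inertiaSubgroupIn ℚ, c σ = 0

variable (W)

/-- the action is smooth (factors through a finite quotient). -/
def SmoothMod : Prop :=
  ∃ E : IntermediateField ℚ Qb, FiniteDimensional ℚ E ∧
    ∀ σ ∈ E.fixingSubgroup, ∀ w : W, σ • w = w

/-- the module is unramified outside `S`. -/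
def UnramMod (S : Set ℕ) : Prop :=
  ∀ r : ℕ, r.Prime → r ∉ S → ∀ A : ValuationSubring Qb, A.LiesOverPrime r →
    ∀ σ ∈ A.inertiaSubgroupIn ℚ, ∀ w : W, σ • w = w

/-- the fixed points of a subgroup `H` of `G_ℚ`. -/
def fixedBy (H : Subgroup GQb) : AddSubgroup W where
  carrier := {w | ∀ σ ∈ H, σ • w = w}
  zero_mem' := fun σ _ => smul_zero σ
  add_mem' := fun {a b} ha hb σ hσ => by rw [smul_add, ha σ hσ, hb σ hσ]
  neg_mem' := fun {a} ha σ hσ => by rw [smul_neg, ha σ hσ]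

/-- a typed Jordan-Hölder chain. -/
structure TypedChain (l' : ℕ) where
  /-- the length -/
  L : ℕ
  /-- the chain -/
  F : ℕ → AddSubgroup W
  /-- the type of the piece `F (i+1) / F i`: `et i` or not (`mu`) -/
  et : ℕ → Prop
  /-- the coordinate of a `mu`-piece -/
  ι : ℕ → W → Qb
  F_zero : F 0 = ⊥
  F_top : F L = ⊤
  mono : ∀ i, F i ≤ F (i + 1)
  stable : ∀ i (σ : GQb) (w : W), w ∈ F i → σ • w ∈ F i
  index : ∀ i, i < L → (F i).relIndex (F (i + 1)) = l'
  et_triv : ∀ i, i < L → et i → ∀ (σ : GQb) (w : W), w ∈ F (i + 1) → σ • w - w ∈ F i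
  ι_mul : ∀ i, i < L → ¬ et i → ∀ w w' : W, w ∈ F (i + 1) → w' ∈ F (i + 1) →
    ι i (w + w') = ι i w * ι i w'
  ι_one_iff : ∀ i, i < L → ¬ et i → ∀ w : W, w ∈ F (i + 1) → (ι i w = 1 ↔ w ∈ F i)
  ι_smul : ∀ i, i < L → ¬ et i → ∀ (σ : GQb) (w : W), w ∈ F (i + 1) → ι i (σ • w) = σ (ι i w)

variable {W}

/-- the number `α` of pieces of type `et`. -/
def TypedChain.alpha {l' : ℕ} (C : TypedChain W l') : ℕ :=
  open Classical in ((Finset.range C.L).filter C.et).card

/-- the local condition at `l'` (place `Al`): the axioms used by the dévissage. -/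
structure FlatCond {l' : ℕ} (C : TypedChain W l') (Al : ValuationSubring Qb)
    (Flat : (GQb → W) → Prop) : Prop where
  add : ∀ c c', Flat c → Flat c' → Flat (c + c')
  neg : ∀ c, Flat c → Flat (-c)
  cob : ∀ w : W, Flat fun σ => σ • w - w
  /-- on a piece of type `et` a flat class is unramified at `l'` -/
  et_unram : ∀ i, i < C.L → C.et i → ∀ c : GQb → W, IsCoc c → Flat c →
    (∀ σ, c σ ∈ C.F (i + 1)) → ∀ σ ∈ Al.inertiaSubgroupIn ℚ, c σ ∈ C.F i
  /-- on a piece of type `mu` a flat class is the Kummer class of a unit at `l'` -/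
  mu_unit : ∀ i, i < C.L → ¬ C.et i → ∀ c : GQb → W, IsCoc c → Flat c →
    (∀ σ, c σ ∈ C.F (i + 1)) →
    ∃ a : Qb, a ∈ Al ∧ a⁻¹ ∈ Al ∧ a ≠ 0 ∧
      ∀ σ ∈ Al.decompositionSubgroup ℚ, C.ι i (c σ) * a = σ a

end Cocycles

/-- **DESC-DEV: the inequality `h¹ - h⁰ ≤ δ - α`** (Mazur, Prop. I.1.7, in Galois form).
A family of pairwise non-cohomologous Selmer cocycles (unramified outside `l'`, in particular at
`p`; flat at `l'`) has at most `#W^{G_ℚ} · l'^(δ - α)` members, `l'^δ = [W : W^{I_p}]`. -/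
def DevStatement : Prop :=
  ∀ (p l' : ℕ), p.Prime → l'.Prime → p ≠ l' →
  ∀ (W : Type) [AddCommGroup W] [DistribMulAction GQb W] [Finite W],
    SmoothMod W → UnramMod W {p, l'} → (∀ w : W, ∃ k : ℕ, l' ^ k • w = 0) →
  ∀ (C : TypedChain W l') (Ap Al : ValuationSubring Qb), Ap.LiesOverPrime p →
    Al.LiesOverPrime l' →
  ∀ Flat : (GQb → W) → Prop, FlatCond C Al Flat →
  ∀ (n : ℕ) (c : Fin n → GQb → W),
    (∀ i, IsCoc (c i)) → (∀ i, IsCtsCoc (c i)) → (∀ i, UnramCoc {p, l'} (c i)) →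
    (∀ i, ∃ w : W, IsCobOn (Ap.inertiaSubgroupIn ℚ) (c i) w) → (∀ i, Flat (c i)) →
    (∀ i j, i ≠ j → ¬ Cohom (c i) (c j)) →
    n * l' ^ C.alpha * Nat.card (fixedBy W (Ap.inertiaSubgroupIn ℚ))
      ≤ Nat.card (fixedBy W ⊤) * Nat.card W

end Fermat.Agent.EDesc
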