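/-
Cluster E' (S15), seat DESC-PCS (helper39): the two PIECE COUNTS of Mazur's descent in the form
of the interface E/Desc/Dev/Iface.lean (helper90):

* `pcsEt_holds : PcsEt p l' Ap Al`  (Minkowski: Lib/Minkowski/Final.lean);
* `pcsMu_holds : PcsMu p l' Ap Al`  (Hilbert 90 + valuations: E/Desc/PCS.lean, with the
  unramifiedness of the inertia field from Lib/FFL/Unr.lean).
-/
import Fermat.Agent.E.Desc.PCS
import Fermat.Agent.E.Desc.Dev.Iface
import Fermat.Agent.Lib.FFL.Unr

set_option autoImplicit false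

namespace Fermat.Agent.EDesc

local notation "Qb" => AlgebraicClosure ℚ
local notation "GQb" => (AlgebraicClosure ℚ ≃ₐ[ℚ] AlgebraicClosure ℚ)

/-- the inertia field is unramified (helper26's `FFL.unrProp`). -/
theorem pcsUnr_holds (r : ℕ) (A : ValuationSubring Qb) (hr : r.Prime) (hA : A.LiesOverPrime r) :
    PcsUnr r A :=
  Fermat.Agent.FFL.unrProp r hr A hA

/-- **PCS (i)**: a normal open subgroup of `G_ℚ` containing an inertia group over every prime is
everything. -/
theorem pcs_normal_eq_top (N : Subgroup GQb) [N.Normal]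
    (hopen : ∃ E : IntermediateField ℚ Qb, FiniteDimensional ℚ E ∧ E.fixingSubgroup ≤ N)
    (hunr : ∀ q : ℕ, q.Prime → ∃ A : ValuationSubring Qb, A.LiesOverPrime q ∧
      A.inertiaSubgroupIn ℚ ≤ N) : N = ⊤ := by
  obtain ⟨E, hEfin, hEN⟩ := hopen
  have hNopen : IsOpen (N : Set GQb) := Subgroup.isOpen_mono hEN E.fixingSubgroup_isOpen
  have hker : (QuotientGroup.mk' N).ker = N := QuotientGroup.ker_mk' N
  have h := Fermat.Agent.Minkowski.minkowski_bridge (QuotientGroup.mk' N)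
    (by rw [hker]; exact hNopen) (fun q hq => by
      obtain ⟨A, hA, hAN⟩ := hunr q hq
      exact ⟨A, hA, fun σ hσ => (QuotientGroup.eq_one_iff σ).mpr (hAN hσ)⟩)
  rw [eq_top_iff]
  intro σ _
  exact (QuotientGroup.eq_one_iff σ).mp (h σ)

/-- **PCS (i)** in the form of the interface. -/
theorem pcsEt_holds (p l' : ℕ) (Ap Al : ValuationSubring Qb)
    (hAp : Ap.LiesOverPrime p) (hAl : Al.LiesOverPrime l') : PcsEt p l' Ap Al := by
  intro N hN hopen _ _ hunr hNp hNl
  haveI := hN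
  refine pcs_normal_eq_top N hopen fun q hq => ?_
  by_cases hqp : q = p
  · exact ⟨Ap, hqp ▸ hAp, hNp⟩
  by_cases hql : q = l'
  · exact ⟨Al, hql ▸ hAl, hNl⟩
  obtain ⟨A, hA⟩ := Fermat.Agent.FrobExists.exists_valuationSubring_liesOver q hq
  refine ⟨A, hA, hunr q hq ?_ A hA⟩
  simp only [Set.mem_insert_iff, Set.mem_singleton_iff, not_or]
  exact ⟨hqp, hql⟩

/-- **PCS (ii)** in the form of the interface. -/
theorem pcsMu_holds (p l' : ℕ) (hp : p.Prime) (hl : l'.Prime) (Ap Al : ValuationSubring Qb)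
    (hAp : Ap.LiesOverPrime p) (hAl : Al.LiesOverPrime l') : PcsMu p l' Ap Al := by
  intro κ hκ
  refine pcs_mu_cocycle l' hl (fun r A hr hA => pcsUnr_holds r A hr hA) κ hκ.pow hκ.coc hκ.cts
    (fun r hr hrl => ?_) Al hAl hκ.unit
  by_cases hrp : r = p
  · exact ⟨Ap, hrp ▸ hAp, hκ.unram_p⟩
  obtain ⟨A, hA⟩ := Fermat.Agent.FrobExists.exists_valuationSubring_liesOver r hr
  refine ⟨A, hA, hκ.unram r hr ?_ A hA⟩
  simp only [Set.mem_insert_iff, Set.mem_singleton_iff, not_or]
  exact ⟨hrp, hrl⟩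

end Fermat.Agent.EDesc
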