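/-
Cluster E' (S15), seat DESC-EIS (helper39), ALGEBRA: the Eisenstein "idempotent" without
structure theory of Artinian rings.

`eisAlg_exists_idem`: a ring `F` acts on an abelian group `M` (`ρ`), `ε : F → k` is a character,
`G ⊆ ker ε`, `K m` is an increasing chain of subgroups of `M` such that `x ∈ K (m+1)` as soon as
`ρ g x ∈ K m` for all `g ∈ G`.  If `V ⊆ M` is a finite `ρ`-stable subgroup on which the action is
commutative, then there is `e ∈ F` with `ε e = 1` and `ρ e V ⊆ ⋃ K m`.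

Proof: induction on `#U` for the `ρ`-stable subgroups `U ⊆ V`.  If `U ⊄ ⋃ K m`, the elements of
`U` outside `⋃ K m` are permuted into each other by suitable `g ∈ G`, so (pigeonhole) some
product `u` of elements of `G` has a nonzero fixed point in `U`; then `(1 - u) U` is smaller.
-/
import Mathlib

set_option autoImplicit false
set_option linter.style.haveILetI false

namespace Fermat.Agent.EDesc

section EisAlg

variable {F : Type*} [Ring F] {k : Type*} [Ring k] (ε : F →+* k)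
  {M : Type*} [AddCommGroup M] (ρ : F →+* Module.End ℤ M)
  (G : Set F) (K : ℕ → AddSubgroup M)

/-- uniform level: a finite set meets `⋃ K m` inside one `K m₀`. -/
theorem eisAlg_uniform (hKmono : Monotone K) (U : AddSubgroup M) [Finite U] :
    ∃ m₀ : ℕ, ∀ z ∈ U, (∃ m, z ∈ K m) → z ∈ K m₀ := by
  classical
  let f : U → ℕ := fun z => if h : ∃ m, (z : M) ∈ K m then Nat.find h else 0
  obtain ⟨m₀, hm₀⟩ := (Set.finite_range f).bddAbove
  refine ⟨m₀, fun z hz h => ?_⟩
  have h1 : f ⟨z, hz⟩ ≤ m₀ := hm₀ ⟨⟨z, hz⟩, rfl⟩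
  have h2 : z ∈ K (f ⟨z, hz⟩) := by
    simp only [f, dif_pos h]
    exact Nat.find_spec h
  exact hKmono h1 h2

/-- an element outside `⋃ K m` is moved by some generator to an element outside `⋃ K m`. -/
theorem eisAlg_exists_gen (hKmono : Monotone K)
    (hKsucc : ∀ (m : ℕ) (x : M), (∀ g ∈ G, ρ g x ∈ K m) → x ∈ K (m + 1))
    (U : AddSubgroup M) [Finite U] (hU : ∀ (a : F), ∀ x ∈ U, ρ a x ∈ U)
    {y : M} (hy : y ∈ U) (hyK : ∀ m, y ∉ K m) :
    ∃ g ∈ G, ∀ m, ρ g y ∉ K m := by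
  by_contra hcon
  push Not at hcon
  obtain ⟨m₀, hm₀⟩ := eisAlg_uniform K hKmono U
  refine hyK (m₀ + 1) (hKsucc m₀ y fun g hg => ?_)
  exact hm₀ _ (hU g y hy) (hcon g hg)

/-- an element of `ker ε` with a nonzero fixed point. -/
theorem eisAlg_exists_fixed (hG : ∀ g ∈ G, ε g = 0) (hKmono : Monotone K)
    (hKsucc : ∀ (m : ℕ) (x : M), (∀ g ∈ G, ρ g x ∈ K m) → x ∈ K (m + 1))
    (U : AddSubgroup M) [Finite U] (hU : ∀ (a : F), ∀ x ∈ U, ρ a x ∈ U)
    {x₀ : M} (hx₀ : x₀ ∈ U) (hx₀K : ∀ m, x₀ ∉ K m) :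
    ∃ u : F, ε u = 0 ∧ ∃ y ∈ U, y ≠ 0 ∧ ρ u y = y := by
  classical
  -- the set of bad elements
  let Y : Type _ := {y : M // y ∈ U ∧ ∀ m, y ∉ K m}
  have hYfin : Finite Y :=
    Finite.of_injective (fun y : Y => (⟨y.1, y.2.1⟩ : U)) fun a b h => by
      apply Subtype.ext
      exact congrArg (fun z : U => (z : M)) h
  have hstep : ∀ y : Y, ∃ g ∈ G, ∀ m, ρ g y.1 ∉ K m := fun y =>
    eisAlg_exists_gen ρ G K hKmono hKsucc U hU y.2.1 y.2.2
  choose g hgG hgK using hstep
  let φ : Y → Y := fun y => ⟨ρ (g y) y.1, hU _ _ y.2.1, hgK y⟩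
  have hiter : ∀ n : ℕ, ∀ y : Y, ∃ u : F, ε u = 0 ∧ ((φ^[n + 1] y : Y) : M) = ρ u y.1 := by
    intro n
    induction n with
    | zero =>
      intro y
      exact ⟨g y, hG _ (hgG y), rfl⟩
    | succ n ih =>
      intro y
      obtain ⟨u, hu, hu'⟩ := ih (φ y)
      refine ⟨u * g y, by rw [map_mul, hu, zero_mul], ?_⟩
      rw [Function.iterate_succ_apply, hu', map_mul]
      rfl
  let y₀ : Y := ⟨x₀, hx₀, hx₀K⟩
  obtain ⟨i, j, hij, heq⟩ := Finite.exists_ne_map_eq_of_infinite (fun n : ℕ => φ^[n] y₀)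
  -- wlog `i < j`
  have key : ∀ i j : ℕ, i < j → φ^[i] y₀ = φ^[j] y₀ →
      ∃ u : F, ε u = 0 ∧ ∃ y ∈ U, y ≠ 0 ∧ ρ u y = y := by
    intro i j hij heq
    obtain ⟨d, rfl⟩ : ∃ d, j = i + (d + 1) := ⟨j - i - 1, by omega⟩
    obtain ⟨u, hu, hu'⟩ := hiter d (φ^[i] y₀)
    refine ⟨u, hu, (φ^[i] y₀).1, (φ^[i] y₀).2.1, ?_, ?_⟩
    · intro h0
      exact (φ^[i] y₀).2.2 0 (h0 ▸ (K 0).zero_mem)
    · rw [← hu', ← Function.iterate_add_apply, add_comm (d + 1) i, ← heq]
  rcases Nat.lt_or_gt_of_ne hij with h | h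
  · exact key i j h heq
  · exact key j i h heq.symm

/-- **the Eisenstein idempotent, elementary form.** -/
theorem eisAlg_exists_idem (hG : ∀ g ∈ G, ε g = 0) (hKmono : Monotone K)
    (hKsucc : ∀ (m : ℕ) (x : M), (∀ g ∈ G, ρ g x ∈ K m) → x ∈ K (m + 1))
    (V : AddSubgroup M) [Finite V] (hV : ∀ (a : F), ∀ x ∈ V, ρ a x ∈ V)
    (hcomm : ∀ (a b : F), ∀ x ∈ V, ρ a (ρ b x) = ρ b (ρ a x)) :
    ∃ e : F, ε e = 1 ∧ ∀ x ∈ V, ∃ m, ρ e x ∈ K m := by
  classical
  have main : ∀ n : ℕ, ∀ U : AddSubgroup M, U ≤ V → (∀ (a : F), ∀ x ∈ U, ρ a x ∈ U) →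
      Nat.card U ≤ n → ∃ e : F, ε e = 1 ∧ ∀ x ∈ U, ∃ m, ρ e x ∈ K m := by
    intro n
    induction n with
    | zero =>
      intro U hUV _ hcard
      haveI : Finite U := Finite.of_injective (fun x : U => (⟨x.1, hUV x.2⟩ : V))
        fun a b h => Subtype.ext (congrArg (fun z : V => (z : M)) h)
      have : 0 < Nat.card U := Nat.card_pos
      omega
    | succ n ih =>
      intro U hUV hU hcard
      haveI : Finite U := Finite.of_injective (fun x : U => (⟨x.1, hUV x.2⟩ : V))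
        fun a b h => Subtype.ext (congrArg (fun z : V => (z : M)) h)
      by_cases hall : ∀ x ∈ U, ∃ m, x ∈ K m
      · exact ⟨1, map_one ε, fun x hx => by simpa using hall x hx⟩
      · push Not at hall
        obtain ⟨x₀, hx₀, hx₀K⟩ := hall
        obtain ⟨u, hu, y, hy, hy0, huy⟩ :=
          eisAlg_exists_fixed ε ρ G K hG hKmono hKsucc U hU hx₀ hx₀K
        let e₁ : F := 1 - u
        let U' : AddSubgroup M := U.map (ρ e₁).toAddMonoidHom
        have hU'U : U' ≤ U := by
          rintro _ ⟨x, hx, rfl⟩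
          exact hU e₁ x hx
        have hU' : ∀ (a : F), ∀ x ∈ U', ρ a x ∈ U' := by
          rintro a _ ⟨x, hx, rfl⟩
          refine ⟨ρ a x, hU a x hx, ?_⟩
          exact (hcomm a e₁ x (hUV hx)).symm
        have hlt : Nat.card U' < Nat.card U := by
          let f : U → U' := fun x => ⟨ρ e₁ x.1, x.1, x.2, rfl⟩
          have hf : Function.Surjective f := by
            rintro ⟨_, x, hx, rfl⟩
            exact ⟨⟨x, hx⟩, rfl⟩
          have hnf : ¬ Function.Injective f := by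
            intro hinj
            have h1 : f ⟨y, hy⟩ = f 0 := by
              apply Subtype.ext
              show ρ e₁ y = ρ e₁ 0
              rw [map_zero]
              show ρ (1 - u) y = 0
              rw [map_sub, map_one, LinearMap.sub_apply, huy]
              simp
            have h2 := hinj h1
            exact hy0 (congrArg (fun z : U => (z : M)) h2)
          haveI : Finite U' := Finite.of_surjective f hf
          haveI := Fintype.ofFinite U
          haveI := Fintype.ofFinite U'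
          rw [Nat.card_eq_fintype_card, Nat.card_eq_fintype_card]
          exact Fintype.card_lt_of_surjective_not_injective f hf hnf
        obtain ⟨e', he', he'U⟩ := ih U' (hU'U.trans hUV) hU' (by omega)
        refine ⟨e' * e₁, ?_, fun x hx => ?_⟩
        · rw [map_mul, he', one_mul, map_sub, map_one, hu, sub_zero]
        · rw [map_mul]
          exact he'U (ρ e₁ x) ⟨x, hx, rfl⟩
  exact main (Nat.card V) V le_rfl hV le_rfl

end EisAlg

end Fermat.Agent.EDesc
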