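import Mathlib

/-!
# E' / Desc / JH : Jordan–Hölder chains with characters `1` and `χ`  (seat DESC-JH)

`Γ` a group, `W` a finite abelian group with a `ℤ`-linear action `ρ` of `Γ`, `l` a prime,
`χ : Γ →* (ZMod l)ˣ` a character; `jhMul χ g ∈ ℕ` is the representative `0 < c < l` of `χ g`.

* `jh_exists_eigenvector` : if `W ≠ 0` is killed by `l` and every `g` satisfies
  `(g - 1)(g - χ g) = 0` on `W`, there is `v ≠ 0` with `g v = v` for all `g` or
  `g v = χ(g) v` for all `g`.  [`ker χ` acts through an `l`-group (unipotent of exponent `l`), so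
  it has a nonzero fixed vector; `Γ / ker χ` is cyclic of order prime to `l`.]
* `JHBuild ρ χ B` : the `Γ`-stable subgroup `B` is reached from `0` by steps `B ⊂ B'` with
  `B' / B` cyclic of order `l` on which `Γ` acts trivially (`τ = false`) or through `χ`
  (`τ = true`).
* `jh_build_top` : if `W` has a `Γ`-stable filtration `W = W₀ ⊇ W₁ ⊇ … ⊇ W_m = 0` whose graded
  pieces are killed by `l` and by `(g - 1)(g - χ g)` for all `g`, then `JHBuild ρ χ ⊤`.
-/

set_option autoImplicit false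

namespace Fermat.Agent.EDesc

variable {Γ : Type*} [Group Γ]

/-- The representative `0 ≤ c < l` of `χ g`. -/
def jhMul {l : ℕ} (χ : Γ →* (ZMod l)ˣ) (g : Γ) : ℕ := ((χ g : (ZMod l)ˣ) : ZMod l).val

section Basic

variable {l : ℕ} [Fact l.Prime] (χ : Γ →* (ZMod l)ˣ)

theorem jhMul_of_mem_ker {h : Γ} (hh : h ∈ χ.ker) : jhMul χ h = 1 := by
  have hl : 1 < l := (Fact.out : l.Prime).one_lt
  have : Fact (1 < l) := ⟨hl⟩
  unfold jhMul
  rw [MonoidHom.mem_ker.1 hh, Units.val_one, ZMod.val_one]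

theorem jhMul_lt (g : Γ) : jhMul χ g < l := by
  have : NeZero l := ⟨(Fact.out : l.Prime).ne_zero⟩
  exact ZMod.val_lt _

theorem jhMul_cast (g : Γ) : ((jhMul χ g : ℕ) : ZMod l) = ((χ g : (ZMod l)ˣ) : ZMod l) := by
  have : NeZero l := ⟨(Fact.out : l.Prime).ne_zero⟩
  exact ZMod.natCast_zmod_val _

theorem jhMul_pos (g : Γ) : 0 < jhMul χ g := by
  have : NeZero l := ⟨(Fact.out : l.Prime).ne_zero⟩
  rw [Nat.pos_iff_ne_zero]
  intro h
  have h2 := jhMul_cast χ g
  rw [h, Nat.cast_zero] at h2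
  exact (χ g).ne_zero h2.symm

/-- `n • x` depends only on `n` modulo `l` when `l • x = 0`. -/
theorem jh_nsmul_congr {W : Type*} [AddCommGroup W] {x : W} (hx : l • x = 0) {a b : ℕ}
    (hab : (a : ZMod l) = (b : ZMod l)) : a • x = b • x := by
  rw [ZMod.natCast_eq_natCast_iff] at hab
  have h1 : ∀ n : ℕ, n • x = (n % l) • x := by
    intro n
    conv_lhs => rw [← Nat.div_add_mod n l]
    rw [add_smul, mul_comm, mul_smul, hx, smul_zero, zero_add]
  rw [h1 a, h1 b, hab]

end Basic

section Eigen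

variable {W : Type*} [AddCommGroup W] {l : ℕ} [Fact l.Prime]
  (ρ : Representation ℤ Γ W) (χ : Γ →* (ZMod l)ˣ)

/-- the powers of a unipotent element -/
theorem jh_pow_apply {h : Γ} (hq : ∀ x, ρ h (ρ h x) + x = 2 • ρ h x) (k : ℕ) (x : W) :
    ρ (h ^ k) x = x + k • (ρ h x - x) := by
  have hN : ∀ x, ρ h (ρ h x) - ρ h x = ρ h x - x := by
    intro x
    have := hq x
    rw [two_nsmul] at this
    rw [sub_eq_sub_iff_add_eq_add]
    exact this
  induction k generalizing x with
  | zero => simp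
  | succ k ih =>
    rw [pow_succ, map_mul, Module.End.mul_apply, ih (ρ h x), hN, succ_nsmul]
    abel

/-- The permutation representation attached to `ρ`. -/
def jhPerm : Γ →* Equiv.Perm W where
  toFun g :=
    { toFun := ρ g
      invFun := ρ g⁻¹
      left_inv := fun x => by
        rw [← Module.End.mul_apply, ← map_mul, inv_mul_cancel, map_one, Module.End.one_apply]
      right_inv := fun x => by
        rw [← Module.End.mul_apply, ← map_mul, mul_inv_cancel, map_one, Module.End.one_apply] }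
  map_one' := by
    ext x
    simp
  map_mul' g h := by
    ext x
    simp

@[simp] theorem jhPerm_apply (g : Γ) (x : W) : jhPerm ρ g x = ρ g x := rfl

/-- `ker χ` has a nonzero fixed vector. -/
theorem jh_exists_fixed_ker [Finite W] [Nontrivial W] (hl : ∀ x : W, l • x = 0)
    (hq : ∀ g x, ρ g (ρ g x) + jhMul χ g • x = (1 + jhMul χ g) • ρ g x) :
    ∃ b : W, b ≠ 0 ∧ ∀ h ∈ χ.ker, ρ h b = b := by
  classical
  have hlp : l.Prime := Fact.out
  set P : Subgroup (Equiv.Perm W) := ((jhPerm ρ).comp χ.ker.subtype).range with hP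
  have hpow : ∀ h ∈ χ.ker, ∀ x, ρ (h ^ l) x = x := by
    intro h hh x
    have hq' : ∀ x, ρ h (ρ h x) + x = 2 • ρ h x := by
      intro x
      have := hq h x
      rw [jhMul_of_mem_ker χ hh, one_smul] at this
      exact this
    rw [jh_pow_apply ρ hq' l x, hl, add_zero]
  have hPG : IsPGroup l P := by
    rintro ⟨σ, h, rfl⟩
    refine ⟨1, ?_⟩
    apply Subtype.ext
    rw [pow_one]
    show (((jhPerm ρ).comp χ.ker.subtype) h) ^ l = 1
    rw [← map_pow]
    ext x
    show ρ ((h : Γ) ^ l) x = x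
    exact hpow h h.2 x
  have hcard : l ∣ Nat.card W := by
    have hW : IsPGroup l (Multiplicative W) := by
      intro x
      refine ⟨1, ?_⟩
      rw [pow_one]
      exact congrArg Multiplicative.ofAdd (hl (Multiplicative.toAdd x))
    obtain ⟨n, hn⟩ := IsPGroup.iff_card.1 hW
    have hn' : Nat.card W = l ^ n := by
      rw [← hn]
      exact (Nat.card_congr Multiplicative.ofAdd).symm ▸ rfl
    rw [hn']
    have : n ≠ 0 := by
      rintro rfl
      rw [pow_zero] at hn'
      have := Finite.one_lt_card (α := W)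
      omega
    exact dvd_pow_self l this
  have h0 : (0 : W) ∈ MulAction.fixedPoints P W := by
    rintro ⟨σ, h, rfl⟩
    show ρ (h : Γ) 0 = 0
    exact map_zero _
  obtain ⟨b, hb, hb0⟩ := hPG.exists_fixed_point_of_prime_dvd_card_of_fixed_point W hcard h0
  refine ⟨b, fun h => hb0 h.symm, fun h hh => ?_⟩
  exact hb ⟨_, ⟨⟨h, hh⟩, rfl⟩⟩

/-- The fixed vectors of `ker χ` are stable under `Γ`. -/
theorem jh_fixed_ker_stable {b : W} (hb : ∀ h ∈ χ.ker, ρ h b = b) (g : Γ) :
    ∀ h ∈ χ.ker, ρ h (ρ g b) = ρ g b := by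
  intro h hh
  have hn : g⁻¹ * h * g ∈ χ.ker := by
    have := (inferInstance : χ.ker.Normal).conj_mem h hh g⁻¹
    simpa using this
  have h1 := hb _ hn
  calc ρ h (ρ g b) = ρ (g * (g⁻¹ * h * g)) b := by
        rw [← Module.End.mul_apply, ← map_mul]
        congr 2
        group
    _ = ρ g (ρ (g⁻¹ * h * g) b) := by rw [map_mul, Module.End.mul_apply]
    _ = ρ g b := by rw [h1]

/-- The image of `χ` is cyclic. -/
theorem jh_exists_generator : ∃ g₀ : Γ, ∀ g : Γ, ∃ k : ℕ, χ g = χ g₀ ^ k := by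
  have : NeZero l := ⟨(Fact.out : l.Prime).ne_zero⟩
  have hc : IsCyclic χ.range := inferInstance
  obtain ⟨⟨u, g₀, rfl⟩, hu⟩ := hc.exists_generator
  refine ⟨g₀, fun g => ?_⟩
  have hmem := hu ⟨χ g, g, rfl⟩
  rw [← (isOfFinOrder_of_finite (⟨χ g₀, g₀, rfl⟩ : χ.range)).mem_powers_iff_mem_zpowers,
    Submonoid.mem_powers_iff] at hmem
  obtain ⟨k, hk⟩ := hmem
  refine ⟨k, ?_⟩
  have := congrArg Subtype.val hk
  simpa using this.symm

/-- **Eigenvector lemma.**  If `W ≠ 0` is finite, killed by `l`, and every `g` satisfies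
`(g - 1)(g - χ g) = 0`, there is a nonzero vector on which `Γ` acts trivially or through `χ`. -/
theorem jh_exists_eigenvector [Finite W] [Nontrivial W] (hl : ∀ x : W, l • x = 0)
    (hq : ∀ g x, ρ g (ρ g x) + jhMul χ g • x = (1 + jhMul χ g) • ρ g x) :
    ∃ v : W, v ≠ 0 ∧ ((∀ g, ρ g v = v) ∨ (∀ g, ρ g v = jhMul χ g • v)) := by
  have hlp : l.Prime := Fact.out
  have : NeZero l := ⟨hlp.ne_zero⟩
  obtain ⟨b, hb0, hb⟩ := jh_exists_fixed_ker ρ χ hl hq
  obtain ⟨g₀, hg₀⟩ := jh_exists_generator χ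
  -- decomposition of an arbitrary element
  have hdec : ∀ g : Γ, ∃ k : ℕ, (g₀ ^ k)⁻¹ * g ∈ χ.ker := by
    intro g
    obtain ⟨k, hk⟩ := hg₀ g
    refine ⟨k, ?_⟩
    rw [MonoidHom.mem_ker, map_mul, map_inv, map_pow, hk, inv_mul_cancel]
  have hact : ∀ y : W, (∀ h ∈ χ.ker, ρ h y = y) → ∀ g : Γ, ∃ k : ℕ,
      χ g = χ g₀ ^ k ∧ ρ g y = ρ (g₀ ^ k) y := by
    intro y hy g
    obtain ⟨k, hk⟩ := hg₀ g
    refine ⟨k, hk, ?_⟩
    have hmem : (g₀ ^ k)⁻¹ * g ∈ χ.ker := by
      rw [MonoidHom.mem_ker, map_mul, map_inv, map_pow, hk, inv_mul_cancel]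
    have h1 := hy _ hmem
    calc ρ g y = ρ (g₀ ^ k * ((g₀ ^ k)⁻¹ * g)) y := by
          congr 2
          group
      _ = ρ (g₀ ^ k) (ρ ((g₀ ^ k)⁻¹ * g) y) := by rw [map_mul, Module.End.mul_apply]
      _ = ρ (g₀ ^ k) y := by rw [h1]
  set c₀ := jhMul χ g₀ with hc₀
  have hq₀ := hq g₀
  -- the two projections of `b`
  set y₁ : W := ρ g₀ b - c₀ • b with hy₁
  set y₂ : W := ρ g₀ b - b with hy₂
  have hfix₁ : ∀ h ∈ χ.ker, ρ h y₁ = y₁ := by
    intro h hh
    rw [hy₁, map_sub, map_nsmul, jh_fixed_ker_stable ρ χ hb g₀ h hh, hb h hh]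
  have hfix₂ : ∀ h ∈ χ.ker, ρ h y₂ = y₂ := by
    intro h hh
    rw [hy₂, map_sub, jh_fixed_ker_stable ρ χ hb g₀ h hh, hb h hh]
  have he₁ : ρ g₀ y₁ = y₁ := by
    have := hq₀ b
    rw [hy₁, map_sub, map_nsmul]
    rw [add_smul, one_smul] at this
    rw [sub_eq_sub_iff_add_eq_add]
    exact this
  have he₂ : ρ g₀ y₂ = c₀ • y₂ := by
    have := hq₀ b
    rw [hy₂, map_sub, smul_sub]
    rw [add_smul, one_smul] at this
    rw [sub_eq_sub_iff_add_eq_add, this]
    abel
  have hpow₁ : ∀ k : ℕ, ρ (g₀ ^ k) y₁ = y₁ := by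
    intro k
    induction k with
    | zero => simp
    | succ k ih => rw [pow_succ, map_mul, Module.End.mul_apply, he₁, ih]
  have hpow₂ : ∀ k : ℕ, ρ (g₀ ^ k) y₂ = c₀ ^ k • y₂ := by
    intro k
    induction k with
    | zero => simp
    | succ k ih =>
      rw [pow_succ, map_mul, Module.End.mul_apply, he₂, map_nsmul, ih, ← mul_smul, mul_comm,
        ← pow_succ]
  by_cases h1 : y₁ = 0
  · by_cases h2 : y₂ = 0
    · -- then `χ g₀ = 1` or `b = 0`
      have hb1 : ρ g₀ b = b := sub_eq_zero.1 h2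
      have hb2 : c₀ • b = b := by
        have := sub_eq_zero.1 h1
        rw [← this, hb1]
      by_cases hc1 : c₀ = 1
      · -- `χ` is trivial
        have hχ₀ : χ g₀ = 1 := by
          apply Units.ext
          rw [← jhMul_cast χ g₀, ← hc₀, hc1, Nat.cast_one, Units.val_one]
        refine ⟨b, hb0, Or.inl fun g => ?_⟩
        apply hb
        obtain ⟨k, hk⟩ := hg₀ g
        rw [MonoidHom.mem_ker, hk, hχ₀, one_pow]
      · exfalso
        -- `(c₀ - 1) • b = 0` with `c₀ - 1` prime to `l`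
        have hpos : 0 < c₀ := jhMul_pos χ g₀
        have hlt : c₀ < l := jhMul_lt χ g₀
        have hcop : Nat.Coprime (c₀ - 1) l := by
          apply Nat.Coprime.symm
          rw [hlp.coprime_iff_not_dvd]
          intro hdvd
          have := Nat.le_of_dvd (by omega) hdvd
          omega
        have h3 : (c₀ - 1) • b = 0 := by
          have : c₀ • b = (c₀ - 1) • b + b := by
            conv_lhs => rw [show c₀ = (c₀ - 1) + 1 by omega]
            rw [add_smul, one_smul]
          rw [this] at hb2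
          simpa using hb2
        obtain ⟨u, v, huv⟩ : ∃ u v : ℤ, u * ((c₀ - 1 : ℕ) : ℤ) + v * (l : ℤ) = 1 := by
          have := Nat.Coprime.isCoprime hcop
          obtain ⟨u, v, h⟩ := this
          exact ⟨u, v, h⟩
        apply hb0
        have : (1 : ℤ) • b = 0 := by
          rw [← huv, add_smul, mul_smul, mul_smul, natCast_zsmul, natCast_zsmul, h3, hl,
            smul_zero, smul_zero, add_zero]
        simpa using this
    · refine ⟨y₂, h2, Or.inr fun g => ?_⟩
      obtain ⟨k, hk, hρ⟩ := hact y₂ hfix₂ g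
      rw [hρ, hpow₂ k]
      apply jh_nsmul_congr (hl y₂)
      rw [Nat.cast_pow, jhMul_cast, jhMul_cast, hk, Units.val_pow_eq_pow_val]
  · refine ⟨y₁, h1, Or.inl fun g => ?_⟩
    obtain ⟨k, -, hρ⟩ := hact y₁ hfix₁ g
    rw [hρ, hpow₁ k]

end Eigen

section Chain

variable {l : ℕ}

/-- One step of a Jordan–Hölder chain: `B ≤ B'`, `B'` is stable, `B' / B` is cyclic of order `l`
and `Γ` acts on it trivially (`τ = false`) or through `χ` (`τ = true`). -/
structure JHStep {W : Type*} [AddCommGroup W] (ρ : Representation ℤ Γ W) (χ : Γ →* (ZMod l)ˣ)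
    (τ : Bool) (B B' : Submodule ℤ W) : Prop where
  le : B ≤ B'
  stable : ∀ g, ∀ x ∈ B', ρ g x ∈ B'
  gen : ∃ v ∈ B', v ∉ B ∧ l • v ∈ B ∧ ∀ x ∈ B', ∃ k : ℕ, x - k • v ∈ B
  char : ∀ g, ∀ x ∈ B', ρ g x - (if τ then jhMul χ g else 1) • x ∈ B

/-- `B` is reached from `0` by Jordan–Hölder steps. -/
inductive JHBuild {W : Type*} [AddCommGroup W] (ρ : Representation ℤ Γ W)
    (χ : Γ →* (ZMod l)ˣ) : Submodule ℤ W → Prop
  | bot : JHBuild ρ χ ⊥
  | step {B B' : Submodule ℤ W} (τ : Bool) : JHBuild ρ χ B → JHStep ρ χ τ B B' → JHBuild ρ χ B'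

variable {W : Type*} [AddCommGroup W] (ρ : Representation ℤ Γ W) (χ : Γ →* (ZMod l)ˣ)

/-- The first step: the line spanned by an eigenvector. -/
theorem jh_step_span [Fact l.Prime] {v : W} (hv0 : v ≠ 0) (hlv : l • v = 0) (τ : Bool)
    (hv : ∀ g, ρ g v = (if τ then jhMul χ g else 1) • v) :
    JHStep ρ χ τ ⊥ (Submodule.span ℤ {v}) := by
  have hl0 : l ≠ 0 := (Fact.out : l.Prime).ne_zero
  have hmem : ∀ x ∈ Submodule.span ℤ {v}, ∃ z : ℤ, x = z • v := by
    intro x hx
    obtain ⟨z, rfl⟩ := Submodule.mem_span_singleton.1 hx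
    exact ⟨z, rfl⟩
  refine ⟨bot_le, fun g x hx => ?_, ⟨v, Submodule.mem_span_singleton_self v, ?_, ?_, ?_⟩,
    fun g x hx => ?_⟩
  · obtain ⟨z, rfl⟩ := hmem x hx
    rw [map_zsmul, hv g]
    exact Submodule.smul_mem _ _ (Submodule.smul_of_tower_mem _ _
      (Submodule.mem_span_singleton_self v))
  · simpa using hv0
  · rw [hlv]; exact Submodule.zero_mem _
  · intro x hx
    obtain ⟨z, rfl⟩ := hmem x hx
    refine ⟨(z % (l : ℤ)).toNat, ?_⟩
    have hlpos : (0 : ℤ) < l := by exact_mod_cast Nat.pos_of_ne_zero hl0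
    have h1 : ((z % (l : ℤ)).toNat : ℤ) = z % l :=
      Int.toNat_of_nonneg (Int.emod_nonneg _ hlpos.ne')
    have h2 : z • v = (z % (l : ℤ)) • v := by
      conv_lhs => rw [← Int.mul_ediv_add_emod z l]
      rw [add_smul, mul_comm, mul_smul, natCast_zsmul, hlv, smul_zero, zero_add]
    rw [Submodule.mem_bot, sub_eq_zero, h2]
    conv_lhs => rw [← h1]
    rw [natCast_zsmul]
  · obtain ⟨z, rfl⟩ := hmem x hx
    rw [Submodule.mem_bot, sub_eq_zero, map_zsmul, hv g, smul_comm]

/-- Pull back a step along the quotient map by a stable submodule. -/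
theorem jh_step_comap (L : Submodule ℤ W) (hL : ∀ g, L ≤ L.comap (ρ g)) {τ : Bool}
    {B B' : Submodule ℤ (W ⧸ L)} (h : JHStep (ρ.quotient L hL) χ τ B B') :
    JHStep ρ χ τ (B.comap L.mkQ) (B'.comap L.mkQ) := by
  obtain ⟨hle, hst, ⟨v, hvB', hvB, hlv, hgen⟩, hch⟩ := h
  obtain ⟨w, rfl⟩ := L.mkQ_surjective v
  refine ⟨Submodule.comap_mono hle, fun g x hx => ?_, ⟨w, hvB', hvB, ?_, fun x hx => ?_⟩,
    fun g x hx => ?_⟩
  · have := hst g _ hx
    exact this
  · rw [Submodule.mem_comap, map_nsmul]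
    exact hlv
  · obtain ⟨k, hk⟩ := hgen _ hx
    refine ⟨k, ?_⟩
    rw [Submodule.mem_comap, map_sub, map_nsmul]
    exact hk
  · have := hch g _ hx
    rw [Submodule.mem_comap, map_sub, map_nsmul]
    exact this

/-- Pull back a chain along the quotient map by the line of an eigenvector. -/
theorem jh_build_comap [Fact l.Prime] {v : W} (hv0 : v ≠ 0) (hlv : l • v = 0) (τ : Bool)
    (hv : ∀ g, ρ g v = (if τ then jhMul χ g else 1) • v)
    (hL : ∀ g, Submodule.span ℤ {v} ≤ (Submodule.span ℤ {v}).comap (ρ g))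
    {B : Submodule ℤ (W ⧸ Submodule.span ℤ {v})}
    (h : JHBuild (ρ.quotient (Submodule.span ℤ {v}) hL) χ B) :
    JHBuild ρ χ (B.comap (Submodule.span ℤ {v}).mkQ) := by
  induction h with
  | bot =>
    have : (⊥ : Submodule ℤ (W ⧸ Submodule.span ℤ {v})).comap (Submodule.span ℤ {v}).mkQ =
        Submodule.span ℤ {v} := by
      rw [Submodule.comap_bot, Submodule.ker_mkQ]
    rw [this]
    exact JHBuild.step τ JHBuild.bot (jh_step_span ρ χ hv0 hlv τ hv)
  | step τ' _ hstep ih => exact JHBuild.step τ' ih (jh_step_comap ρ χ _ hL hstep)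

end Chain

section Main

universe u

variable {l : ℕ} [Fact l.Prime] (χ : Γ →* (ZMod l)ˣ)

theorem jh_build_top_aux (n : ℕ) :
    ∀ (W : Type u) [AddCommGroup W] [Finite W] (ρ : Representation ℤ Γ W) (m : ℕ)
      (Wf : ℕ → Submodule ℤ W), Nat.card W = n → Wf 0 = ⊤ → Wf m = ⊥ →
      (∀ i g, ∀ x ∈ Wf i, ρ g x ∈ Wf i) →
      (∀ i, ∀ x ∈ Wf i, l • x ∈ Wf (i + 1)) →
      (∀ i g, ∀ x ∈ Wf i,
        ρ g (ρ g x) + jhMul χ g • x - (1 + jhMul χ g) • ρ g x ∈ Wf (i + 1)) →
      JHBuild ρ χ ⊤ := by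
  induction n using Nat.strong_induction_on with
  | _ n ih =>
    intro W _ _ ρ m Wf hcard h0 hm hstab hl hq
    classical
    by_cases hsub : Subsingleton W
    · have : (⊤ : Submodule ℤ W) = ⊥ := Subsingleton.elim _ _
      rw [this]
      exact JHBuild.bot
    · rw [not_subsingleton_iff_nontrivial] at hsub
      have hex : ∃ j, Wf j = ⊥ := ⟨m, hm⟩
      have hj₀ : Wf (Nat.find hex) = ⊥ := Nat.find_spec hex
      have hj₀pos : Nat.find hex ≠ 0 := by
        intro h
        rw [h, h0] at hj₀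
        exact top_ne_bot hj₀
      obtain ⟨i, hi⟩ := Nat.exists_eq_succ_of_ne_zero hj₀pos
      have hVne : Wf i ≠ ⊥ := Nat.find_min hex (by omega)
      have hVnext : Wf (i + 1) = ⊥ := by
        rw [← Nat.succ_eq_add_one, ← hi]
        exact hj₀
      have hVstab : ∀ g, Wf i ≤ (Wf i).comap (ρ g) := fun g x hx => hstab i g x hx
      have : Nontrivial (Wf i) := (Submodule.nontrivial_iff_ne_bot).2 hVne
      have hlV : ∀ x : Wf i, l • x = 0 := by
        intro x
        apply Subtype.ext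
        have := hl i x x.2
        rw [hVnext, Submodule.mem_bot] at this
        simpa using this
      have hqV : ∀ g (x : Wf i), ρ.subrepresentation (Wf i) hVstab g
          (ρ.subrepresentation (Wf i) hVstab g x) + jhMul χ g • x =
          (1 + jhMul χ g) • ρ.subrepresentation (Wf i) hVstab g x := by
        intro g x
        apply Subtype.ext
        have := hq i g x x.2
        rw [hVnext, Submodule.mem_bot, sub_eq_zero] at this
        simpa using this
      obtain ⟨v, hv0, hv⟩ := jh_exists_eigenvector (ρ.subrepresentation (Wf i) hVstab) χ hlV hqV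
      have hv0' : (v : W) ≠ 0 := fun h => hv0 (Subtype.ext h)
      have hlv' : l • (v : W) = 0 := by
        have := congrArg Subtype.val (hlV v)
        simpa using this
      obtain ⟨τ, hτ⟩ : ∃ τ : Bool, ∀ g, ρ g (v : W) = (if τ then jhMul χ g else 1) • (v : W) := by
        rcases hv with h | h
        · refine ⟨false, fun g => ?_⟩
          have := congrArg Subtype.val (h g)
          simpa using this
        · refine ⟨true, fun g => ?_⟩
          have := congrArg Subtype.val (h g)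
          simpa using this
      have hL : ∀ g, Submodule.span ℤ {(v : W)} ≤ (Submodule.span ℤ {(v : W)}).comap (ρ g) :=
        (jh_step_span ρ χ hv0' hlv' τ hτ).stable
      -- the quotient
      have hfin : Finite (W ⧸ Submodule.span ℤ {(v : W)}) :=
        Finite.of_surjective _ (Submodule.span ℤ {(v : W)}).mkQ_surjective
      have hcardlt : Nat.card (W ⧸ Submodule.span ℤ {(v : W)}) < n := by
        have h1 := Submodule.card_eq_card_quotient_mul_card (Submodule.span ℤ {(v : W)})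
        rw [hcard] at h1
        have h2 : 1 < Nat.card (Submodule.span ℤ {(v : W)}) := by
          have : Nontrivial (Submodule.span ℤ {(v : W)}) :=
            (Submodule.nontrivial_iff_ne_bot).2 (by
              intro h
              apply hv0'
              have := Submodule.mem_span_singleton_self (R := ℤ) (v : W)
              rw [h, Submodule.mem_bot] at this
              exact this)
          exact Finite.one_lt_card
        have h3 : 0 < Nat.card (W ⧸ Submodule.span ℤ {(v : W)}) := Nat.card_pos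
        rw [h1]
        nlinarith
      have key := ih _ hcardlt (W ⧸ Submodule.span ℤ {(v : W)})
        (ρ.quotient (Submodule.span ℤ {(v : W)}) hL) m
        (fun j => (Wf j).map (Submodule.span ℤ {(v : W)}).mkQ) rfl
        (by
          show (Wf 0).map _ = ⊤
          rw [h0, Submodule.map_top, Submodule.range_mkQ])
        (by
          show (Wf m).map _ = ⊥
          rw [hm, Submodule.map_bot])
        (by
          rintro j g _ ⟨x, hx, rfl⟩
          exact ⟨ρ g x, hstab j g x hx, rfl⟩)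
        (by
          rintro j _ ⟨x, hx, rfl⟩
          exact ⟨l • x, hl j x hx, by simp⟩)
        (by
          rintro j g _ ⟨x, hx, rfl⟩
          exact ⟨_, hq j g x hx, by simp⟩)
      have := jh_build_comap ρ χ hv0' hlv' τ hτ hL key
      rwa [Submodule.comap_top] at this

/-- **DESC-JH.**  If the finite abelian group `W` has a `Γ`-stable filtration
`W = W₀ ⊇ W₁ ⊇ … ⊇ W_m = 0` whose graded pieces are killed by `l` and by `(g - 1)(g - χ g)` for
every `g`, then `W` has a Jordan–Hölder chain with pieces of order `l` and characters `1`, `χ`. -/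
theorem jh_build_top {W : Type u} [AddCommGroup W] [Finite W] (ρ : Representation ℤ Γ W) (m : ℕ)
    (Wf : ℕ → Submodule ℤ W) (h0 : Wf 0 = ⊤) (hm : Wf m = ⊥)
    (hstab : ∀ i g, ∀ x ∈ Wf i, ρ g x ∈ Wf i)
    (hl : ∀ i, ∀ x ∈ Wf i, l • x ∈ Wf (i + 1))
    (hq : ∀ i g, ∀ x ∈ Wf i,
      ρ g (ρ g x) + jhMul χ g • x - (1 + jhMul χ g) • ρ g x ∈ Wf (i + 1)) :
    JHBuild ρ χ ⊤ :=
  jh_build_top_aux χ _ W ρ m Wf rfl h0 hm hstab hl hq

/-- **DESC-JH, vector space form** (blueprint 2.5): `W` killed by `l`, every `g` satisfies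
`(g - 1)(g - χ g) = 0`. -/
theorem jh_build_top_of_killed {W : Type u} [AddCommGroup W] [Finite W]
    (ρ : Representation ℤ Γ W) (hl : ∀ x : W, l • x = 0)
    (hq : ∀ g x, ρ g (ρ g x) + jhMul χ g • x = (1 + jhMul χ g) • ρ g x) :
    JHBuild ρ χ ⊤ := by
  refine jh_build_top χ ρ 1 (fun j => if j = 0 then ⊤ else ⊥) rfl rfl ?_ ?_ ?_
  · intro i g x hx
    by_cases hi : i = 0
    · simp [hi]
    · simp only [hi, if_false, Submodule.mem_bot] at hx ⊢
      rw [hx, map_zero]
  · intro i x _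
    simp [hl x]
  · intro i g x _
    simp [hq g x]

end Main

section Indexed

variable {l : ℕ} {W : Type*} [AddCommGroup W] (ρ : Representation ℤ Γ W) (χ : Γ →* (ZMod l)ˣ)

/-- A chain in indexed form: `F 0 = 0`, `F L = B`, and `F i ⊂ F (i+1)` is a Jordan–Hölder step of
type `τ i` for `i < L`. -/
theorem JHBuild.exists_indexed {B : Submodule ℤ W} (h : JHBuild ρ χ B) :
    ∃ (L : ℕ) (F : ℕ → Submodule ℤ W) (τ : ℕ → Bool), F 0 = ⊥ ∧ F L = B ∧
      ∀ i < L, JHStep ρ χ (τ i) (F i) (F (i + 1)) := by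
  induction h with
  | bot => exact ⟨0, fun _ => ⊥, fun _ => false, rfl, rfl, fun i hi => absurd hi (Nat.not_lt_zero i)⟩
  | @step B B' τ₀ _ hstep ih =>
    obtain ⟨L, F, τ, hF0, hFL, hF⟩ := ih
    refine ⟨L + 1, fun i => if i ≤ L then F i else B', fun i => if i < L then τ i else τ₀,
      ?_, ?_, ?_⟩
    · simp [hF0]
    · simp
    · intro i hi
      by_cases hiL : i < L
      · have h1 : i ≤ L := hiL.le
        have h2 : i + 1 ≤ L := hiL
        simp only [h1, h2, hiL, if_true]
        exact hF i hiL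
      · have hiL' : i = L := by omega
        subst hiL'
        simp only [le_refl, if_true, lt_irrefl, if_false, Nat.not_succ_le_self]
        rw [hFL]
        exact hstep

end Indexed

end Fermat.Agent.EDesc
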