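/-
Cluster E' (S15), seat DESC-EIS (helper39), ABSTRACT PART 2: from Frobenius elements to all of
`G_ℚ`.

If `(τ - 1)(τ - c)` maps `P` into `P'` (`τ` a Frobenius, `c` its norm), then so does
`(τ^j - 1)(τ^j - c^j)`; if `σ` acts as `τ^j` and `χ σ = c^j` in `ZMod l`, `l P ⊆ P'`, then
`(σ - 1)(σ - χ σ)` maps `P` into `P'` (in the form used by `exists_typedChain`).
-/
import Mathlib
import Fermat.Agent.E.Desc.JH

set_option autoImplicit false

namespace Fermat.Agent.EDesc

section Pow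

variable {W : Type*} [AddCommGroup W]

/-- the endomorphisms preserving a subgroup. -/
def eisStab (P : AddSubgroup W) : Subring (Module.End ℤ W) where
  carrier := {f | ∀ y ∈ P, f y ∈ P}
  mul_mem' := fun hf hg y hy => hf _ (hg y hy)
  one_mem' := fun _ hy => hy
  add_mem' := fun hf hg y hy => P.add_mem (hf y hy) (hg y hy)
  zero_mem' := fun _ _ => P.zero_mem
  neg_mem' := fun hf y hy => P.neg_mem (hf y hy)

theorem mem_eisStab {P : AddSubgroup W} {f : Module.End ℤ W} :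
    f ∈ eisStab P ↔ ∀ y ∈ P, f y ∈ P := Iff.rfl

theorem eisPow_quadratic (T : Module.End ℤ W) (c : ℕ) (P P' : AddSubgroup W)
    (hTP' : ∀ y ∈ P', T y ∈ P')
    (hq : ∀ x ∈ P, ((T - 1) * (T - (c : Module.End ℤ W))) x ∈ P') (j : ℕ) :
    ∀ x ∈ P, ((T ^ j - 1) * (T ^ j - (c : Module.End ℤ W) ^ j)) x ∈ P' := by
  intro x hx
  have hT : T ∈ eisStab P' := hTP'
  have hcomm : Commute T (c : Module.End ℤ W) := Nat.commute_cast T c
  set g₁ : Module.End ℤ W := ∑ i ∈ Finset.range j, T ^ i with hg₁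
  set g₂ : Module.End ℤ W := ∑ i ∈ Finset.range j, T ^ i * (c : Module.End ℤ W) ^ (j - 1 - i)
    with hg₂
  have h1 : T ^ j - 1 = g₁ * (T - 1) := (geom_sum_mul T j).symm
  have h2 : T ^ j - (c : Module.End ℤ W) ^ j = g₂ * (T - (c : Module.End ℤ W)) :=
    (hcomm.geom_sum₂_mul j).symm
  have hg₁mem : g₁ ∈ eisStab P' := Subring.sum_mem _ fun i _ => Subring.pow_mem _ hT i
  have hg₂mem : g₂ ∈ eisStab P' := Subring.sum_mem _ fun i _ =>
    Subring.mul_mem _ (Subring.pow_mem _ hT i) (Subring.pow_mem _ (natCast_mem _ c) _)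
  have hcomm2 : Commute (T - 1) g₂ := by
    apply Commute.sum_right
    intro i _
    apply Commute.mul_right
    · exact ((Commute.refl T).sub_left (Commute.one_left T)).pow_right i
    · exact ((hcomm.sub_left (Commute.one_left _))).pow_right _
  have h3 : (T ^ j - 1) * (T ^ j - (c : Module.End ℤ W) ^ j)
      = (g₁ * g₂) * ((T - 1) * (T - (c : Module.End ℤ W))) := by
    rw [h1, h2, mul_assoc g₁, ← mul_assoc (T - 1), hcomm2.eq, mul_assoc g₂, ← mul_assoc g₁]
  rw [h3, Module.End.mul_apply]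
  exact (Subring.mul_mem _ hg₁mem hg₂mem) _ (hq x hx)

end Pow

section Transfer

variable {W : Type*} [AddCommGroup W] {Γ : Type*} [Group Γ] [DistribMulAction Γ W]

variable (W) in
/-- the action of `g` as a `ℤ`-linear map. -/
def eisLin (g : Γ) : Module.End ℤ W := (DistribSMul.toAddMonoidHom W g).toIntLinearMap

@[simp] theorem eisLin_apply (g : Γ) (w : W) : eisLin W g w = g • w := rfl

theorem eisLin_pow_apply (g : Γ) (j : ℕ) (w : W) : (eisLin W g ^ j) w = g ^ j • w := by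
  induction j generalizing w with
  | zero => simp
  | succ j ih => rw [pow_succ, Module.End.mul_apply, ih, eisLin_apply, pow_succ, mul_smul]

theorem eisPow_transfer {l : ℕ} [Fact l.Prime] (χ : Γ →* (ZMod l)ˣ) (P P' : AddSubgroup W)
    (hP : ∀ (g : Γ), ∀ x ∈ P, g • x ∈ P) (hP' : ∀ (g : Γ), ∀ x ∈ P', g • x ∈ P')
    (hl : ∀ x ∈ P, l • x ∈ P') (σ τ : Γ) (j c : ℕ)
    (hτ : ∀ x ∈ P, τ • τ • x + c • x - (1 + c) • τ • x ∈ P')
    (hσ : ∀ w : W, τ ^ j • w = σ • w)
    (hc : ((c : ZMod l)) ^ j = ((χ σ : (ZMod l)ˣ) : ZMod l)) :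
    ∀ x ∈ P, σ • σ • x + jhMul χ σ • x - (1 + jhMul χ σ) • σ • x ∈ P' := by
  intro x hx
  have hl0 : NeZero l := ⟨(Fact.out : l.Prime).ne_zero⟩
  -- the relation for `τ ^ j`
  have hq : ∀ y ∈ P, ((eisLin W τ - 1) * (eisLin W τ - (c : Module.End ℤ W))) y ∈ P' := by
    intro y hy
    have h := hτ y hy
    have e : ((eisLin W τ - 1) * (eisLin W τ - (c : Module.End ℤ W))) y
        = τ • τ • y + c • y - (1 + c) • τ • y := by
      simp only [Module.End.mul_apply, LinearMap.sub_apply, eisLin_apply, Module.End.one_apply,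
        Module.End.natCast_apply, smul_sub, smul_comm τ c y, add_smul, one_smul]
      abel
    rw [e]
    exact h
  have h1 := eisPow_quadratic (eisLin W τ) c P P' (fun y hy => hP' τ y hy) hq j x hx
  have e1 : ((eisLin W τ ^ j - 1) * (eisLin W τ ^ j - (c : Module.End ℤ W) ^ j)) x
      = σ • σ • x + (c ^ j) • x - (1 + c ^ j) • σ • x := by
    have hcj : ((c : Module.End ℤ W) ^ j) = ((c ^ j : ℕ) : Module.End ℤ W) := by push_cast; rfl
    rw [hcj]
    simp only [Module.End.mul_apply, LinearMap.sub_apply, eisLin_pow_apply, hσ,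
      Module.End.one_apply, Module.End.natCast_apply, smul_sub, add_smul, one_smul]
    rw [smul_comm σ (c ^ j) x]
    abel
  rw [e1] at h1
  -- compare `c ^ j` and `jhMul χ σ`
  have hcong : ((jhMul χ σ : ℕ) : ZMod l) = ((c ^ j : ℕ) : ZMod l) := by
    unfold jhMul
    rw [ZMod.natCast_val, ZMod.cast_id', id_eq, Nat.cast_pow, hc]
  obtain ⟨t, ht⟩ : ∃ t : ℤ, ((jhMul χ σ : ℕ) : ℤ) - ((c ^ j : ℕ) : ℤ) = (l : ℤ) * t := by
    have h2 : (((jhMul χ σ : ℕ) : ℤ) : ZMod l) = (((c ^ j : ℕ) : ℤ) : ZMod l) := by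
      push_cast
      exact_mod_cast hcong
    have h3 := (ZMod.intCast_eq_intCast_iff_dvd_sub _ _ l).mp h2
    obtain ⟨t, ht⟩ := h3
    exact ⟨-t, by rw [mul_neg, ← ht]; ring⟩
  have hdiff : x - σ • x ∈ P := P.sub_mem hx (hP σ x hx)
  have h4 : t • (l • (x - σ • x)) ∈ P' := P'.zsmul_mem (hl _ hdiff) t
  have e2 : σ • σ • x + jhMul χ σ • x - (1 + jhMul χ σ) • σ • x
      = (σ • σ • x + (c ^ j) • x - (1 + c ^ j) • σ • x) + t • (l • (x - σ • x)) := by
    have h5 : t • (l • (x - σ • x)) = (((jhMul χ σ : ℕ) : ℤ) - ((c ^ j : ℕ) : ℤ)) • (x - σ • x) := by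
      rw [ht, mul_comm, mul_smul, natCast_zsmul]
    rw [h5, sub_smul, natCast_zsmul, natCast_zsmul, smul_sub, smul_sub, add_smul, add_smul,
      one_smul]
    abel
  rw [e2]
  exact P'.add_mem h1 h4

end Transfer

end Fermat.Agent.EDesc
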