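import Fermat.Agent.E.Desc.Defs
import Fermat.Agent.E.Desc.JH

/-!
# E' / Desc / JHChain : from a Jordan–Hölder chain to a `TypedChain`  (seat DESC-JH, adapter)

`W` a `G_ℚ`-module, `l'` a prime, `χ` the mod `l'` cyclotomic character (`σ ζ = ζ ^ χ(σ)` for a
primitive `l'`-th root of unity `ζ`).  A chain `JHBuild ρ χ ⊤` (`E/Desc/JH.lean`) for the
representation `ρ` of the action gives a `TypedChain W l'` (`E/Desc/Defs.lean`): the pieces with
trivial action are of type `et`, the pieces with action through `χ` are of type `mu`, with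
coordinate `ι w = ζ ^ k` for `w ≡ k • v`.

* `jhCoord B v l w : ZMod l` : the coordinate of `w` in `B' / B = ⟨v⟩`;
* `exists_typedChain_of_jhBuild` : the adapter;
* `exists_typedChain` : the composition with `jh_build_top` (filtration form).
-/

set_option autoImplicit false

noncomputable section

namespace Fermat.Agent.EDesc

local notation "Qb" => AlgebraicClosure ℚ
local notation "GQb" => (AlgebraicClosure ℚ ≃ₐ[ℚ] AlgebraicClosure ℚ)

section Coord

variable {W : Type*} [AddCommGroup W] {l : ℕ} [Fact l.Prime]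

/-- the coordinate of `w` modulo `B` with respect to the generator `v`. -/
def jhCoord (B : Submodule ℤ W) (v : W) (l : ℕ) (w : W) : ZMod l :=
  open Classical in if h : ∃ k : ℕ, w - k • v ∈ B then ((Classical.choose h : ℕ) : ZMod l) else 0

variable {B : Submodule ℤ W} {v : W}

theorem jh_zsmul_mem_iff (hv : v ∉ B) (hlv : l • v ∈ B) (z : ℤ) :
    z • v ∈ B ↔ (l : ℤ) ∣ z := by
  have hlp : l.Prime := Fact.out
  constructor
  · intro hz
    by_contra hndvd
    have hcop : IsCoprime z (l : ℤ) := by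
      rw [isCoprime_comm]
      exact (Nat.prime_iff_prime_int.1 hlp).coprime_iff_not_dvd.2 hndvd
    obtain ⟨a, b, hab⟩ := hcop
    apply hv
    have h1 : v = a • (z • v) + b • ((l : ℤ) • v) := by
      rw [← mul_smul, ← mul_smul, ← add_smul, hab, one_smul]
    rw [h1]
    refine B.add_mem (B.smul_mem a hz) (B.smul_mem b ?_)
    rw [natCast_zsmul]
    exact hlv
  · rintro ⟨t, rfl⟩
    rw [mul_comm, mul_smul, natCast_zsmul]
    exact B.smul_mem t hlv

theorem jh_nsmul_sub_mem_iff (hv : v ∉ B) (hlv : l • v ∈ B) (a b : ℕ) :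
    a • v - b • v ∈ B ↔ (a : ZMod l) = (b : ZMod l) := by
  have h1 : a • v - b • v = ((a : ℤ) - (b : ℤ)) • v := by
    rw [sub_smul, natCast_zsmul, natCast_zsmul]
  rw [h1, jh_zsmul_mem_iff hv hlv, ← ZMod.intCast_zmod_eq_zero_iff_dvd, Int.cast_sub,
    Int.cast_natCast, Int.cast_natCast, sub_eq_zero]

theorem jhCoord_eq (hv : v ∉ B) (hlv : l • v ∈ B) {w : W} {k : ℕ} (hk : w - k • v ∈ B) :
    jhCoord B v l w = (k : ZMod l) := by
  classical
  have h : ∃ k : ℕ, w - k • v ∈ B := ⟨k, hk⟩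
  unfold jhCoord
  rw [dif_pos h]
  have h2 := Classical.choose_spec h
  rw [← jh_nsmul_sub_mem_iff hv hlv]
  have : Classical.choose h • v - k • v = (w - k • v) - (w - Classical.choose h • v) := by abel
  rw [this]
  exact B.sub_mem hk h2

theorem jhCoord_spec (hv : v ∉ B) (hlv : l • v ∈ B) {w : W} (hw : ∃ k : ℕ, w - k • v ∈ B) :
    w - (jhCoord B v l w).val • v ∈ B := by
  have : NeZero l := ⟨(Fact.out : l.Prime).ne_zero⟩
  obtain ⟨k, hk⟩ := hw
  rw [jhCoord_eq hv hlv hk]
  have h1 : (k : ZMod l).val • v - k • v ∈ B := by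
    rw [jh_nsmul_sub_mem_iff hv hlv, ZMod.natCast_zmod_val]
  have : w - (k : ZMod l).val • v = (w - k • v) - ((k : ZMod l).val • v - k • v) := by abel
  rw [this]
  exact B.sub_mem hk h1

theorem jhCoord_add (hv : v ∉ B) (hlv : l • v ∈ B) {w w' : W} (hw : ∃ k : ℕ, w - k • v ∈ B)
    (hw' : ∃ k : ℕ, w' - k • v ∈ B) :
    jhCoord B v l (w + w') = jhCoord B v l w + jhCoord B v l w' := by
  obtain ⟨k, hk⟩ := hw
  obtain ⟨k', hk'⟩ := hw'
  have h : (w + w') - (k + k') • v ∈ B := by
    have : (w + w') - (k + k') • v = (w - k • v) + (w' - k' • v) := by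
      rw [add_smul]; abel
    rw [this]
    exact B.add_mem hk hk'
  rw [jhCoord_eq hv hlv h, jhCoord_eq hv hlv hk, jhCoord_eq hv hlv hk', Nat.cast_add]

theorem jhCoord_eq_zero_iff (hv : v ∉ B) (hlv : l • v ∈ B) {w : W}
    (hw : ∃ k : ℕ, w - k • v ∈ B) : jhCoord B v l w = 0 ↔ w ∈ B := by
  obtain ⟨k, hk⟩ := hw
  rw [jhCoord_eq hv hlv hk]
  have h0 : (k : ZMod l) = 0 ↔ k • v ∈ B := by
    have := jh_nsmul_sub_mem_iff hv hlv k 0
    rw [zero_smul, sub_zero, Nat.cast_zero] at this
    exact this.symm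
  rw [h0]
  constructor
  · intro h
    have : w = (w - k • v) + k • v := by abel
    rw [this]
    exact B.add_mem hk h
  · intro h
    have : k • v = w - (w - k • v) := by abel
    rw [this]
    exact B.sub_mem h hk

theorem jhCoord_of_sub_mem (hv : v ∉ B) (hlv : l • v ∈ B) {w w' : W}
    (hw : ∃ k : ℕ, w - k • v ∈ B) (h : w' - w ∈ B) : jhCoord B v l w' = jhCoord B v l w := by
  obtain ⟨k, hk⟩ := hw
  have hk' : w' - k • v ∈ B := by
    have : w' - k • v = (w' - w) + (w - k • v) := by abel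
    rw [this]
    exact B.add_mem h hk
  rw [jhCoord_eq hv hlv hk, jhCoord_eq hv hlv hk']

theorem jhCoord_nsmul (hv : v ∉ B) (hlv : l • v ∈ B) {w : W} (hw : ∃ k : ℕ, w - k • v ∈ B)
    (n : ℕ) : jhCoord B v l (n • w) = (n : ZMod l) * jhCoord B v l w := by
  obtain ⟨k, hk⟩ := hw
  have h : n • w - (n * k) • v ∈ B := by
    have : n • w - (n * k) • v = n • (w - k • v) := by
      rw [smul_sub, mul_smul]
    rw [this]
    exact B.smul_of_tower_mem n hk
  rw [jhCoord_eq hv hlv h, jhCoord_eq hv hlv hk, Nat.cast_mul]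

/-- The index of a Jordan–Hölder step is `l`. -/
theorem jh_relIndex_eq {B' : Submodule ℤ W} (hvB' : v ∈ B') (hv : v ∉ B) (hlv : l • v ∈ B)
    (hgen : ∀ x ∈ B', ∃ k : ℕ, x - k • v ∈ B) :
    B.toAddSubgroup.relIndex B'.toAddSubgroup = l := by
  have : NeZero l := ⟨(Fact.out : l.Prime).ne_zero⟩
  let f : B'.toAddSubgroup →+ ZMod l :=
    { toFun := fun w => jhCoord B v l (w : W)
      map_zero' := by
        show jhCoord B v l (0 : W) = 0
        rw [jhCoord_eq_zero_iff hv hlv (hgen 0 B'.zero_mem)]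
        exact B.zero_mem
      map_add' := fun w w' => jhCoord_add hv hlv (hgen _ w.2) (hgen _ w'.2) }
  have hker : f.ker = B.toAddSubgroup.addSubgroupOf B'.toAddSubgroup := by
    ext w
    rw [AddMonoidHom.mem_ker, AddSubgroup.mem_addSubgroupOf]
    exact jhCoord_eq_zero_iff hv hlv (hgen _ w.2)
  have hsurj : Function.Surjective f := by
    intro a
    refine ⟨⟨a.val • v, B'.smul_of_tower_mem _ hvB'⟩, ?_⟩
    show jhCoord B v l (a.val • v) = a
    have h0 : a.val • v - a.val • v ∈ B := by rw [sub_self]; exact B.zero_mem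
    rw [jhCoord_eq hv hlv h0, ZMod.natCast_zmod_val]
  have hrange : f.range = ⊤ := AddMonoidHom.range_eq_top.2 hsurj
  unfold AddSubgroup.relIndex
  rw [← hker, AddSubgroup.index_ker, hrange]
  rw [Nat.card_congr (AddSubgroup.topEquiv (G := ZMod l)).toEquiv, Nat.card_zmod]

end Coord

section Adapter

variable {W : Type} [AddCommGroup W] [DistribMulAction GQb W] {l' : ℕ} [Fact l'.Prime]

variable (W) in
/-- The representation attached to the action of `G_ℚ` on `W`. -/
abbrev jhRep : Representation ℤ GQb W := Representation.ofDistribMulAction ℤ GQb W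

/-- **Adapter.**  A Jordan–Hölder chain for the mod `l'` cyclotomic character is a typed chain. -/
theorem exists_typedChain_of_jhBuild (χ : GQb →* (ZMod l')ˣ) {ζ : Qb}
    (hζ : IsPrimitiveRoot ζ l') (hχ : ∀ σ : GQb, σ ζ = ζ ^ jhMul χ σ)
    (h : JHBuild (jhRep W) χ ⊤) :
    ∃ C : TypedChain W l', ∀ i < C.L, ¬ C.et i → ∀ (σ : GQb) (w : W), w ∈ C.F (i + 1) →
      σ • w - jhMul χ σ • w ∈ C.F i := by
  classical
  have : NeZero l' := ⟨(Fact.out : l'.Prime).ne_zero⟩
  obtain ⟨L, F, τ, hF0, hFL, hF⟩ := h.exists_indexed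
  -- the generators
  have hgenex : ∀ i, ∃ v : W, i < L → v ∈ F (i + 1) ∧ v ∉ F i ∧ l' • v ∈ F i ∧
      ∀ x ∈ F (i + 1), ∃ k : ℕ, x - k • v ∈ F i := by
    intro i
    by_cases hi : i < L
    · obtain ⟨v, h1, h2, h3, h4⟩ := (hF i hi).gen
      exact ⟨v, fun _ => ⟨h1, h2, h3, h4⟩⟩
    · exact ⟨0, fun h => absurd h hi⟩
  choose v hv using hgenex
  have hstab : ∀ j, j ≤ L → ∀ (σ : GQb) (w : W), w ∈ F j → σ • w ∈ F j := by
    intro j hj σ w hw
    rcases Nat.eq_zero_or_pos j with h0 | hpos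
    · rw [h0, hF0, Submodule.mem_bot] at hw
      rw [hw, smul_zero]
      exact Submodule.zero_mem _
    · obtain ⟨j', rfl⟩ := Nat.exists_eq_succ_of_ne_zero hpos.ne'
      exact (hF j' (by omega)).stable σ w hw
  have hpowmod : ∀ a b : ℕ, (a : ZMod l') = (b : ZMod l') → ζ ^ a = ζ ^ b := by
    intro a b hab
    rw [ZMod.natCast_eq_natCast_iff] at hab
    exact (hζ.isOfFinOrder (NeZero.ne l')).pow_eq_pow_iff_modEq.2 (by rwa [hζ.eq_orderOf] at hab)
  refine ⟨{ L := L
            F := fun i => (F (min i L)).toAddSubgroup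
            et := fun i => τ i = false
            ι := fun i w => ζ ^ (jhCoord (F i) (v i) l' w).val
            F_zero := by
              show (F (min 0 L)).toAddSubgroup = ⊥
              rw [Nat.zero_min, hF0, Submodule.bot_toAddSubgroup]
            F_top := by
              show (F (min L L)).toAddSubgroup = ⊤
              rw [min_self, hFL, Submodule.top_toAddSubgroup]
            mono := ?_
            stable := ?_
            index := ?_
            et_triv := ?_
            ι_mul := ?_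
            ι_one_iff := ?_
            ι_smul := ?_ }, ?_⟩
  · intro i
    show (F (min i L)).toAddSubgroup ≤ (F (min (i + 1) L)).toAddSubgroup
    by_cases hi : i < L
    · rw [min_eq_left hi.le, min_eq_left (Nat.succ_le_of_lt hi)]
      exact (hF i hi).le
    · rw [min_eq_right (not_lt.1 hi), min_eq_right (by omega)]
  · intro i σ w hw
    exact hstab _ (min_le_right i L) σ w hw
  · intro i hi
    show (F (min i L)).toAddSubgroup.relIndex (F (min (i + 1) L)).toAddSubgroup = l'
    rw [min_eq_left hi.le, min_eq_left (Nat.succ_le_of_lt hi)]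
    obtain ⟨h1, h2, h3, h4⟩ := hv i hi
    exact jh_relIndex_eq h1 h2 h3 h4
  · intro i hi het σ w hw
    change w ∈ F (min (i + 1) L) at hw
    show σ • w - w ∈ F (min i L)
    rw [min_eq_left (Nat.succ_le_of_lt hi)] at hw
    rw [min_eq_left hi.le]
    have := (hF i hi).char σ w hw
    rw [het] at this
    simpa using this
  · intro i hi het w w' hw hw'
    change w ∈ F (min (i + 1) L) at hw
    change w' ∈ F (min (i + 1) L) at hw'
    rw [min_eq_left (Nat.succ_le_of_lt hi)] at hw hw'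
    obtain ⟨h1, h2, h3, h4⟩ := hv i hi
    show ζ ^ _ = ζ ^ _ * ζ ^ _
    rw [← pow_add]
    apply hpowmod
    rw [Nat.cast_add, ZMod.natCast_zmod_val, ZMod.natCast_zmod_val, ZMod.natCast_zmod_val]
    exact jhCoord_add h2 h3 (h4 w hw) (h4 w' hw')
  · intro i hi het w hw
    change w ∈ F (min (i + 1) L) at hw
    rw [min_eq_left (Nat.succ_le_of_lt hi)] at hw
    obtain ⟨h1, h2, h3, h4⟩ := hv i hi
    show ζ ^ _ = 1 ↔ w ∈ F (min i L)
    rw [min_eq_left hi.le, ← jhCoord_eq_zero_iff h2 h3 (h4 w hw), hζ.pow_eq_one_iff_dvd,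
      ← ZMod.natCast_eq_zero_iff, ZMod.natCast_zmod_val]
  · intro i hi het σ w hw
    change w ∈ F (min (i + 1) L) at hw
    rw [min_eq_left (Nat.succ_le_of_lt hi)] at hw
    obtain ⟨h1, h2, h3, h4⟩ := hv i hi
    have hτ : τ i = true := by
      cases hτi : τ i
      · exact absurd hτi het
      · rfl
    have hchar := (hF i hi).char σ w hw
    rw [hτ] at hchar
    simp only [if_true, Representation.ofDistribMulAction_apply_apply] at hchar
    have hc : jhCoord (F i) (v i) l' (σ • w) =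
        (jhMul χ σ : ZMod l') * jhCoord (F i) (v i) l' w := by
      rw [← jhCoord_nsmul h2 h3 (h4 w hw)]
      obtain ⟨k, hk⟩ := h4 w hw
      refine jhCoord_of_sub_mem h2 h3 ⟨jhMul χ σ * k, ?_⟩ hchar
      have : jhMul χ σ • w - (jhMul χ σ * k) • v i = jhMul χ σ • (w - k • v i) := by
        rw [smul_sub, mul_smul]
      rw [this]
      exact (F i).smul_of_tower_mem _ hk
    show ζ ^ _ = σ (ζ ^ _)
    rw [map_pow, hχ σ, ← pow_mul]
    apply hpowmod
    rw [ZMod.natCast_zmod_val, hc, Nat.cast_mul, ZMod.natCast_zmod_val]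
  · intro i hi het σ w hw
    change w ∈ F (min (i + 1) L) at hw
    show σ • w - jhMul χ σ • w ∈ F (min i L)
    rw [min_eq_left (Nat.succ_le_of_lt hi)] at hw
    rw [min_eq_left hi.le]
    have hτ : τ i = true := by
      cases hτi : τ i
      · exact absurd hτi het
      · rfl
    have hchar := (hF i hi).char σ w hw
    rw [hτ] at hchar
    simpa using hchar

/-- **DESC-JH, final form.**  If the finite `G_ℚ`-module `W` has a stable filtration
`W = W₀ ⊇ W₁ ⊇ … ⊇ W_m = 0` whose graded pieces are killed by `l'` and by `(σ - 1)(σ - χ σ)` for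
all `σ`, `χ` the mod `l'` cyclotomic character, then `W` has a typed chain; the pieces which are
not of type `et` carry the character `χ`. -/
theorem exists_typedChain [Finite W] (χ : GQb →* (ZMod l')ˣ) {ζ : Qb}
    (hζ : IsPrimitiveRoot ζ l') (hχ : ∀ σ : GQb, σ ζ = ζ ^ jhMul χ σ)
    (m : ℕ) (Wf : ℕ → AddSubgroup W) (h0 : Wf 0 = ⊤) (hm : Wf m = ⊥)
    (hstab : ∀ i (σ : GQb), ∀ x ∈ Wf i, σ • x ∈ Wf i)
    (hl : ∀ i, ∀ x ∈ Wf i, l' • x ∈ Wf (i + 1))
    (hq : ∀ i (σ : GQb), ∀ x ∈ Wf i,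
      σ • σ • x + jhMul χ σ • x - (1 + jhMul χ σ) • σ • x ∈ Wf (i + 1)) :
    ∃ C : TypedChain W l', ∀ i < C.L, ¬ C.et i → ∀ (σ : GQb) (w : W), w ∈ C.F (i + 1) →
      σ • w - jhMul χ σ • w ∈ C.F i := by
  apply exists_typedChain_of_jhBuild χ hζ hχ
  refine jh_build_top χ (jhRep W) m (fun i => AddSubgroup.toIntSubmodule (Wf i)) ?_ ?_ ?_ ?_ ?_
  · show AddSubgroup.toIntSubmodule (Wf 0) = ⊤
    rw [h0]
    rfl
  · show AddSubgroup.toIntSubmodule (Wf m) = ⊥
    rw [hm]
    rfl
  · intro i σ x hx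
    exact hstab i σ x hx
  · intro i x hx
    exact hl i x hx
  · intro i σ x hx
    exact hq i σ x hx

end Adapter

end Fermat.Agent.EDesc
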