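/-
Cluster E' (Mazur's descent), seat DESC-KUM (helper35): the Kummer cocycles of `J₀(N)`.

For `R ∈ J₀(N)(ℚ̄)` with `n R` rational the function `kum R : σ ↦ σ R - R` is a continuous
1-cocycle with values in `J₀(N)[n]`, trivial on the inertia groups at all primes `r ∤ N n`,
additive in `R`, compatible with every Galois-equivariant endomorphism (e.g. the Hecke operators),
and two such cocycles are cohomologous (by an `n`-torsion class) only if
`n R - n R' ∈ n J₀(N)(ℚ)`.

`exists_selmer_family` packages this for a Galois module `W` embedded in `J₀(N)[n]`, in the form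
consumed by `Fermat.Agent.EDesc.DevStatement` (the conditions `IsCoc`, `IsCtsCoc`, `UnramCoc`,
pairwise non-cohomologous; the conditions at `p` and the flatness at `l'` are other seats).
-/
import Mathlib
import Fermat.Agent.E.Desc.Defs
import Fermat.Agent.S17.W.Final
import Fermat.Agent.F3.Galois.HeckeComm

set_option autoImplicit false

noncomputable section

namespace Fermat.Agent.EDesc

open ModularCurve AlgebraicCurve

local notation "Qb" => AlgebraicClosure ℚ
local notation "GQb" => (AlgebraicClosure ℚ ≃ₐ[ℚ] AlgebraicClosure ℚ)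

variable {N : ℕ}

/-- `P ∈ J₀(N)(ℚ̄)` is rational (fixed by `G_ℚ`). -/
def RatPt (P : JZero N) : Prop := ∀ σ : GQb, σ • P = P

/-- the Kummer cocycle `σ ↦ σ R - R`. -/
def kum (R : JZero N) : GQb → JZero N := fun σ => σ • R - R

theorem kum_apply (R : JZero N) (σ : GQb) : kum R σ = σ • R - R := rfl

/-- the Galois action as an additive map. -/
def galAdd (σ : GQb) : JZero N →+ JZero N := DistribSMul.toAddMonoidHom (JZero N) σ

theorem galAdd_apply (σ : GQb) (x : JZero N) : galAdd σ x = σ • x := rfl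

theorem gal_smul_zero (σ : GQb) : σ • (0 : JZero N) = 0 := map_zero (galAdd σ)

theorem gal_smul_nsmul (σ : GQb) (m : ℕ) (x : JZero N) : σ • (m • x) = m • (σ • x) :=
  map_nsmul (galAdd σ) m x

theorem gal_smul_add (σ : GQb) (x y : JZero N) : σ • (x + y) = σ • x + σ • y :=
  map_add (galAdd σ) x y

theorem gal_smul_sub (σ : GQb) (x y : JZero N) : σ • (x - y) = σ • x - σ • y :=
  map_sub (galAdd σ) x y

theorem gal_smul_neg (σ : GQb) (x : JZero N) : σ • (-x) = -(σ • x) :=
  map_neg (galAdd σ) x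

theorem ratPt_zero : RatPt (0 : JZero N) := fun σ => gal_smul_zero σ

theorem RatPt.add {P Q : JZero N} (hP : RatPt P) (hQ : RatPt Q) : RatPt (P + Q) :=
  fun σ => by rw [gal_smul_add, hP σ, hQ σ]

theorem RatPt.neg {P : JZero N} (hP : RatPt P) : RatPt (-P) :=
  fun σ => by rw [gal_smul_neg, hP σ]

theorem RatPt.sub {P Q : JZero N} (hP : RatPt P) (hQ : RatPt Q) : RatPt (P - Q) :=
  fun σ => by rw [gal_smul_sub, hP σ, hQ σ]

theorem RatPt.nsmul {P : JZero N} (hP : RatPt P) (m : ℕ) : RatPt (m • P) :=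
  fun σ => by rw [gal_smul_nsmul, hP σ]

theorem ratPt_iff_kum_eq_zero (R : JZero N) : RatPt R ↔ ∀ σ, kum R σ = 0 := by
  constructor
  · intro h σ
    rw [kum_apply, h σ, sub_self]
  · intro h σ
    exact sub_eq_zero.mp (h σ)

/-- `kum R` is a 1-cocycle. -/
theorem kum_isCoc (R : JZero N) : IsCoc (kum R) := by
  intro σ τ
  simp only [kum_apply, mul_smul, gal_smul_sub]
  abel

theorem kum_add (R R' : JZero N) (σ : GQb) : kum (R + R') σ = kum R σ + kum R' σ := by
  simp only [kum_apply, gal_smul_add]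
  abel

theorem kum_sub (R R' : JZero N) (σ : GQb) : kum (R - R') σ = kum R σ - kum R' σ := by
  simp only [kum_apply, gal_smul_sub]
  abel

theorem kum_neg (R : JZero N) (σ : GQb) : kum (-R) σ = -kum R σ := by
  simp only [kum_apply, gal_smul_neg]
  abel

theorem kum_zero (σ : GQb) : kum (0 : JZero N) σ = 0 := by
  rw [kum_apply, gal_smul_zero, sub_self]

theorem kum_nsmul (m : ℕ) (R : JZero N) (σ : GQb) : kum (m • R) σ = m • kum R σ := by
  rw [kum_apply, kum_apply, nsmul_sub, gal_smul_nsmul]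

/-- compatibility with a Galois-equivariant additive map. -/
theorem kum_map (e : JZero N →+ JZero N) (he : ∀ (σ : GQb) (x : JZero N), e (σ • x) = σ • e x)
    (R : JZero N) (σ : GQb) : kum (e R) σ = e (kum R σ) := by
  rw [kum_apply, kum_apply, map_sub, he]

/-- the Kummer cocycle has values in the `n`-torsion if `n R` is rational. -/
theorem nsmul_kum {n : ℕ} {R : JZero N} (hR : RatPt (n • R)) (σ : GQb) : n • kum R σ = 0 := by
  rw [← kum_nsmul, kum_apply, hR σ, sub_self]

/-- **injectivity of the Kummer map**: if `kum R` and `kum R'` differ by the coboundary of an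
`n`-torsion class then `n R - n R' ∈ n J₀(N)(ℚ)`. -/
theorem exists_ratPt_of_cohom {n : ℕ} {R R' w : JZero N} (hw : n • w = 0)
    (h : ∀ σ : GQb, kum R σ - kum R' σ = σ • w - w) :
    ∃ Q : JZero N, RatPt Q ∧ n • R - n • R' = n • Q := by
  refine ⟨R - R' - w, fun σ => ?_, ?_⟩
  · have h1 : kum (R - R' - w) σ = 0 := by
      rw [kum_sub, kum_sub, h σ, kum_apply, sub_self]
    exact sub_eq_zero.mp h1
  · rw [nsmul_sub, nsmul_sub, hw, sub_zero]

/-- conversely, if `n R - n R' ∈ n J₀(N)(ℚ)` the Kummer cocycles differ by the coboundary of an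
`n`-torsion class. -/
theorem exists_cob_of_ratPt {n : ℕ} {R R' Q : JZero N} (hQ : RatPt Q)
    (h : n • R - n • R' = n • Q) :
    ∃ w : JZero N, n • w = 0 ∧ ∀ σ : GQb, kum R σ - kum R' σ = σ • w - w := by
  refine ⟨R - R' - Q, ?_, fun σ => ?_⟩
  · rw [nsmul_sub, nsmul_sub, h, sub_self]
  · have h1 : kum (R - R' - Q) σ = kum R σ - kum R' σ := by
      rw [kum_sub, kum_sub, (ratPt_iff_kum_eq_zero Q).mp hQ σ, sub_zero]
    rw [← h1, kum_apply]

section Level

variable [NeZero N]

/-- `kum R` is locally constant. -/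
theorem kum_isCtsCoc (R : JZero N) : IsCtsCoc (kum R) := by
  obtain ⟨L, hL, hfix⟩ := Fermat.Agent.S17W.openStab N R
  refine ⟨L, hL, fun σ τ hτ => ?_⟩
  have hτR : τ • R = R :=
    hfix τ fun a ha => (IntermediateField.mem_fixingSubgroup_iff L τ).mp hτ a ha
  rw [kum_apply, kum_apply, mul_smul, hτR]

/-- **unramifiedness**: if `n R` is rational, `kum R` vanishes on the inertia groups at all
primes `r ∤ N n`. -/
theorem kum_unramCoc {n : ℕ} (hn : n ≠ 0) {R : JZero N} (hR : RatPt (n • R))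
    (S : Set ℕ) (hS : ∀ r : ℕ, r.Prime → r ∣ N * n → r ∈ S) : UnramCoc S (kum R) := by
  intro r hr hrS A hA σ hσ
  have hrn : ¬ r ∣ N * n := fun h => hrS (hS r hr h)
  rw [kum_apply, sub_eq_zero]
  exact Fermat.Agent.S17.inertia_smul_eq_of_nsmul_fixed
    (Fermat.Agent.GaussInt.keyLemmaAt_all N) n hn R hR r hr hrn A hA σ hσ

/-- divisibility of `J₀(N)(ℚ̄)`. -/
theorem exists_nsmul_eq {n : ℕ} (hn : 0 < n) (P : JZero N) : ∃ R : JZero N, n • R = P :=
  Fermat.Agent.Div.jZero_divisible N n hn P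

/-- the Hecke operators commute with the Kummer cocycle. -/
theorem kum_hecke (ℓ : Nat.Primes) (R : JZero N) (σ : GQb) :
    kum (heckeOperatorBar N ℓ R) σ = heckeOperatorBar N ℓ (kum R σ) :=
  kum_map (heckeOperatorBar N ℓ).toAddMonoidHom
    (fun τ x => Fermat.Agent.F3G.heckeGaloisComm N ℓ τ x) R σ

end Level

/-! ### cocycles with values in a Galois module embedded in `J₀(N)[n]` -/

/-- a Galois module `W` embedded (equivariantly) in `J₀(N)[n]`. -/
structure TorsEmb (N n : ℕ) (W : Type*) [AddCommGroup W] [DistribMulAction GQb W] where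
  /-- the embedding -/
  ι : W →+ JZero N
  inj : Function.Injective ι
  smul : ∀ (σ : GQb) (w : W), ι (σ • w) = σ • ι w
  tors : ∀ w : W, n • ι w = 0

section Emb

variable {n : ℕ} {W : Type*} [AddCommGroup W] [DistribMulAction GQb W]

/-- a cocycle with values in `W` whose image in `J₀(N)` is a cocycle. -/
theorem isCoc_of_emb (T : TorsEmb N n W) {c : GQb → W} {c' : GQb → JZero N}
    (hc : ∀ σ, T.ι (c σ) = c' σ) (h : IsCoc c') : IsCoc c := by
  intro σ τ
  apply T.inj
  rw [map_add, T.smul, hc, hc, hc]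
  exact h σ τ

theorem isCtsCoc_of_emb (T : TorsEmb N n W) {c : GQb → W} {c' : GQb → JZero N}
    (hc : ∀ σ, T.ι (c σ) = c' σ) (h : IsCtsCoc c') : IsCtsCoc c := by
  obtain ⟨E, hE, hE'⟩ := h
  refine ⟨E, hE, fun σ τ hτ => T.inj ?_⟩
  rw [hc, hc]
  exact hE' σ τ hτ

theorem unramCoc_of_emb (T : TorsEmb N n W) {c : GQb → W} {c' : GQb → JZero N}
    (hc : ∀ σ, T.ι (c σ) = c' σ) {S : Set ℕ} (h : UnramCoc S c') : UnramCoc S c := by
  intro r hr hrS A hA σ hσ
  apply T.inj
  rw [hc, map_zero]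
  exact h r hr hrS A hA σ hσ

theorem cohom_of_emb (T : TorsEmb N n W) {c₁ c₂ : GQb → W} (h : Cohom c₁ c₂) :
    ∃ w : JZero N, n • w = 0 ∧ ∀ σ : GQb, T.ι (c₁ σ) - T.ι (c₂ σ) = σ • w - w := by
  obtain ⟨w, hw⟩ := h
  refine ⟨T.ι w, T.tors w, fun σ => ?_⟩
  rw [← map_sub, hw σ, map_sub, T.smul]

variable [NeZero N]

/-- **DESC-KUM, packaged.**  Points `R i` with `n (R i)` rational, whose Kummer cocycles have
values in `W ⊆ J₀(N)[n]`, and such that the `n (R i)` are pairwise incongruent modulo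
`n J₀(N)(ℚ)`, give pairwise non-cohomologous continuous cocycles with values in `W`, unramified
outside the primes dividing `N n`. -/
theorem exists_selmer_family (T : TorsEmb N n W) (hn : n ≠ 0) (S : Set ℕ)
    (hS : ∀ r : ℕ, r.Prime → r ∣ N * n → r ∈ S) (m : ℕ) (R : Fin m → JZero N)
    (hrat : ∀ i, RatPt (n • R i)) (hval : ∀ i σ, kum (R i) σ ∈ Set.range T.ι)
    (hdist : ∀ i j, i ≠ j → ¬ ∃ Q : JZero N, RatPt Q ∧ n • R i - n • R j = n • Q) :
    ∃ c : Fin m → GQb → W, (∀ i σ, T.ι (c i σ) = kum (R i) σ) ∧ (∀ i, IsCoc (c i)) ∧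
      (∀ i, IsCtsCoc (c i)) ∧ (∀ i, UnramCoc S (c i)) ∧
      ∀ i j, i ≠ j → ¬ Cohom (c i) (c j) := by
  choose c hc using hval
  refine ⟨c, hc, fun i => isCoc_of_emb T (hc i) (kum_isCoc _),
    fun i => isCtsCoc_of_emb T (hc i) (kum_isCtsCoc _),
    fun i => unramCoc_of_emb T (hc i) (kum_unramCoc hn (hrat i) S hS), fun i j hij hco => ?_⟩
  obtain ⟨w, hw, hw'⟩ := cohom_of_emb T hco
  refine hdist i j hij (exists_ratPt_of_cohom hw fun σ => ?_)
  rw [← hc i σ, ← hc j σ]
  exact hw' σ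

end Emb

end Fermat.Agent.EDesc
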