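/-
Cluster E' (helper3): Mazur's descent, the interface of DESC-MAIN.
Blueprint: NOTES/blueprint-E-S15-v2.md, sections 2 and 5.

`N = p` is the level, `l'` the Eisenstein prime, `S` a finite set of primes containing `p, l'`.
* `eisTors N l' S k` : the Eisenstein part `W_k` of `J₀(N)[l'^k]` = the classes killed by `l'^k`
  and by all products of `m` generators `η_r = T_r - (1 + r)`, `r ∉ S`, for some `m`;
* `EisW N l' S k` : the same as a type, with its `G_ℚ`-action; it is finite.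
Every `Prop` below is one seat; `DESC-MAIN` (E/Desc/Main.lean) assembles them.
-/
import Mathlib
import Fermat.Agent.E.Desc.Kum
import Fermat.Agent.F3.TorsFin.Final
import Fermat.Agent.Lib.Frobenius.Exists
import Fermat.Prelude.Def_ModularCurve_ReductionModL
import Fermat.Prelude.Def_ModularCurve_HeckeModule

set_option autoImplicit false

noncomputable section

namespace Fermat.Agent.EDesc

open ModularCurve AlgebraicCurve

local notation "Qb" => AlgebraicClosure ℚ
local notation "GQb" => (AlgebraicClosure ℚ ≃ₐ[ℚ] AlgebraicClosure ℚ)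

/-- the primes outside `S`. -/
abbrev OutPrimes (S : Finset ℕ) : Type := {r : Nat.Primes // (r : ℕ) ∉ S}

/-- the Eisenstein character `T_r ↦ 1 + r` of the free Hecke ring, modulo `l'`. -/
def eisChar (l' : ℕ) (S : Finset ℕ) : FreeAlgebra ℤ (OutPrimes S) →ₐ[ℤ] ZMod l' :=
  FreeAlgebra.lift ℤ fun r => ((1 + (r.1 : ℕ) : ℕ) : ZMod l')

variable (N : ℕ) [NeZero N]

/-- the action of the free Hecke ring on `J₀(N)(ℚ̄)`. -/
def heckeAct (S : Finset ℕ) : FreeAlgebra ℤ (OutPrimes S) →ₐ[ℤ] Module.End ℤ (JZero N) :=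
  FreeAlgebra.lift ℤ fun r => heckeOperatorBar N r.1

/-- the Eisenstein generator `η_r = T_r - (1 + r)`. -/
def eisGen (r : Nat.Primes) : JZero N →+ JZero N :=
  (heckeOperatorBar N r).toAddMonoidHom - nsmulAddMonoidHom (1 + (r : ℕ))

theorem eisGen_apply (r : Nat.Primes) (x : JZero N) :
    eisGen N r x = heckeOperatorBar N r x - (1 + (r : ℕ)) • x := rfl

theorem eisGen_smul (r : Nat.Primes) (σ : GQb) (x : JZero N) :
    eisGen N r (σ • x) = σ • eisGen N r x := by
  rw [eisGen_apply, eisGen_apply, Fermat.Agent.F3G.heckeGaloisComm N r σ x, gal_smul_sub,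
    gal_smul_nsmul]

/-- the classes killed by all products of `m` Eisenstein generators `η_r`, `r ∉ S`. -/
def eisKer (S : Finset ℕ) : ℕ → AddSubgroup (JZero N)
  | 0 => ⊥
  | m + 1 => ⨅ r : OutPrimes S, (eisKer S m).comap (eisGen N r.1)

theorem eisKer_zero (S : Finset ℕ) : eisKer N S 0 = ⊥ := rfl

theorem mem_eisKer_succ {S : Finset ℕ} {m : ℕ} {x : JZero N} :
    x ∈ eisKer N S (m + 1) ↔ ∀ r : OutPrimes S, eisGen N r.1 x ∈ eisKer N S m := by
  show x ∈ (⨅ r : OutPrimes S, (eisKer N S m).comap (eisGen N r.1)) ↔ _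
  simp only [AddSubgroup.mem_iInf, AddSubgroup.mem_comap]

theorem eisKer_mono (S : Finset ℕ) (m : ℕ) : eisKer N S m ≤ eisKer N S (m + 1) := by
  induction m with
  | zero => rw [eisKer_zero]; exact bot_le
  | succ m ih =>
    intro x hx
    rw [mem_eisKer_succ] at hx ⊢
    exact fun r => ih (hx r)

theorem eisKer_le (S : Finset ℕ) {m m' : ℕ} (h : m ≤ m') : eisKer N S m ≤ eisKer N S m' :=
  monotone_nat_of_le_succ (eisKer_mono N S) h

theorem eisKer_smul_mem (S : Finset ℕ) (m : ℕ) (σ : GQb) {x : JZero N}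
    (hx : x ∈ eisKer N S m) : σ • x ∈ eisKer N S m := by
  induction m generalizing x with
  | zero =>
    rw [eisKer_zero, AddSubgroup.mem_bot] at hx ⊢
    rw [hx, gal_smul_zero]
  | succ m ih =>
    rw [mem_eisKer_succ] at hx ⊢
    intro r
    rw [eisGen_smul]
    exact ih (hx r)

/-- the Eisenstein part `W_k` of `J₀(N)[l'^k]`. -/
def eisTors (l' : ℕ) (S : Finset ℕ) (k : ℕ) : AddSubgroup (JZero N) where
  carrier := {x | l' ^ k • x = 0 ∧ ∃ m : ℕ, x ∈ eisKer N S m}
  zero_mem' := ⟨smul_zero _, 0, zero_mem _⟩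
  add_mem' := by
    rintro x y ⟨hx, m, hm⟩ ⟨hy, m', hm'⟩
    refine ⟨by rw [nsmul_add, hx, hy, add_zero], max m m', add_mem ?_ ?_⟩
    · exact eisKer_le N S (le_max_left m m') hm
    · exact eisKer_le N S (le_max_right m m') hm'
  neg_mem' := by
    rintro x ⟨hx, m, hm⟩
    exact ⟨by rw [neg_nsmul, hx, neg_zero], m, neg_mem hm⟩

theorem mem_eisTors {l' : ℕ} {S : Finset ℕ} {k : ℕ} {x : JZero N} :
    x ∈ eisTors N l' S k ↔ l' ^ k • x = 0 ∧ ∃ m : ℕ, x ∈ eisKer N S m := Iff.rfl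

theorem eisTors_smul_mem (l' : ℕ) (S : Finset ℕ) (k : ℕ) (σ : GQb) {x : JZero N}
    (hx : x ∈ eisTors N l' S k) : σ • x ∈ eisTors N l' S k := by
  obtain ⟨hx, m, hm⟩ := hx
  exact ⟨by rw [← gal_smul_nsmul, hx, gal_smul_zero], m, eisKer_smul_mem N S m σ hm⟩

/-- `W_k` as a type. -/
abbrev EisW (l' : ℕ) (S : Finset ℕ) (k : ℕ) : Type := ↥(eisTors N l' S k)

instance eisW_smul (l' : ℕ) (S : Finset ℕ) (k : ℕ) : SMul GQb (EisW N l' S k) :=
  ⟨fun σ w => ⟨σ • (w : JZero N), eisTors_smul_mem N l' S k σ w.2⟩⟩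

@[simp] theorem eisW_coe_smul {l' : ℕ} {S : Finset ℕ} {k : ℕ} (σ : GQb) (w : EisW N l' S k) :
    ((σ • w : EisW N l' S k) : JZero N) = σ • (w : JZero N) := rfl

instance eisW_action (l' : ℕ) (S : Finset ℕ) (k : ℕ) : DistribMulAction GQb (EisW N l' S k) where
  one_smul w := Subtype.ext (one_smul GQb (w : JZero N))
  mul_smul σ τ w := Subtype.ext (mul_smul σ τ (w : JZero N))
  smul_zero σ := Subtype.ext (gal_smul_zero σ)
  smul_add σ w w' := Subtype.ext (gal_smul_add σ (w : JZero N) (w' : JZero N))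

instance eisW_finite (l' : ℕ) [Fact l'.Prime] (S : Finset ℕ) (k : ℕ) :
    Finite (EisW N l' S k) := by
  have h := Fermat.Agent.F3TF.torsionFinite N (l' ^ k) (pow_pos (Fact.out : l'.Prime).pos k)
  exact (h.subset fun x hx => hx.1).to_subtype

/-- the embedding of `W_k` into `J₀(N)[l'^k]`. -/
def eisEmb (l' : ℕ) (S : Finset ℕ) (k : ℕ) : TorsEmb N (l' ^ k) (EisW N l' S k) where
  ι := (eisTors N l' S k).subtype
  inj := Subtype.coe_injective
  smul _ _ := rfl
  tors w := w.2.1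

/-! ### the seats -/

/-- **DESC-EIS-1** (algebra): for every `k` there is `e_k` in the free Hecke ring with
`ε(e_k) = 1` which maps `J₀(N)[l'^k]` into `W_k`. -/
def EisIdem (l' : ℕ) (S : Finset ℕ) : Prop :=
  ∀ k : ℕ, ∃ e : FreeAlgebra ℤ (OutPrimes S), eisChar l' S e = 1 ∧
    ∀ x : JZero N, l' ^ k • x = 0 → heckeAct N S e x ∈ eisTors N l' S k

/-- **DESC-EIS-2** (Eichler–Shimura + Frobenius density + DESC-JH): `W_k` has a typed chain. -/
def EisChain (l' : ℕ) (S : Finset ℕ) : Prop :=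
  ∀ k : ℕ, Nonempty (TypedChain (EisW N l' S k) l')

/-- **(W)**, form for odd `l'`: at least half of the pieces of EVERY typed chain are `et`. -/
def EisOrd (l' : ℕ) (S : Finset ℕ) : Prop :=
  ∃ c : ℕ, 0 < c ∧ ∀ (k : ℕ) (C : TypedChain (EisW N l' S k) l'),
    Nat.card (EisW N l' S k) ≤ c * l' ^ (2 * C.alpha)

/-- the flat local condition for the chain `C` of `W_k` at the place `Al`, containing the Kummer
cocycles of the points `R` with `l'^k R` rational. -/
def EisFlatAt (l' : ℕ) (S : Finset ℕ) (k : ℕ) (C : TypedChain (EisW N l' S k) l')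
    (Al : ValuationSubring Qb) : Prop :=
  ∃ Flat : (GQb → EisW N l' S k) → Prop, FlatCond C Al Flat ∧
    ∀ (R : JZero N) (c : GQb → EisW N l' S k), RatPt (l' ^ k • R) →
      (∀ σ, ((c σ : EisW N l' S k) : JZero N) = kum R σ) → Flat c

/-- **(FL)**, form for odd `l'`: the flat condition exists for EVERY typed chain. -/
def EisFlat (l' : ℕ) (S : Finset ℕ) : Prop :=
  ∀ (k : ℕ) (C : TypedChain (EisW N l' S k) l') (Al : ValuationSubring Qb),
    Al.LiesOverPrime l' → EisFlatAt N l' S k C Al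

/-- **(W) + (FL)**, the form used by DESC-MAIN: SOME typed chain of `W_k` has at least half of
its pieces `et` and carries the flat condition at every place `Al` over `l'`. -/
def EisLocal (l' : ℕ) (S : Finset ℕ) : Prop :=
  ∃ c : ℕ, 0 < c ∧ ∀ k : ℕ, ∃ C : TypedChain (EisW N l' S k) l',
    Nat.card (EisW N l' S k) ≤ c * l' ^ (2 * C.alpha) ∧
    ∀ Al : ValuationSubring Qb, Al.LiesOverPrime l' → EisFlatAt N l' S k C Al

theorem eisLocal_of {l' : ℕ} (_hl' : l'.Prime) {S : Finset ℕ} (hC : EisChain N l' S)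
    (hO : EisOrd N l' S) (hF : EisFlat N l' S) : EisLocal N l' S := by
  obtain ⟨c, hc, h⟩ := hO
  refine ⟨c, hc, fun k => ?_⟩
  obtain ⟨C⟩ := hC k
  exact ⟨C, h k C, fun Al hAl => hF k C Al hAl⟩

/-! ### the route through the reduction at `l'` (needed for `l' = 2`, valid for every `l'`) -/

/-- the kernel of the reduction at `Al` on `W_k` (the "connected part" `W⁰`). -/
def eisRedKer (l' : ℕ) (S : Finset ℕ) (k : ℕ) (Al : ValuationSubring Qb) :
    AddSubgroup (EisW N l' S k) :=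
  ((reductionModL Al N).comp (eisTors N l' S k).subtype).ker

/-- **(ORD)**: the Eisenstein part is ordinary at `l'`: the kernel of the reduction is at most
"half" of `W_k`. -/
def EisOrdRed (l' : ℕ) (S : Finset ℕ) : Prop :=
  ∃ c : ℕ, 0 < c ∧ ∀ (k : ℕ) (Al : ValuationSubring Qb), Al.LiesOverPrime l' →
    Nat.card (eisRedKer N l' S k Al) ^ 2 ≤ c * Nat.card (EisW N l' S k)

/-- local Kummer cocycles at `Al`: on the decomposition group, `c = (σ ↦ σR - R)` up to a
coboundary of `W_k`. -/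
def LocKum (l' : ℕ) (S : Finset ℕ) (k : ℕ) (Al : ValuationSubring Qb)
    (c : GQb → EisW N l' S k) : Prop :=
  ∃ (R : JZero N) (w : EisW N l' S k), ∀ σ ∈ Al.decompositionSubgroup ℚ,
    ((c σ : EisW N l' S k) : JZero N) = σ • R - R + (σ • (w : JZero N) - w)

/-- a typed chain whose types are read off the reduction at `Al`:
`et i ↔ F (i+1) ∩ W⁰ ⊆ F i`. -/
def RedTyped {l' : ℕ} {S : Finset ℕ} {k : ℕ} (C : TypedChain (EisW N l' S k) l')
    (Al : ValuationSubring Qb) : Prop :=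
  ∀ i, i < C.L → (C.et i ↔ C.F (i + 1) ⊓ eisRedKer N l' S k Al ≤ C.F i)

/-- **(PEU)**: on a piece of `W_k` which meets the kernel of the reduction, the local Kummer
classes are Kummer classes of UNITS (flatness of the Kummer torsors). -/
def EisPeu (l' : ℕ) (S : Finset ℕ) : Prop :=
  ∀ (k : ℕ) (Al : ValuationSubring Qb), Al.LiesOverPrime l' →
    ∀ C : TypedChain (EisW N l' S k) l', RedTyped N C Al →
    ∀ i, i < C.L → ¬ C.et i → ∀ c : GQb → EisW N l' S k, IsCoc c → LocKum N l' S k Al c →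
      (∀ σ, c σ ∈ C.F (i + 1)) →
      ∃ a : Qb, a ∈ Al ∧ a⁻¹ ∈ Al ∧ a ≠ 0 ∧
        ∀ σ ∈ Al.decompositionSubgroup ℚ, C.ι i (c σ) * a = σ a

/-- **DESC-LOC2** (wiring, seat): for `l' = 2` every chain can be re-typed by the reduction
(`ℤ/2 = μ_2` as Galois modules), `et_unram` is automatic for local Kummer cocycles, `α` is the
index of `W⁰`. -/
def EisLocalTwoStatement : Prop :=
  ∀ S : Finset ℕ, EisChain N 2 S → EisOrdRed N 2 S → EisPeu N 2 S → EisLocal N 2 S

/-- **(T1), counting form**: the inertia at the level `N = p` fixes at least "half" of `W_k`. -/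
def EisToric (l' : ℕ) (S : Finset ℕ) : Prop :=
  ∃ c : ℕ, 0 < c ∧ ∀ (k : ℕ) (Ap : ValuationSubring Qb), Ap.LiesOverPrime N →
    Nat.card (EisW N l' S k) ≤
      c * Nat.card (fixedBy (EisW N l' S k) (Ap.inertiaSubgroupIn ℚ)) ^ 2

/-- **(K-p)**: the Kummer classes of `m J₀(N)(ℚ)` are trivial on the inertia at `N = p`
(`m` = exponent of the component group). -/
def EisKp (l' : ℕ) : Prop :=
  ∃ m : ℕ, 0 < m ∧ ∀ (k : ℕ) (P R : JZero N), RatPt P → l' ^ k • R = m • P →
    ∀ Ap : ValuationSubring Qb, Ap.LiesOverPrime N →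
      ∃ w : JZero N, l' ^ k • w = 0 ∧ ∀ σ ∈ Ap.inertiaSubgroupIn ℚ, σ • R - R = σ • w - w

/-- **DESC-MAIN**, the statement: there is `t` in the free Hecke ring, not in the Eisenstein
prime over `l'`, which maps the rational points into the torsion. -/
def EisDescentAt (l' : ℕ) (S : Finset ℕ) : Prop :=
  ∃ t : FreeAlgebra ℤ (OutPrimes S), eisChar l' S t ≠ 0 ∧
    ∀ z : JZero N, RatPt z → ∃ m : ℕ, 0 < m ∧ m • heckeAct N S t z = 0

end Fermat.Agent.EDesc
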