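/-
Cluster E' (S15), seat DESC-EIS (helper39): the Eisenstein part of `J₀(N)[l'^k]`.

* `eisIdem_of : EisIdem N l' S`  (DESC-EIS-1): an element `e` of the free Hecke ring with
  `ε(e) = 1` mapping `J₀(N)[l'^k]` into the Eisenstein part `W_k`
  (algebra: E/Desc/EisAlg.lean; commutativity of the Hecke operators on torsion: E/Desc/Comm.lean);
* `eisChain_of : EisChain N l' S`  (DESC-EIS-2): `W_k` has a typed chain
  (Eichler–Shimura on torsion + Frobenius density + E/Desc/EisPow.lean + DESC-JH).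

Hypotheses: `S` contains the primes dividing `N`, and (for the chain) the prime `l'`.
-/
import Fermat.Agent.E.Desc.MainDefs
import Fermat.Agent.E.Desc.EisAlg
import Fermat.Agent.E.Desc.EisPow
import Fermat.Agent.E.Desc.Comm
import Fermat.Agent.E.Desc.JHChain
import Fermat.Agent.Lib.Cyclo.ModChar
import Fermat.Agent.F3.FrobDensityLiteFinal
import Fermat.Agent.Lib.GaussInt.FrobPowFinal
import Fermat.Agent.Lib.GaussInt.KeyAux
import Fermat.Agent.Lib.HeckeInputs.Qbar
import Fermat.Agent.Lib.Minkowski.InertiaLift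

set_option autoImplicit false
set_option linter.style.haveILetI false

noncomputable section

namespace Fermat.Agent.EDesc

open ModularCurve AlgebraicCurve

local notation "Qb" => AlgebraicClosure ℚ
local notation "GQb" => (AlgebraicClosure ℚ ≃ₐ[ℚ] AlgebraicClosure ℚ)

variable (N : ℕ) [NeZero N]

/-! ### the free Hecke ring acting on torsion -/

/-- the `n`-torsion subgroup of `J₀(N)(ℚ̄)`. -/
def eisTorsionSub (n : ℕ) : AddSubgroup (JZero N) where
  carrier := {x | n • x = 0}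
  zero_mem' := smul_zero _
  add_mem' := by
    intro a b ha hb
    simp only [Set.mem_ofPred_eq] at *
    rw [nsmul_add, ha, hb, add_zero]
  neg_mem' := by
    intro a ha
    simp only [Set.mem_ofPred_eq] at *
    rw [neg_nsmul, ha, neg_zero]

theorem mem_eisTorsionSub {n : ℕ} {x : JZero N} : x ∈ eisTorsionSub N n ↔ n • x = 0 := Iff.rfl

theorem eis_finite_torsionSub {n : ℕ} (hn : 0 < n) : Finite (eisTorsionSub N n) :=
  (Fermat.Agent.F3TF.torsionFinite N n hn).to_subtype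

/-- the element `T_r - (1 + r)` of the free Hecke ring. -/
def eisGenF (S : Finset ℕ) (r : OutPrimes S) : FreeAlgebra ℤ (OutPrimes S) :=
  FreeAlgebra.ι ℤ r - algebraMap ℤ _ (((1 + (r.1 : ℕ) : ℕ)) : ℤ)

theorem eisChar_eisGenF (l' : ℕ) (S : Finset ℕ) (r : OutPrimes S) :
    eisChar l' S (eisGenF S r) = 0 := by
  unfold eisGenF eisChar
  rw [map_sub, FreeAlgebra.lift_ι_apply, AlgHom.commutes]
  simp

theorem heckeAct_ι (S : Finset ℕ) (r : OutPrimes S) :
    heckeAct N S (FreeAlgebra.ι ℤ r) = heckeOperatorBar N r.1 := by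
  unfold heckeAct
  rw [FreeAlgebra.lift_ι_apply]

theorem heckeAct_algebraMap (S : Finset ℕ) (z : ℤ) (x : JZero N) :
    heckeAct N S (algebraMap ℤ _ z) x = z • x := by
  rw [AlgHom.commutes, Module.algebraMap_end_apply]

theorem heckeAct_eisGenF (S : Finset ℕ) (r : OutPrimes S) (x : JZero N) :
    heckeAct N S (eisGenF S r) x = eisGen N r.1 x := by
  unfold eisGenF
  rw [map_sub, LinearMap.sub_apply, heckeAct_ι, heckeAct_algebraMap, eisGen_apply, natCast_zsmul]

theorem heckeAct_nsmul (S : Finset ℕ) (a : FreeAlgebra ℤ (OutPrimes S)) (n : ℕ) (x : JZero N) :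
    heckeAct N S a (n • x) = n • heckeAct N S a x := map_nsmul _ _ _

theorem heckeAct_mem_torsionSub (S : Finset ℕ) (a : FreeAlgebra ℤ (OutPrimes S)) {n : ℕ}
    {x : JZero N} (hx : n • x = 0) : n • heckeAct N S a x = 0 := by
  rw [← heckeAct_nsmul, hx, map_zero]

variable {N}

theorem not_dvd_of_outPrimes {S : Finset ℕ} (hNS : ∀ r : ℕ, r.Prime → r ∣ N → r ∈ S)
    (r : OutPrimes S) : ¬ ((r.1 : ℕ) ∣ N) := fun h => r.2 (hNS _ r.1.2 h)

/-- the free Hecke ring commutes with the Hecke operators on torsion. -/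
theorem heckeAct_comm_hecke {S : Finset ℕ} (hNS : ∀ r : ℕ, r.Prime → r ∣ N → r ∈ S)
    (s : OutPrimes S) {n : ℕ} (hn : n ≠ 0) (a : FreeAlgebra ℤ (OutPrimes S)) :
    ∀ x : JZero N, n • x = 0 →
      heckeAct N S a (heckeOperatorBar N s.1 x) = heckeOperatorBar N s.1 (heckeAct N S a x) := by
  induction a using FreeAlgebra.induction with
  | grade0 z =>
    intro x _
    rw [heckeAct_algebraMap, heckeAct_algebraMap, map_zsmul]
  | grade1 r =>
    intro x hx
    rw [heckeAct_ι]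
    exact heckeOperatorBar_comm_of_torsion N r.1 s.1 (not_dvd_of_outPrimes hNS r)
      (not_dvd_of_outPrimes hNS s) hn hx
  | mul a b iha ihb =>
    intro x hx
    rw [map_mul, Module.End.mul_apply, Module.End.mul_apply, ihb x hx,
      iha _ (heckeAct_mem_torsionSub N S b hx)]
  | add a b iha ihb =>
    intro x hx
    rw [map_add, LinearMap.add_apply, LinearMap.add_apply, iha x hx, ihb x hx, map_add]

/-- the free Hecke ring acts commutatively on torsion. -/
theorem heckeAct_comm {S : Finset ℕ} (hNS : ∀ r : ℕ, r.Prime → r ∣ N → r ∈ S)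
    {n : ℕ} (hn : n ≠ 0) (a b : FreeAlgebra ℤ (OutPrimes S)) :
    ∀ x : JZero N, n • x = 0 →
      heckeAct N S a (heckeAct N S b x) = heckeAct N S b (heckeAct N S a x) := by
  induction b using FreeAlgebra.induction with
  | grade0 z =>
    intro x _
    rw [heckeAct_algebraMap, heckeAct_algebraMap, map_zsmul]
  | grade1 r =>
    intro x hx
    rw [heckeAct_ι]
    exact heckeAct_comm_hecke hNS r hn a x hx
  | mul b c ihb ihc =>
    intro x hx
    rw [map_mul, Module.End.mul_apply, Module.End.mul_apply,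
      ihb _ (heckeAct_mem_torsionSub N S c hx), ihc x hx]
  | add b c ihb ihc =>
    intro x hx
    have h1 : heckeAct N S (b + c) x = heckeAct N S b x + heckeAct N S c x := by
      rw [map_add]
      rfl
    have h2 : heckeAct N S (b + c) (heckeAct N S a x)
        = heckeAct N S b (heckeAct N S a x) + heckeAct N S c (heckeAct N S a x) := by
      rw [map_add]
      rfl
    calc heckeAct N S a (heckeAct N S (b + c) x)
        = heckeAct N S a (heckeAct N S b x + heckeAct N S c x) := congrArg _ h1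
      _ = heckeAct N S a (heckeAct N S b x) + heckeAct N S a (heckeAct N S c x) :=
          (heckeAct N S a).map_add _ _
      _ = heckeAct N S b (heckeAct N S a x) + heckeAct N S c (heckeAct N S a x) :=
          congrArg₂ (· + ·) (ihb x hx) (ihc x hx)
      _ = heckeAct N S (b + c) (heckeAct N S a x) := h2.symm

/-- **DESC-EIS-1.** -/
theorem eisIdem_of {l' : ℕ} (hl : l' ≠ 0) {S : Finset ℕ}
    (hNS : ∀ r : ℕ, r.Prime → r ∣ N → r ∈ S) : EisIdem N l' S := by
  intro k
  have hn : 0 < l' ^ k := pow_pos (Nat.pos_of_ne_zero hl) k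
  haveI hfin : Finite (eisTorsionSub N (l' ^ k)) := eis_finite_torsionSub N hn
  let ε : FreeAlgebra ℤ (OutPrimes S) →+* ZMod l' := (eisChar l' S).toRingHom
  let ρ : FreeAlgebra ℤ (OutPrimes S) →+* Module.End ℤ (JZero N) := (heckeAct N S).toRingHom
  have hρ : ∀ (a : FreeAlgebra ℤ (OutPrimes S)) (x : JZero N), ρ a x = heckeAct N S a x :=
    fun _ _ => rfl
  have hG : ∀ g ∈ Set.range (eisGenF S), ε g = 0 := by
    rintro _ ⟨r, rfl⟩
    exact eisChar_eisGenF l' S r
  have hmono : Monotone (eisKer N S) := monotone_nat_of_le_succ (eisKer_mono N S)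
  have hsucc : ∀ (m : ℕ) (x : JZero N),
      (∀ g ∈ Set.range (eisGenF S), ρ g x ∈ eisKer N S m) → x ∈ eisKer N S (m + 1) := by
    intro m x hx
    rw [mem_eisKer_succ]
    intro r
    have := hx (eisGenF S r) ⟨r, rfl⟩
    rwa [hρ, heckeAct_eisGenF] at this
  have hV : ∀ (a : FreeAlgebra ℤ (OutPrimes S)), ∀ x ∈ eisTorsionSub N (l' ^ k),
      ρ a x ∈ eisTorsionSub N (l' ^ k) := fun a x hx => heckeAct_mem_torsionSub N S a hx
  have hcomm : ∀ (a b : FreeAlgebra ℤ (OutPrimes S)), ∀ x ∈ eisTorsionSub N (l' ^ k),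
      ρ a (ρ b x) = ρ b (ρ a x) := fun a b x hx => heckeAct_comm hNS hn.ne' a b x hx
  obtain ⟨e, he, heV⟩ := eisAlg_exists_idem ε ρ (Set.range (eisGenF S)) (eisKer N S)
    hG hmono hsucc (eisTorsionSub N (l' ^ k)) hV hcomm
  exact ⟨e, he, fun x hx => ⟨heckeAct_mem_torsionSub N S e hx, heV x hx⟩⟩

/-! ### the filtration of the Eisenstein part -/

variable (N)

/-- the classes killed by all products of `m` operators among `l'` and the `η_r`, `r ∉ S`. -/
def eisFil (l' : ℕ) (S : Finset ℕ) : ℕ → AddSubgroup (JZero N)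
  | 0 => ⊥
  | m + 1 => (eisFil l' S m).comap (nsmulAddMonoidHom l') ⊓
      ⨅ r : OutPrimes S, (eisFil l' S m).comap (eisGen N r.1)

theorem eisFil_zero (l' : ℕ) (S : Finset ℕ) : eisFil N l' S 0 = ⊥ := rfl

variable {N}

theorem mem_eisFil_succ {l' : ℕ} {S : Finset ℕ} {m : ℕ} {x : JZero N} :
    x ∈ eisFil N l' S (m + 1) ↔
      l' • x ∈ eisFil N l' S m ∧ ∀ r : OutPrimes S, eisGen N r.1 x ∈ eisFil N l' S m := by
  show x ∈ ((eisFil N l' S m).comap (nsmulAddMonoidHom l') ⊓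
      ⨅ r : OutPrimes S, (eisFil N l' S m).comap (eisGen N r.1)) ↔ _
  simp only [AddSubgroup.mem_inf, AddSubgroup.mem_comap, AddSubgroup.mem_iInf,
    nsmulAddMonoidHom_apply]

theorem eisFil_mono (l' : ℕ) (S : Finset ℕ) (m : ℕ) :
    eisFil N l' S m ≤ eisFil N l' S (m + 1) := by
  induction m with
  | zero => rw [eisFil_zero]; exact bot_le
  | succ m ih =>
    intro x hx
    rw [mem_eisFil_succ] at hx ⊢
    exact ⟨ih hx.1, fun r => ih (hx.2 r)⟩

theorem eisFil_monotone (l' : ℕ) (S : Finset ℕ) : Monotone (eisFil N l' S) :=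
  monotone_nat_of_le_succ (eisFil_mono l' S)

theorem eisFil_smul_mem (l' : ℕ) (S : Finset ℕ) (m : ℕ) (σ : GQb) {x : JZero N}
    (hx : x ∈ eisFil N l' S m) : σ • x ∈ eisFil N l' S m := by
  induction m generalizing x with
  | zero =>
    rw [eisFil_zero, AddSubgroup.mem_bot] at hx ⊢
    rw [hx, gal_smul_zero]
  | succ m ih =>
    rw [mem_eisFil_succ] at hx ⊢
    refine ⟨?_, fun r => ?_⟩
    · rw [← gal_smul_nsmul]
      exact ih hx.1
    · rw [eisGen_smul]
      exact ih (hx.2 r)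

theorem eisGen_nsmul (r : Nat.Primes) (n : ℕ) (x : JZero N) :
    eisGen N r (n • x) = n • eisGen N r x := map_nsmul _ _ _

/-- an `l'^a`-torsion class killed by all products of `b` Eisenstein generators lies in the
`(a + b)`-th step of the filtration. -/
theorem eisFil_of (l' : ℕ) (S : Finset ℕ) (a : ℕ) :
    ∀ (b : ℕ) (x : JZero N), l' ^ a • x = 0 → x ∈ eisKer N S b → x ∈ eisFil N l' S (a + b) := by
  induction a with
  | zero =>
    intro b x hx _
    rw [pow_zero, one_smul] at hx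
    rw [hx]
    exact zero_mem _
  | succ a iha =>
    intro b
    induction b with
    | zero =>
      intro x _ hx
      rw [eisKer_zero, AddSubgroup.mem_bot] at hx
      rw [hx]
      exact zero_mem _
    | succ b ihb =>
      intro x hx hxK
      have e : a + 1 + (b + 1) = (a + 1 + b) + 1 := by omega
      rw [e, mem_eisFil_succ]
      refine ⟨?_, fun r => ?_⟩
      · have h1 : l' ^ a • (l' • x) = 0 := by
          rw [← mul_smul, ← pow_succ]
          exact hx
        have h2 := iha (b + 1) (l' • x) h1 (nsmul_mem hxK l')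
        have e2 : a + (b + 1) = a + 1 + b := by omega
        rwa [e2] at h2
      · have h1 : l' ^ (a + 1) • eisGen N r.1 x = 0 := by
          rw [← eisGen_nsmul, hx, map_zero]
        exact ihb (eisGen N r.1 x) h1 ((mem_eisKer_succ N).mp hxK r)

/-- the filtration is exhaustive on `W_k`, uniformly. -/
theorem exists_eisFil_top (l' : ℕ) [Fact l'.Prime] (S : Finset ℕ) (k : ℕ) :
    ∃ n₀ : ℕ, ∀ x ∈ eisTors N l' S k, x ∈ eisFil N l' S n₀ := by
  haveI : Finite (eisTors N l' S k) := eisW_finite N l' S k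
  obtain ⟨m₀, hm₀⟩ := eisAlg_uniform (eisFil N l' S) (eisFil_monotone l' S) (eisTors N l' S k)
  refine ⟨m₀, fun x hx => hm₀ x hx ?_⟩
  obtain ⟨hx1, m, hm⟩ := hx
  exact ⟨k + m, eisFil_of l' S k m x hx1 hm⟩

variable (N)

/-- the filtration of `W_k`, decreasing. -/
def eisWf (l' : ℕ) (S : Finset ℕ) (k n₀ : ℕ) (i : ℕ) : AddSubgroup (EisW N l' S k) :=
  (eisFil N l' S (n₀ - i)).comap (eisTors N l' S k).subtype

variable {N}

theorem mem_eisWf {l' : ℕ} {S : Finset ℕ} {k n₀ i : ℕ} {w : EisW N l' S k} :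
    w ∈ eisWf N l' S k n₀ i ↔ (w : JZero N) ∈ eisFil N l' S (n₀ - i) := Iff.rfl

/-! ### fields of definition -/

/-- a finite normal extension over which `W_k` and `ζ` are defined. -/
theorem exists_field_eisW (l' : ℕ) [Fact l'.Prime] (S : Finset ℕ) (k : ℕ) (ζ : Qb) :
    ∃ L : IntermediateField ℚ Qb, FiniteDimensional ℚ L ∧ Normal ℚ L ∧ ζ ∈ L ∧
      ∀ σ : GQb, (∀ a ∈ L, σ a = a) → ∀ w : EisW N l' S k, σ • w = w := by
  haveI : Algebra.IsAlgebraic ℚ Qb := AlgebraicClosure.isAlgebraic ℚ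
  haveI : IsAlgClosure ℚ Qb := ⟨inferInstance, inferInstance⟩
  haveI : Normal ℚ Qb := inferInstance
  have hex : ∀ w : EisW N l' S k, ∃ L : IntermediateField ℚ Qb, FiniteDimensional ℚ L ∧
      ∀ σ : GQb, (∀ a ∈ L, σ a = a) → σ • (w : JZero N) = w := fun w =>
    Fermat.Agent.S17W.openStab N (w : JZero N)
  choose Lw hLfin hLfix using hex
  haveI : ∀ w, FiniteDimensional ℚ (Lw w) := hLfin
  haveI : Finite (EisW N l' S k) := eisW_finite N l' S k
  let L₀ : IntermediateField ℚ Qb := ⨆ w, Lw w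
  haveI h0 : FiniteDimensional ℚ L₀ := IntermediateField.finiteDimensional_iSup_of_finite
  haveI h1 : FiniteDimensional ℚ (IntermediateField.adjoin ℚ {ζ}) :=
    IntermediateField.adjoin.finiteDimensional (Algebra.IsIntegral.isIntegral ζ)
  let L₁ : IntermediateField ℚ Qb := L₀ ⊔ IntermediateField.adjoin ℚ {ζ}
  haveI h2 : FiniteDimensional ℚ L₁ := IntermediateField.finiteDimensional_sup _ _
  let L : IntermediateField ℚ Qb := IntermediateField.normalClosure ℚ L₁ Qb
  have hL₁L : L₁ ≤ L := IntermediateField.le_normalClosure L₁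
  refine ⟨L, inferInstance, normalClosure.normal ℚ L₁ Qb, ?_, ?_⟩
  · apply hL₁L
    exact (le_sup_right : IntermediateField.adjoin ℚ {ζ} ≤ L₁)
      (IntermediateField.mem_adjoin_simple_self ℚ ζ)
  · intro σ hσ w
    apply Subtype.ext
    show σ • (w : JZero N) = w
    apply hLfix w σ
    intro a ha
    apply hσ
    apply hL₁L
    exact (le_sup_left : L₀ ≤ L₁) ((le_iSup Lw w : Lw w ≤ L₀) ha)

/-- two automorphisms which agree on a field of definition act in the same way. -/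
theorem eis_smul_eq_of_agree {W : Type*} [AddCommGroup W] [DistribMulAction GQb W]
    (L : IntermediateField ℚ Qb)
    (hL : ∀ σ : GQb, (∀ a ∈ L, σ a = a) → ∀ w : W, σ • w = w) (g h : GQb)
    (hgh : ∀ a ∈ L, g a = h a) (w : W) : g • w = h • w := by
  have h1 : ∀ a ∈ L, (g⁻¹ * h) a = a := by
    intro a ha
    rw [AlgEquiv.mul_apply, ← hgh a ha]
    exact g.symm_apply_apply a
  have h2 := hL (g⁻¹ * h) h1 w
  calc g • w = g • ((g⁻¹ * h) • w) := by rw [h2]
    _ = h • w := by rw [← mul_smul, mul_inv_cancel_left]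

theorem eis_apply_mem_of_normal (L : IntermediateField ℚ Qb) [Normal ℚ L] (σ : GQb) {x : Qb}
    (hx : x ∈ L) : σ x ∈ L := by
  have h := AlgEquiv.restrictNormal_commutes σ L ⟨x, hx⟩
  have h' : σ x = ((σ.restrictNormal L ⟨x, hx⟩ : L) : Qb) := h.symm
  rw [h']
  exact (σ.restrictNormal L ⟨x, hx⟩).2

/-- powers of automorphisms which agree on a normal field. -/
theorem eis_pow_agree (L : IntermediateField ℚ Qb) [Normal ℚ L] (τ ρ : GQb)
    (h : ∀ a ∈ L, τ a = ρ a) (n : ℕ) : ∀ a ∈ L, (τ ^ n) a = (ρ ^ n) a := by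
  induction n with
  | zero => intro a _; simp
  | succ n ih =>
    intro a ha
    rw [pow_succ, pow_succ, AlgEquiv.mul_apply, AlgEquiv.mul_apply, h a ha]
    exact ih _ (eis_apply_mem_of_normal L ρ ha)

/-! ### the typed chain -/

theorem eisWf_smul_mem {l' : ℕ} {S : Finset ℕ} {k n₀ : ℕ} (i : ℕ) (σ : GQb)
    (x : EisW N l' S k) (hx : x ∈ eisWf N l' S k n₀ i) : σ • x ∈ eisWf N l' S k n₀ i := by
  rw [mem_eisWf] at hx ⊢
  exact eisFil_smul_mem l' S _ σ hx

theorem eisWf_nsmul_mem {l' : ℕ} {S : Finset ℕ} {k n₀ : ℕ} (i : ℕ)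
    (x : EisW N l' S k) (hx : x ∈ eisWf N l' S k n₀ i) : l' • x ∈ eisWf N l' S k n₀ (i + 1) := by
  rw [mem_eisWf] at hx ⊢
  have hc : ((l' • x : EisW N l' S k) : JZero N) = l' • (x : JZero N) :=
    AddSubgroup.coe_nsmul _ x l'
  rw [hc]
  rcases Nat.eq_zero_or_pos (n₀ - i) with h0 | hpos
  · rw [h0, eisFil_zero, AddSubgroup.mem_bot] at hx
    rw [hx, smul_zero]
    exact zero_mem _
  · obtain ⟨m, hm⟩ : ∃ m, n₀ - i = m + 1 := ⟨n₀ - i - 1, by omega⟩
    have hm' : n₀ - (i + 1) = m := by omega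
    rw [hm] at hx
    rw [hm']
    exact (mem_eisFil_succ.mp hx).1

/-- the Eichler–Shimura relation on the filtration, for a Frobenius element. -/
theorem eisWf_frob {l' : ℕ} [Fact l'.Prime] {S : Finset ℕ}
    (hNS : ∀ r : ℕ, r.Prime → r ∣ N → r ∈ S) (hl : l' ∈ S) {k n₀ : ℕ} (i : ℕ)
    {ℓ : ℕ} (hℓ : ℓ.Prime) (hℓS : ℓ ∉ S) (A : ValuationSubring Qb) (hA : A.LiesOverPrime ℓ)
    (τ : GQb) (hF : A.IsFrobeniusAt τ ℓ)
    (x : EisW N l' S k) (hx : x ∈ eisWf N l' S k n₀ i) :
    τ • τ • x + ℓ • x - (1 + ℓ) • τ • x ∈ eisWf N l' S k n₀ (i + 1) := by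
  have hlp : l'.Prime := Fact.out
  have hFQ : Fermat.Agent.F3.TorsionFrobQuadratic N :=
    Fermat.Agent.GaussIntFP.torsionFrobQuadratic_of_keyLemmaAt
      (Fermat.Agent.GaussInt.keyLemmaAt_all N)
      (fun q => by
        haveI : NeZero (q : ℕ) := ⟨q.2.ne_zero⟩
        exact Fermat.Agent.HeckeInputs.hi_heckeInputsAlong_Qbar N q)
  have hndvd : ¬ ℓ ∣ N * l' ^ k := by
    intro h
    rcases (Nat.Prime.dvd_mul hℓ).mp h with h1 | h1
    · exact hℓS (hNS ℓ hℓ h1)
    · have h2 := hℓ.dvd_of_dvd_pow h1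
      have h3 : ℓ = l' := (Nat.prime_dvd_prime_iff_eq hℓ hlp).mp h2
      exact hℓS (h3 ▸ hl)
  have hy : l' ^ k • (x : JZero N) = 0 := x.2.1
  have h1 := hFQ (l' ^ k) ℓ hℓ hndvd A hA τ hF (x : JZero N) hy
  rw [mem_eisWf] at hx ⊢
  have hc : ((τ • τ • x + ℓ • x - (1 + ℓ) • τ • x : EisW N l' S k) : JZero N)
      = eisGen N (⟨ℓ, hℓ⟩ : Nat.Primes) (τ • (x : JZero N)) := by
    have e : ((τ • τ • x + ℓ • x - (1 + ℓ) • τ • x : EisW N l' S k) : JZero N)
        = τ • τ • (x : JZero N) + ℓ • (x : JZero N) - (1 + ℓ) • τ • (x : JZero N) := by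
      rw [AddSubgroup.coe_sub, AddSubgroup.coe_add, AddSubgroup.coe_nsmul,
        AddSubgroup.coe_nsmul]
      rfl
    have h2 : τ • τ • (x : JZero N) + ℓ • (x : JZero N)
        = heckeOperatorBar N (⟨ℓ, hℓ⟩ : Nat.Primes) (τ • (x : JZero N)) := by
      have := h1
      rw [sub_add_eq_add_sub, sub_eq_zero] at this
      exact this
    have h3 := eisGen_apply N (⟨ℓ, hℓ⟩ : Nat.Primes) (τ • (x : JZero N))
    rw [e, h2, h3]
  rw [hc]
  rcases Nat.eq_zero_or_pos (n₀ - i) with h0 | hpos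
  · rw [h0, eisFil_zero, AddSubgroup.mem_bot] at hx
    rw [hx, gal_smul_zero, map_zero]
    exact zero_mem _
  · obtain ⟨m, hm⟩ : ∃ m, n₀ - i = m + 1 := ⟨n₀ - i - 1, by omega⟩
    have hm' : n₀ - (i + 1) = m := by omega
    rw [hm] at hx
    rw [hm']
    exact (mem_eisFil_succ.mp (eisFil_smul_mem l' S _ τ hx)).2 (⟨(⟨ℓ, hℓ⟩ : Nat.Primes), hℓS⟩ : OutPrimes S)

/-- **DESC-EIS-2.** -/
theorem eisChain_of {l' : ℕ} [Fact l'.Prime] {S : Finset ℕ}
    (hNS : ∀ r : ℕ, r.Prime → r ∣ N → r ∈ S) (hl : l' ∈ S) : EisChain N l' S := by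
  intro k
  have hlp : l'.Prime := Fact.out
  haveI : NeZero l' := ⟨hlp.ne_zero⟩
  haveI : Finite (EisW N l' S k) := eisW_finite N l' S k
  obtain ⟨ζ, hζ⟩ := HasEnoughRootsOfUnity.exists_primitiveRoot Qb l'
  let χ : GQb →* (ZMod l')ˣ := Fermat.Agent.Cyclo.modChar l'
  have hχ : ∀ σ : GQb, σ ζ = ζ ^ jhMul χ σ := fun σ =>
    Fermat.Agent.Cyclo.modChar_spec l' σ hζ.pow_eq_one
  obtain ⟨n₀, hn₀⟩ := exists_eisFil_top (N := N) l' S k
  obtain ⟨L, hLfin, hLnorm, hζL, hLfix⟩ := exists_field_eisW (N := N) l' S k ζ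
  have hroots : ∀ t : Qb, t ^ l' = 1 → t ∈ L := by
    intro t ht
    obtain ⟨i, -, rfl⟩ := hζ.eq_pow_of_pow_eq_one ht
    exact pow_mem hζL i
  obtain ⟨C, -⟩ := exists_typedChain χ hζ hχ n₀ (eisWf N l' S k n₀)
    (by
      rw [eq_top_iff]
      intro w _
      rw [mem_eisWf, Nat.sub_zero]
      exact hn₀ w w.2)
    (by
      rw [eq_bot_iff]
      intro w hw
      rw [mem_eisWf, Nat.sub_self, eisFil_zero, AddSubgroup.mem_bot] at hw
      rw [AddSubgroup.mem_bot]
      exact Subtype.ext hw)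
    (fun i σ x hx => eisWf_smul_mem i σ x hx)
    (fun i x hx => eisWf_nsmul_mem i x hx)
    (by
      intro i σ
      obtain ⟨ℓ, A, τ, k', j', hℓ, hℓS, hA, hF, h1, h2⟩ :=
        Fermat.Agent.F3.frobDensityLite L hLfin hLnorm σ S
      haveI := hLnorm
      have hagree : ∀ a ∈ L, (τ ^ j') a = σ a := by
        intro a ha
        rw [eis_pow_agree L τ (σ ^ k') h1 j' a ha, ← pow_mul]
        exact h2 a ha
      have hℓl : ¬ ℓ ∣ l' := by
        intro h
        have h3 : ℓ = l' := (Nat.prime_dvd_prime_iff_eq hℓ hlp).mp h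
        exact hℓS (h3 ▸ hl)
      have hχτ : ((χ τ : (ZMod l')ˣ) : ZMod l') = (ℓ : ZMod l') :=
        Fermat.Agent.Cyclo.modChar_frobenius l' hℓ hℓl A hA τ hF
      have hχσ : ((χ σ : (ZMod l')ˣ) : ZMod l') = ((χ (τ ^ j') : (ZMod l')ˣ) : ZMod l') := by
        apply Fermat.Agent.Cyclo.modChar_unique l' σ
        intro t ht
        rw [← hagree t (hroots t ht)]
        exact Fermat.Agent.Cyclo.modChar_spec l' (τ ^ j') ht
      have hc : ((ℓ : ZMod l')) ^ j' = ((χ σ : (ZMod l')ˣ) : ZMod l') := by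
        rw [hχσ, map_pow, Units.val_pow_eq_pow_val, hχτ]
      exact eisPow_transfer χ (eisWf N l' S k n₀ i) (eisWf N l' S k n₀ (i + 1))
        (fun g x hx => eisWf_smul_mem i g x hx) (fun g x hx => eisWf_smul_mem (i + 1) g x hx)
        (fun x hx => eisWf_nsmul_mem i x hx) σ τ j' ℓ
        (fun x hx => eisWf_frob hNS hl i hℓ hℓS A hA τ hF x hx)
        (fun w => eis_smul_eq_of_agree L hLfix (τ ^ j') σ hagree w) hc)
  exact ⟨C⟩

/-- DESC-EIS-1 for a prime level `N ∈ S`. -/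
theorem eisIdem_prime {l' : ℕ} (hl : l' ≠ 0) {S : Finset ℕ} (hN : N.Prime) (hNS : N ∈ S) :
    EisIdem N l' S :=
  eisIdem_of hl fun _ hr hrN => ((Nat.prime_dvd_prime_iff_eq hr hN).mp hrN) ▸ hNS

/-- DESC-EIS-2 for a prime level `N ∈ S`. -/
theorem eisChain_prime {l' : ℕ} [Fact l'.Prime] {S : Finset ℕ} (hN : N.Prime) (hNS : N ∈ S)
    (hl : l' ∈ S) : EisChain N l' S :=
  eisChain_of (fun _ hr hrN => ((Nat.prime_dvd_prime_iff_eq hr hN).mp hrN) ▸ hNS) hl

end Fermat.Agent.EDesc
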