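/-
Cluster E' (Mazur's descent), seat DESC-FL-ASM (helper77): the flat local condition at an ODD
Eisenstein prime `l'`,  `EisFlat N l' S`  (E/Desc/MainDefs.lean), from

* **FL-K** (`EisKumFlat`): the extension of `ℤ/l'^k` by `W_k` defined by a Kummer cocycle is a
  flat Galois module (sub-object of helper72/helper24's Kummer module `J[l'^k] × ℤ/l'^k`);
* **EXACT** (`FFL.exactProp`, proved for odd `l'`): inertia coinvariants are exact on flat modules;
* **PEU** (`FFL.peuFlat`, helper6): a flat extension of an étale module by `μ_{l'}` is peu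
  ramifiée;
* Hilbert 90 for `G_ℚ` and the value group of the inertia field (E/Desc/PCS.lean).

The local condition is  `KumFlatCond c :⟺ ∃ R, l'^k R rational ∧ c = (σ ↦ σ R - R)`.

The abstract lemmas of the first section are stated for any Galois module `W` and any prime `p`
(`2` included), for the use of the `l' = 2` variant.
-/
import Mathlib
import Fermat.Agent.E.Desc.MainDefs
import Fermat.Agent.E.Desc.PCSMain
import Fermat.Agent.Lib.FFL.Main
import Fermat.Agent.Lib.FFL.PeuFlat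
import Fermat.Agent.Lib.FlatMod.Closure

set_option autoImplicit false

noncomputable section

namespace Fermat.Agent.EDesc

open ModularCurve AlgebraicCurve Fermat.Agent.FlatMod Fermat.Agent.FFL

local notation "Qb" => AlgebraicClosure ℚ
local notation "GQb" => (AlgebraicClosure ℚ ≃ₐ[ℚ] AlgebraicClosure ℚ)

/-! ### the abstract part -/

section Abstract

variable {W : Type} [AddCommGroup W] [DistribMulAction GQb W]

/-- the twisted action on `W × ℤ/n` defined by the function `c`: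
`σ (t, m) = (σ t + m c(σ), m)`. -/
def twAct (n : ℕ) (c : GQb → W) (σ : GQb) (e : W × ZMod n) : W × ZMod n :=
  (σ • e.1 + e.2.val • c σ, e.2)

theorem twAct_apply (n : ℕ) (c : GQb → W) (σ : GQb) (t : W) (m : ZMod n) :
    twAct n c σ (t, m) = (σ • t + m.val • c σ, m) := rfl

theorem twAct_zero_snd (n : ℕ) (c : GQb → W) (σ : GQb) (t : W) :
    twAct n c σ (t, 0) = (σ • t, 0) := by
  rw [twAct_apply, ZMod.val_zero, zero_smul, add_zero]

theorem twAct_sub_self (n : ℕ) (c : GQb → W) (σ : GQb) (t : W) (m : ZMod n) :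
    twAct n c σ (t, m) - (t, m) = (σ • t - t + m.val • c σ, 0) := by
  rw [twAct_apply, Prod.mk_sub_mk, sub_self]
  congr 1
  abel

theorem twAct_one_sub (n : ℕ) (hn : (1 : ZMod n).val = 1) (c : GQb → W) (σ : GQb) :
    twAct n c σ (0, 1) - (0, 1) = (c σ, 0) := by
  rw [twAct_sub_self, hn, one_smul, smul_zero, sub_zero, zero_add]

/-- **(et)**: if the extension `W × ℤ/n` twisted by `c` is flat, `F₁ ≤ W` is Galois-stable and
inertia acts trivially on `F₁ / F₀`, then a value `c σ ∈ F₁`, `σ` in the inertia group, lies in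
`F₀`. -/
theorem et_unram_of_exact {p : ℕ} {P : ValuationSubring Qb} (hex : ExactProp p P) {n : ℕ}
    (hn : (1 : ZMod n).val = 1) (c : GQb → W)
    (hflat : IsFlatGaloisModule p (W × ZMod n) (twAct n c))
    (F₀ F₁ : AddSubgroup W) (hst : ∀ (σ : GQb) (w : W), w ∈ F₁ → σ • w ∈ F₁)
    (htriv : ∀ σ ∈ P.inertiaSubgroupIn ℚ, ∀ w ∈ F₁, σ • w - w ∈ F₀)
    {σ : GQb} (hσ : σ ∈ P.inertiaSubgroupIn ℚ) (hc : c σ ∈ F₁) : c σ ∈ F₀ := by
  have hstab : ∀ τ : GQb, ∀ x ∈ F₁.prod (⊥ : AddSubgroup (ZMod n)),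
      twAct n c τ x ∈ F₁.prod (⊥ : AddSubgroup (ZMod n)) := by
    rintro τ ⟨t, m⟩ hx
    obtain ⟨ht, hm⟩ := AddSubgroup.mem_prod.mp hx
    have hm0 : m = 0 := AddSubgroup.mem_bot.mp hm
    subst hm0
    rw [twAct_zero_snd]
    exact AddSubgroup.mem_prod.mpr ⟨hst τ t ht, AddSubgroup.mem_bot.mpr rfl⟩
  have h1 : ((c σ, 0) : W × ZMod n) ∈ F₁.prod (⊥ : AddSubgroup (ZMod n)) :=
    AddSubgroup.mem_prod.mpr ⟨hc, AddSubgroup.mem_bot.mpr rfl⟩
  have h2 : ((c σ, 0) : W × ZMod n) ∈ augI P (twAct n c) := by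
    rw [← twAct_one_sub n hn c σ]
    exact AddSubgroup.subset_closure ⟨σ, hσ, (0, 1), Set.mem_univ _, rfl⟩
  have h3 := hex (W × ZMod n) (twAct n c) hflat (F₁.prod ⊥) hstab _ h1 h2
  have h4 : augOn P (twAct n c) ((F₁.prod (⊥ : AddSubgroup (ZMod n)) : AddSubgroup _) :
      Set (W × ZMod n)) ≤ F₀.prod (⊥ : AddSubgroup (ZMod n)) := by
    unfold augOn
    rw [AddSubgroup.closure_le]
    rintro w ⟨τ, hτ, ⟨t, m⟩, hv, rfl⟩
    obtain ⟨ht, hm⟩ := AddSubgroup.mem_prod.mp hv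
    have hm0 : m = 0 := AddSubgroup.mem_bot.mp hm
    subst hm0
    rw [twAct_zero_snd, Prod.mk_sub_mk, sub_self]
    exact AddSubgroup.mem_prod.mpr ⟨htriv τ hτ t ht, AddSubgroup.mem_bot.mpr rfl⟩
  exact (AddSubgroup.mem_prod.mp (h4 h3)).1

/-- **(mu), on the inertia group**: if the extension `W × ℤ/n` twisted by `c` is flat, `c` has
values in the Galois-stable subgroup `F₁` and `ι : F₁ → μ_p` is multiplicative and equivariant
for the inertia group, then `ι ∘ c` is on the inertia group the Kummer cocycle of a unit. -/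
theorem mu_unit_inertia_of_peu {p : ℕ} [Fact p.Prime] {P : ValuationSubring Qb}
    (hpeu : PeuFlat p P) {n : ℕ} (hn : (1 : ZMod n).val = 1) (c : GQb → W)
    (hflat : IsFlatGaloisModule p (W × ZMod n) (twAct n c))
    (F₁ : AddSubgroup W) (hst : ∀ (σ : GQb) (w : W), w ∈ F₁ → σ • w ∈ F₁)
    (hc : ∀ σ, c σ ∈ F₁)
    (ι : W → Qb) (hmul : ∀ w ∈ F₁, ∀ w' ∈ F₁, ι (w + w') = ι w * ι w')
    (hpow : ∀ w ∈ F₁, ι w ^ p = 1)
    (hsmul : ∀ σ ∈ P.inertiaSubgroupIn ℚ, ∀ w ∈ F₁, ι (σ • w) = σ (ι w)) :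
    ∃ a : Qb, a ∈ P ∧ a⁻¹ ∈ P ∧ a ≠ 0 ∧
      ∀ σ ∈ P.inertiaSubgroupIn ℚ, σ a = ι (c σ) * a := by
  have hstab : ∀ τ : GQb, ∀ x ∈ F₁.prod (⊤ : AddSubgroup (ZMod n)),
      twAct n c τ x ∈ F₁.prod (⊤ : AddSubgroup (ZMod n)) := by
    rintro τ ⟨t, m⟩ hx
    obtain ⟨ht, -⟩ := AddSubgroup.mem_prod.mp hx
    rw [twAct_apply]
    exact AddSubgroup.mem_prod.mpr
      ⟨F₁.add_mem (hst τ t ht) (F₁.nsmul_mem (hc τ) _), AddSubgroup.mem_top _⟩
  have hsub := hflat.sub (F₁.prod ⊤) hstab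
  have hmem : ((0, 1) : W × ZMod n) ∈ F₁.prod (⊤ : AddSubgroup (ZMod n)) :=
    AddSubgroup.mem_prod.mpr ⟨F₁.zero_mem, AddSubgroup.mem_top _⟩
  obtain ⟨a, ha, ha', ha0, h⟩ : ∃ a : Qb, a ∈ P ∧ a⁻¹ ∈ P ∧ a ≠ 0 ∧
      ∀ σ ∈ P.inertiaSubgroupIn ℚ, σ a =
        ι (((⟨twAct n c σ (0, 1), hstab σ _ hmem⟩ : ↥(F₁.prod (⊤ : AddSubgroup (ZMod n)))) -
          ⟨(0, 1), hmem⟩ : ↥(F₁.prod (⊤ : AddSubgroup (ZMod n)))) : W × ZMod n).1 * a := by
    refine hpeu _ _ hsub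
      (((⊤ : AddSubgroup W).prod (⊥ : AddSubgroup (ZMod n))).addSubgroupOf (F₁.prod ⊤))
      (fun x => ι x.1.1) ?_ ?_ ?_ ?_ ⟨(0, 1), hmem⟩
    · rintro σ - ⟨⟨t, m⟩, hx⟩
      rw [AddSubgroup.mem_addSubgroupOf]
      have h6 : (((⟨twAct n c σ (t, m), hstab σ _ hx⟩ :
          ↥(F₁.prod (⊤ : AddSubgroup (ZMod n)))) -
          ⟨(t, m), hx⟩ : ↥(F₁.prod (⊤ : AddSubgroup (ZMod n)))) : W × ZMod n) =
          (σ • t - t + m.val • c σ, 0) := by
        rw [AddSubgroup.coe_sub]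
        exact twAct_sub_self n c σ t m
      show ((_ : ↥(F₁.prod (⊤ : AddSubgroup (ZMod n)))) : W × ZMod n) ∈ _
      rw [h6]
      exact AddSubgroup.mem_prod.mpr ⟨AddSubgroup.mem_top _, AddSubgroup.mem_bot.mpr rfl⟩
    · rintro ⟨⟨t, m⟩, hx⟩ - ⟨⟨t', m'⟩, hy⟩ -
      exact hmul t (AddSubgroup.mem_prod.mp hx).1 t' (AddSubgroup.mem_prod.mp hy).1
    · rintro ⟨⟨t, m⟩, hx⟩ -
      exact hpow t (AddSubgroup.mem_prod.mp hx).1
    · rintro σ hσ ⟨⟨t, m⟩, hx⟩ hxN
      have hm : m = 0 :=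
        AddSubgroup.mem_bot.mp
          (AddSubgroup.mem_prod.mp (AddSubgroup.mem_addSubgroupOf.mp hxN)).2
      subst hm
      show ι (twAct n c σ (t, 0)).1 = σ (ι t)
      rw [twAct_zero_snd]
      exact hsmul σ hσ t (AddSubgroup.mem_prod.mp hx).1
  refine ⟨a, ha, ha', ha0, fun σ hσ => ?_⟩
  have h5 := h σ hσ
  have h6 : (((⟨twAct n c σ (0, 1), hstab σ _ hmem⟩ : ↥(F₁.prod (⊤ : AddSubgroup (ZMod n)))) -
      ⟨(0, 1), hmem⟩ : ↥(F₁.prod (⊤ : AddSubgroup (ZMod n)))) : W × ZMod n) = (c σ, 0) := by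
    rw [AddSubgroup.coe_sub]
    exact twAct_one_sub n hn c σ
  rw [h6] at h5
  exact h5

/-- **from the inertia group to `G_ℚ`**: a continuous cocycle `κ : G_ℚ → ℚ̄ˣ` which on the
inertia group at `Al` is the Kummer cocycle of a unit is the Kummer cocycle of a unit
(Hilbert 90 + the value group of the inertia field is that of `ℚ`). -/
theorem unit_of_inertia_unit {l' : ℕ} (hl : l'.Prime) (Al : ValuationSubring Qb)
    (hAl : Al.LiesOverPrime l') (κ : GQb → Qb) (hne : ∀ σ, κ σ ≠ 0)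
    (hcoc : ∀ σ τ, κ (σ * τ) = κ σ * σ (κ τ))
    (hcts : ∃ E : IntermediateField ℚ Qb, FiniteDimensional ℚ E ∧
      ∀ σ τ, τ ∈ E.fixingSubgroup → κ (σ * τ) = κ σ)
    (hI : ∃ a : Qb, a ∈ Al ∧ a⁻¹ ∈ Al ∧ a ≠ 0 ∧
      ∀ σ ∈ Al.inertiaSubgroupIn ℚ, σ a = κ σ * a) :
    ∃ a : Qb, a ∈ Al ∧ a⁻¹ ∈ Al ∧ a ≠ 0 ∧ ∀ σ : GQb, κ σ * a = σ a := by
  obtain ⟨a, ha, ha', ha0, hIa⟩ := hI
  obtain ⟨b, hb0, hb⟩ := pcs_hilbert90 κ hcoc hne hcts
  have hfix : ∀ σ ∈ Al.inertiaSubgroupIn ℚ, σ (b / a) = b / a := by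
    intro σ hσ
    rw [map_div₀, ← hb σ, hIa σ hσ, mul_div_mul_left _ _ (hne σ)]
  obtain ⟨j, hj⟩ := pcs_val_fixed Al hl hAl (pcsUnr_holds l' Al hl hAl) (b / a)
    (div_ne_zero hb0 ha0) hfix
  have hva : Al.valuation a = 1 := by
    have h1 : Al.valuation a ≤ 1 := (Al.valuation_le_one_iff a).mpr ha
    have h2 : Al.valuation a⁻¹ ≤ 1 := (Al.valuation_le_one_iff _).mpr ha'
    rw [map_inv₀] at h2
    have h3 : Al.valuation a ≠ 0 := (Valuation.ne_zero_iff _).mpr ha0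
    exact le_antisymm h1 ((inv_le_one₀ (zero_lt_iff.mpr h3)).mp h2)
  have hvb : Al.valuation b = Al.valuation (l' : Qb) ^ j := by
    rw [← hj, map_div₀, hva, div_one]
  have hl0 : (l' : Qb) ≠ 0 := by exact_mod_cast hl.ne_zero
  have hv1 : Al.valuation (b / (l' : Qb) ^ j) = 1 := by
    rw [map_div₀, map_zpow₀, hvb]
    exact div_self (zpow_ne_zero j ((Valuation.ne_zero_iff _).mpr hl0))
  refine ⟨b / (l' : Qb) ^ j, ?_, ?_, div_ne_zero hb0 (zpow_ne_zero j hl0), fun σ => ?_⟩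
  · exact (Al.valuation_le_one_iff _).mp hv1.le
  · refine (Al.valuation_le_one_iff _).mp ?_
    rw [map_inv₀, hv1, inv_one]
  · rw [map_div₀, map_zpow₀, map_natCast, ← hb σ, mul_div_assoc]

end Abstract

/-! ### the flat condition on `W_k` -/

section Eis

variable (N : ℕ) [NeZero N]

/-- the local condition: `c` is the Kummer cocycle of a point `R` with `l'^k R` rational. -/
def KumFlatCond (l' : ℕ) (S : Finset ℕ) (k : ℕ) (c : GQb → EisW N l' S k) : Prop :=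
  ∃ R : JZero N, RatPt (l' ^ k • R) ∧ ∀ σ, ((c σ : EisW N l' S k) : JZero N) = kum R σ

/-- **FL-K**, in the form consumed here: the extension of `ℤ/l'^k` by `W_k` defined by a Kummer
cocycle with values in `W_k` is a flat Galois module at `l'`. -/
def EisKumFlat (l' : ℕ) (S : Finset ℕ) : Prop :=
  ∀ (k : ℕ) (R : JZero N) (c : GQb → EisW N l' S k), RatPt (l' ^ k • R) →
    (∀ σ, ((c σ : EisW N l' S k) : JZero N) = kum R σ) →
    IsFlatGaloisModule l' (EisW N l' S k × ZMod (l' ^ k)) (twAct (l' ^ k) c)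

variable {N}

theorem eisW_ext {l' : ℕ} {S : Finset ℕ} {k : ℕ} {w w' : EisW N l' S k}
    (h : (w : JZero N) = w') : w = w' := Subtype.ext h

theorem eisW_eq_zero_of_zero {l' : ℕ} {S : Finset ℕ} (w : EisW N l' S 0) : w = 0 := by
  apply Subtype.ext
  have h := w.2.1
  rw [pow_zero, one_smul] at h
  exact h

theorem val_one_pow {l' : ℕ} (hl : l'.Prime) {k : ℕ} (hk : k ≠ 0) :
    (1 : ZMod (l' ^ k)).val = 1 := by
  have h : 1 < l' ^ k := Nat.one_lt_pow hk hl.one_lt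
  have : Fact (1 < l' ^ k) := ⟨h⟩
  exact ZMod.val_one (l' ^ k)

theorem kumFlatCond_add {l' : ℕ} {S : Finset ℕ} {k : ℕ} {c c' : GQb → EisW N l' S k}
    (h : KumFlatCond N l' S k c) (h' : KumFlatCond N l' S k c') :
    KumFlatCond N l' S k (c + c') := by
  obtain ⟨R, hR, hc⟩ := h
  obtain ⟨R', hR', hc'⟩ := h'
  refine ⟨R + R', ?_, fun σ => ?_⟩
  · rw [nsmul_add]
    exact hR.add hR'
  · rw [kum_add, ← hc, ← hc']
    rfl

theorem kumFlatCond_neg {l' : ℕ} {S : Finset ℕ} {k : ℕ} {c : GQb → EisW N l' S k}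
    (h : KumFlatCond N l' S k c) : KumFlatCond N l' S k (-c) := by
  obtain ⟨R, hR, hc⟩ := h
  refine ⟨-R, ?_, fun σ => ?_⟩
  · rw [neg_nsmul]
    exact hR.neg
  · rw [kum_neg, ← hc]
    rfl

theorem kumFlatCond_cob {l' : ℕ} {S : Finset ℕ} {k : ℕ} (w : EisW N l' S k) :
    KumFlatCond N l' S k (fun σ => σ • w - w) := by
  refine ⟨(w : JZero N), ?_, fun σ => ?_⟩
  · rw [w.2.1]
    exact ratPt_zero
  · rfl

/-- a flat cocycle is continuous. -/
theorem kumFlatCond_cts {l' : ℕ} {S : Finset ℕ} {k : ℕ} {c : GQb → EisW N l' S k}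
    (h : KumFlatCond N l' S k c) : IsCtsCoc c := by
  obtain ⟨R, -, hc⟩ := h
  exact isCtsCoc_of_emb (eisEmb N l' S k) hc (kum_isCtsCoc R)

end Eis

/-- the coordinate of a `mu`-piece is a homomorphism to `μ_{l'}`. -/
theorem typedChain_ι_zero {W : Type*} [AddCommGroup W] [DistribMulAction GQb W] {l' : ℕ}
    (C : TypedChain W l') {i : ℕ} (hi : i < C.L) (hnet : ¬ C.et i) : C.ι i 0 = 1 :=
  (C.ι_one_iff i hi hnet 0 (zero_mem _)).mpr (zero_mem _)

theorem typedChain_ι_nsmul {W : Type*} [AddCommGroup W] [DistribMulAction GQb W] {l' : ℕ}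
    (C : TypedChain W l') {i : ℕ} (hi : i < C.L) (hnet : ¬ C.et i) {w : W}
    (hw : w ∈ C.F (i + 1)) (m : ℕ) : C.ι i (m • w) = C.ι i w ^ m := by
  induction m with
  | zero => rw [zero_smul, pow_zero, typedChain_ι_zero C hi hnet]
  | succ m ih =>
    rw [succ_nsmul, C.ι_mul i hi hnet _ _ ((C.F (i + 1)).nsmul_mem hw m) hw, ih, pow_succ]

theorem typedChain_nsmul_mem {W : Type*} [AddCommGroup W] [DistribMulAction GQb W] {l' : ℕ}
    (C : TypedChain W l') {i : ℕ} (hi : i < C.L) {w : W} (hw : w ∈ C.F (i + 1)) :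
    l' • w ∈ C.F i := by
  have h1 := C.index i hi
  have h2 := AddSubgroup.nsmul_index_mem ((C.F i).addSubgroupOf (C.F (i + 1))) ⟨w, hw⟩
  rw [AddSubgroup.relIndex] at h1
  rw [h1, AddSubgroup.mem_addSubgroupOf] at h2
  exact h2

theorem typedChain_ι_pow {W : Type*} [AddCommGroup W] [DistribMulAction GQb W] {l' : ℕ}
    (C : TypedChain W l') {i : ℕ} (hi : i < C.L) (hnet : ¬ C.et i) {w : W}
    (hw : w ∈ C.F (i + 1)) : C.ι i w ^ l' = 1 := by
  rw [← typedChain_ι_nsmul C hi hnet hw]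
  exact (C.ι_one_iff i hi hnet _ ((C.F (i + 1)).nsmul_mem hw l')).mpr
    (typedChain_nsmul_mem C hi hw)

/-- the coordinate of a cocycle with values in a `mu`-piece is a cocycle with values in
`μ_{l'}`. -/
theorem typedChain_ι_coc {W : Type*} [AddCommGroup W] [DistribMulAction GQb W] {l' : ℕ}
    (C : TypedChain W l') {i : ℕ} (hi : i < C.L) (hnet : ¬ C.et i) {c : GQb → W}
    (hcoc : IsCoc c) (hval : ∀ σ, c σ ∈ C.F (i + 1)) (σ τ : GQb) :
    C.ι i (c (σ * τ)) = C.ι i (c σ) * σ (C.ι i (c τ)) := by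
  rw [hcoc σ τ, C.ι_mul i hi hnet _ _ (hval σ) (C.stable (i + 1) σ _ (hval τ)),
    C.ι_smul i hi hnet σ _ (hval τ)]

section Eis2

variable {N : ℕ} [NeZero N]

/-- **DESC-FL at one place**: the Kummer condition is a flat condition for every typed chain of
`W_k`, given EXACT and PEU at the place `Al` and FL-K. -/
theorem eisFlatAt_of {l' : ℕ} (hl : l'.Prime) {S : Finset ℕ} (k : ℕ)
    (C : TypedChain (EisW N l' S k) l') (Al : ValuationSubring Qb) (hAl : Al.LiesOverPrime l')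
    (hex : ExactProp l' Al) (hpeu : PeuFlat l' Al) (hK : EisKumFlat N l' S) :
    EisFlatAt N l' S k C Al := by
  have : Fact l'.Prime := ⟨hl⟩
  refine ⟨KumFlatCond N l' S k,
    ⟨fun c c' => kumFlatCond_add, fun c => kumFlatCond_neg, kumFlatCond_cob, ?_, ?_⟩,
    fun R c hR hc => ⟨R, hR, hc⟩⟩
  · -- `et_unram`
    intro i hi het c _ hfl hval σ hσ
    by_cases hk : k = 0
    · subst hk
      rw [eisW_eq_zero_of_zero (c σ)]
      exact (C.F i).zero_mem
    · obtain ⟨R, hR, hc⟩ := hfl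
      exact et_unram_of_exact hex (val_one_pow hl hk) c (hK k R c hR hc) (C.F i) (C.F (i + 1))
        (C.stable (i + 1)) (fun τ _ w hw => C.et_triv i hi het τ w hw) hσ (hval σ)
  · -- `mu_unit`
    intro i hi hnet c hcoc hfl hval
    by_cases hk : k = 0
    · subst hk
      refine ⟨1, Al.one_mem, by rw [inv_one]; exact Al.one_mem, one_ne_zero, fun σ _ => ?_⟩
      rw [eisW_eq_zero_of_zero (c σ), typedChain_ι_zero C hi hnet, map_one, mul_one]
    · have hcts := kumFlatCond_cts hfl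
      obtain ⟨R, hR, hc⟩ := hfl
      have hI := mu_unit_inertia_of_peu hpeu (val_one_pow hl hk) c (hK k R c hR hc)
        (C.F (i + 1)) (C.stable (i + 1)) hval (C.ι i)
        (fun w hw w' hw' => C.ι_mul i hi hnet w w' hw hw')
        (fun w hw => typedChain_ι_pow C hi hnet hw)
        (fun σ _ w hw => C.ι_smul i hi hnet σ w hw)
      obtain ⟨a, ha, ha', ha0, h⟩ := unit_of_inertia_unit hl Al hAl (fun σ => C.ι i (c σ))
        (fun σ h0 => by
          have h1 := typedChain_ι_pow C hi hnet (hval σ)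
          rw [h0, zero_pow hl.ne_zero] at h1
          exact zero_ne_one h1)
        (typedChain_ι_coc C hi hnet hcoc hval)
        (by
          obtain ⟨E, hE, hE'⟩ := hcts
          exact ⟨E, hE, fun σ τ hτ => by rw [hE' σ τ hτ]⟩)
        hI
      exact ⟨a, ha, ha', ha0, fun σ _ => h σ⟩

/-- **DESC-FL at one place**, with EXACT (odd `l'`) and PEU discharged. -/
theorem eisFlatAt_of_kum {l' : ℕ} (hl : l'.Prime) (hodd : l' ≠ 2) {S : Finset ℕ} (k : ℕ)
    (C : TypedChain (EisW N l' S k) l') (Al : ValuationSubring Qb) (hAl : Al.LiesOverPrime l')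
    (hK : EisKumFlat N l' S) : EisFlatAt N l' S k C Al :=
  eisFlatAt_of hl k C Al hAl (exactProp hl hodd Al hAl) (peuFlat hl hAl) hK

/-- **DESC-FL-ASM (odd `l'`)**: the flat local condition exists for every typed chain of `W_k`
at every place over `l'`, from FL-K. -/
theorem eisFlat {l' : ℕ} (hl : l'.Prime) (hodd : l' ≠ 2) {S : Finset ℕ}
    (hK : EisKumFlat N l' S) : EisFlat N l' S :=
  fun k C Al hAl => eisFlatAt_of_kum hl hodd k C Al hAl hK

end Eis2

end Fermat.Agent.EDesc
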