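/-
Cluster E' (Mazur's descent), seat DESC-FL-ASM (helper77), wiring with FL-K (helper72,
Lib/FF/Kum/KumFinal.lean): the flat local condition at an odd Eisenstein prime `l' ∤ N`,
`eisFlat_odd : EisFlat N l' S`, without hypotheses.
-/
import Fermat.Agent.E.Desc.FlatAsm
import Fermat.Agent.Lib.FF.Kum.KumFinal

set_option autoImplicit false

noncomputable section

namespace Fermat.Agent.EDesc

open ModularCurve AlgebraicCurve Fermat.Agent.FlatMod Fermat.Agent.FFL

local notation "Qb" => AlgebraicClosure ℚ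
local notation "GQb" => (AlgebraicClosure ℚ ≃ₐ[ℚ] AlgebraicClosure ℚ)

variable {N : ℕ} [NeZero N]

/-- FL-K in the form of `FlatAsm.lean` from FL-K at the level `N`. -/
theorem eisKumFlat_of_flatKummerAt {l' : ℕ} (hl : l'.Prime) (S : Finset ℕ)
    (h : ∀ k : ℕ, Fermat.Agent.FFKum.FlatKummerAt N l' k) : EisKumFlat N l' S := by
  intro k R c hR hc
  have : Fact l'.Prime := ⟨hl⟩
  exact Fermat.Agent.FFKum.isFlat_extAct_of_flatKummerAt (h k) (fun σ w => σ • w)
    (eisTors N l' S k).subtype Subtype.coe_injective (fun _ _ => rfl) (fun w => w.2.1) R hR c hc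

/-- **FL-K** for the Eisenstein part `W_k` of `J₀(N)[l'^k]`, `l' ∤ N`. -/
theorem eisKumFlat {l' : ℕ} (hl : l'.Prime) (hlN : ¬ l' ∣ N) (S : Finset ℕ) :
    EisKumFlat N l' S :=
  have : Fact l'.Prime := ⟨hl⟩
  eisKumFlat_of_flatKummerAt hl S fun k => Fermat.Agent.FFKum.flatKummerAt N l' k hlN

/-- **the flat condition at one place over `l'`**, for EVERY prime `l' ∤ N`, given EXACT at the
place (automatic for odd `l'`). -/
theorem eisFlatAt_of_exact {l' : ℕ} (hl : l'.Prime) (hlN : ¬ l' ∣ N) {S : Finset ℕ} (k : ℕ)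
    (C : TypedChain (EisW N l' S k) l') (Al : ValuationSubring Qb) (hAl : Al.LiesOverPrime l')
    (hex : ExactProp l' Al) : EisFlatAt N l' S k C Al :=
  eisFlatAt_of hl k C Al hAl hex (peuFlat hl hAl) (eisKumFlat hl hlN S)

/-- **DESC-FL (odd `l'`)**: `EisFlat N l' S` for every odd prime `l' ∤ N`. -/
theorem eisFlat_odd {l' : ℕ} (hl : l'.Prime) (hodd : l' ≠ 2) (hlN : ¬ l' ∣ N) (S : Finset ℕ) :
    EisFlat N l' S :=
  eisFlat hl hodd (eisKumFlat hl hlN S)

end Fermat.Agent.EDesc
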