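/-
Cluster E' (Mazur's descent), `l' = 2`, REAL route (helper77, for helper47's FlatAsm2):
the Kummer half of `et_unram`.

`fk2_sign_unram` : a sign function `κ : G_ℚ → {±1}` which is the Kummer cocycle of a unit `a` at
a place `Al ∣ 2` (`κ σ · a = σ a`), is trivial on an inertia group at every prime `r ∉ {2, p}`
and at the complex conjugation, is trivial on the inertia group of `Al`, provided `p ≡ 1 mod 4`:
`a² = p^e b²` with `b ∈ ℚ`, `e ∈ {0, 1}`, and `(1 + √p) / 2` is integral with unit conjugate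
difference `√p`.
-/
import Mathlib
import Fermat.Agent.E.Desc.PCSMain
import Fermat.Agent.Lib.Cyclo.RootsReduce
import Fermat.Prelude.Def_GaloisRep_ComplexConjugation

set_option autoImplicit false

noncomputable section

namespace Fermat.Agent.EDesc

local notation "Qb" => AlgebraicClosure ℚ
local notation "GQb" => (AlgebraicClosure ℚ ≃ₐ[ℚ] AlgebraicClosure ℚ)

/-- a nonzero element of `ℚ̄` fixed by the complex conjugation, with rational square, has a
positive square. -/
theorem fk2_sq_pos {a : Qb} {q : ℚ} (hq : (q : Qb) = a ^ 2) (ha0 : a ≠ 0)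
    (hreal : complexConjugation a = a) : 0 < q := by
  have h1 := complexEmbedding_complexConjugation a
  rw [hreal] at h1
  obtain ⟨r, hr⟩ := Complex.conj_eq_iff_real.mp h1.symm
  have hq2 : (q : ℂ) = (r : ℂ) ^ 2 := by
    have h2 := congrArg complexEmbedding hq
    rw [map_ratCast, map_pow, hr] at h2
    exact h2
  have hr0 : r ≠ 0 := by
    intro h
    rw [h, Complex.ofReal_zero] at hr
    exact ha0 ((map_eq_zero complexEmbedding).mp hr)
  have hq3 : (q : ℝ) = r ^ 2 := by
    apply Complex.ofReal_injective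
    push_cast
    exact hq2
  have hq4 : (0 : ℝ) < q := by
    rw [hq3]
    positivity
  exact_mod_cast hq4

/-- `x² = x + c` with `c` an integer forces `x` to be integral at every place. -/
theorem fk2_mem_of_quadratic (A : ValuationSubring Qb) {x : Qb} (c : ℤ)
    (h : x ^ 2 = x + (c : Qb)) : x ∈ A := by
  rw [← A.valuation_le_one_iff]
  by_contra hlt
  rw [not_le] at hlt
  have hpos : 0 < A.valuation x := lt_trans zero_lt_one hlt
  have h1 : A.valuation (x ^ 2) ≤ A.valuation x := by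
    rw [h]
    refine le_trans (A.valuation.map_add _ _) (max_le le_rfl ?_)
    exact le_trans (pcs_val_int_le_one A c) hlt.le
  rw [map_pow, sq] at h1
  have h2 : A.valuation x * 1 < A.valuation x * A.valuation x :=
    mul_lt_mul_of_pos_left hlt hpos
  rw [mul_one] at h2
  exact lt_irrefl _ (lt_of_lt_of_le h2 h1)

/-- the `p`-adic valuation of a prime `r ≠ p`. -/
theorem fk2_padicValRat_prime {r p : ℕ} (hr : r.Prime) (hp : p.Prime) (hrp : r ≠ p) :
    padicValRat r (p : ℚ) = 0 := by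
  have : Fact r.Prime := ⟨hr⟩
  rw [padicValRat.of_nat]
  have h : ¬ r ∣ p := fun h => hrp ((Nat.prime_dvd_prime_iff_eq hr hp).mp h)
  exact_mod_cast padicValNat.eq_zero_of_not_dvd h

/-- **Kummer theory at `2`.** -/
theorem fk2_sign_unram (p : ℕ) (hp : p.Prime) (hp4 : p % 4 = 1)
    (κ : GQb → Qb) (hκ : ∀ σ, κ σ ^ 2 = 1)
    (hunr : ∀ r : ℕ, r.Prime → r ≠ 2 → r ≠ p → ∃ A : ValuationSubring Qb,
      A.LiesOverPrime r ∧ ∀ σ ∈ A.inertiaSubgroupIn ℚ, κ σ = 1)
    (hreal : κ complexConjugation = 1)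
    (Al : ValuationSubring Qb) (hAl : Al.LiesOverPrime 2)
    (hunit : ∃ a : Qb, a ∈ Al ∧ a⁻¹ ∈ Al ∧ a ≠ 0 ∧ ∀ σ : GQb, κ σ * a = σ a) :
    ∀ σ ∈ Al.inertiaSubgroupIn ℚ, κ σ = 1 := by
  obtain ⟨a, ha, ha', ha0, hκa⟩ := hunit
  have hp2 : p ≠ 2 := by
    rintro rfl
    norm_num at hp4
  have hfix : ∀ σ : GQb, σ (a ^ 2) = a ^ 2 := fun σ => by
    rw [map_pow, ← hκa σ, mul_pow, hκ σ, one_mul]
  obtain ⟨q, hq⟩ := pcs_rational_of_fixed (a ^ 2) hfix
  have hq0 : q ≠ 0 := by
    intro h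
    rw [h, Rat.cast_zero] at hq
    exact pow_ne_zero 2 ha0 hq.symm
  have hqpos : 0 < q := fk2_sq_pos hq ha0 (by rw [← hκa, hreal, one_mul])
  have hva : Al.valuation a = 1 := by
    have h1 : Al.valuation a ≤ 1 := (Al.valuation_le_one_iff _).mpr ha
    have h2 : Al.valuation a⁻¹ ≤ 1 := (Al.valuation_le_one_iff _).mpr ha'
    rw [map_inv₀] at h2
    have h3 : Al.valuation a ≠ 0 := (Valuation.ne_zero_iff _).mpr ha0
    exact le_antisymm h1 ((inv_le_one₀ (zero_lt_iff.mpr h3)).mp h2)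
  -- the valuations of `q` outside `p` are even
  have key : ∀ (r : ℕ) (hr : r.Prime) (A : ValuationSubring Qb), A.LiesOverPrime r →
      (∃ n : ℤ, A.valuation a = A.valuation (r : Qb) ^ n) → (2 : ℤ) ∣ padicValRat r q := by
    intro r hr A hA ⟨n, hn⟩
    have h1 := pcs_val_rat A hr hA q hq0
    rw [hq, map_pow, hn, ← zpow_natCast, ← zpow_mul] at h1
    have h2 := pcs_zpow_inj A hr hA h1
    exact ⟨n, by rw [← h2, mul_comm]; rfl⟩
  have hdiv : ∀ r : ℕ, r.Prime → r ≠ p → (2 : ℤ) ∣ padicValRat r q := by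
    intro r hr hrp
    by_cases hr2 : r = 2
    · subst hr2
      exact key 2 hr Al hAl ⟨0, by rw [hva, zpow_zero]⟩
    · obtain ⟨A, hA, hκA⟩ := hunr r hr hr2 hrp
      exact key r hr A hA (pcs_val_fixed A hr hA (pcsUnr_holds r A hr hA) a ha0
        (fun σ hσ => by rw [← hκa σ, hκA σ hσ, one_mul]))
  -- `q = p ^ e * b ^ 2`, `e ≤ 1`
  obtain ⟨e, he, hm⟩ : ∃ e : ℕ, e ≤ 1 ∧ (2 : ℤ) ∣ padicValRat p q - e := by
    rcases Int.emod_two_eq_zero_or_one (padicValRat p q) with h | h
    · exact ⟨0, by omega, by rw [Nat.cast_zero, sub_zero]; exact Int.dvd_of_emod_eq_zero h⟩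
    · refine ⟨1, le_rfl, ?_⟩
      rw [Nat.cast_one]
      omega
  have hpQ : (p : ℚ) ≠ 0 := by exact_mod_cast hp.ne_zero
  have hq₁0 : q / (p : ℚ) ^ e ≠ 0 := div_ne_zero hq0 (pow_ne_zero _ hpQ)
  have hq₁ : ∀ r : ℕ, r.Prime → ((2 : ℕ) : ℤ) ∣ padicValRat r (q / (p : ℚ) ^ e) := by
    intro r hr
    have : Fact r.Prime := ⟨hr⟩
    rw [padicValRat.div hq0 (pow_ne_zero _ hpQ), padicValRat.pow]
    by_cases hrp : r = p
    · subst hrp
      rw [padicValRat.self hr.one_lt, mul_one]
      exact_mod_cast hm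
    · rw [fk2_padicValRat_prime hr hp hrp, mul_zero, sub_zero]
      exact_mod_cast hdiv r hr hrp
  obtain ⟨b, hb0, hb⟩ := pcs_rat_eq_pow 2 (q / (p : ℚ) ^ e) hq₁0 hq₁
  have hq₁pos : 0 < q / (p : ℚ) ^ e := div_pos hqpos (pow_pos (by exact_mod_cast hp.pos) _)
  have hb2 : q / (p : ℚ) ^ e = b ^ 2 := by
    rcases hb with h | h
    · exact h
    · exfalso
      have h1 : (0 : ℚ) < b ^ 2 := by positivity
      rw [h] at hq₁pos
      linarith
  have hbQ : (b : Qb) ≠ 0 := by exact_mod_cast hb0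
  have hpQb : (p : Qb) ≠ 0 := by exact_mod_cast hp.ne_zero
  -- `s = a / b` is a square root of `p ^ e`
  have hs2 : (a / (b : Qb)) ^ 2 = (p : Qb) ^ e := by
    have h1 : q = (p : ℚ) ^ e * b ^ 2 := by
      rw [← hb2]
      field_simp
    rw [div_pow, ← hq, h1]
    push_cast
    field_simp
  have hs0 : a / (b : Qb) ≠ 0 := div_ne_zero ha0 hbQ
  have hσs : ∀ σ : GQb, σ (a / (b : Qb)) = κ σ * (a / (b : Qb)) := fun σ => by
    rw [map_div₀, map_ratCast, ← hκa σ, mul_div_assoc]
  intro σ hσ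
  rcases sq_eq_one_iff.mp (hκ σ) with h | h
  · exact h
  · exfalso
    have hσs' : σ (a / (b : Qb)) = -(a / (b : Qb)) := by rw [hσs σ, h, neg_one_mul]
    have he' : e = 0 ∨ e = 1 := by omega
    rcases he' with he0 | he1
    · -- `s = ± 1` is rational
      rw [he0, pow_zero] at hs2
      rcases sq_eq_one_iff.mp hs2 with h1 | h1
      · rw [h1, map_one] at hσs'
        have : (2 : Qb) = 0 := by linear_combination hσs'
        exact two_ne_zero this
      · rw [h1, map_neg, map_one, neg_neg] at hσs'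
        have : (2 : Qb) = 0 := by linear_combination -hσs'
        exact two_ne_zero this
    · -- `s ^ 2 = p`
      rw [he1, pow_one] at hs2
      obtain ⟨c, hc⟩ : ∃ c : ℕ, p = 4 * c + 1 := ⟨p / 4, by omega⟩
      have hx : ((1 + a / (b : Qb)) / 2) ^ 2 = (1 + a / (b : Qb)) / 2 + ((c : ℤ) : Qb) := by
        have h4 : (p : Qb) = 4 * (c : Qb) + 1 := by
          rw [hc]
          push_cast
          ring
        rw [h4] at hs2
        push_cast
        linear_combination hs2 / 4
      have hxA : (1 + a / (b : Qb)) / 2 ∈ Al := fk2_mem_of_quadratic Al c hx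
      have h5 := Fermat.Agent.Cyclo.inertia_sub_mem_nonunits Al hσ hxA
      have h6 : σ ((1 + a / (b : Qb)) / 2) - (1 + a / (b : Qb)) / 2 = -(a / (b : Qb)) := by
        rw [map_div₀, map_add, map_one, hσs', map_ofNat]
        ring
      rw [h6] at h5
      have h7 : Al.valuation (a / (b : Qb)) < 1 := by
        have := (ValuationSubring.mem_nonunits_iff Al).mp h5
        rwa [Valuation.map_neg] at this
      have h8 : Al.valuation ((p : ℤ) : Qb) = 1 := by
        refine pcs_val_int_eq_one Al Nat.prime_two hAl p ?_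
        intro hd
        have hd' : 2 ∣ p := by exact_mod_cast hd
        exact hp2 ((Nat.prime_dvd_prime_iff_eq Nat.prime_two hp).mp hd').symm
      have h9 : Al.valuation (a / (b : Qb)) ^ 2 = 1 := by
        rw [← map_pow, hs2]
        exact_mod_cast h8
      have h10 : Al.valuation (a / (b : Qb)) ^ 2 < 1 := pow_lt_one₀ zero_le h7 two_ne_zero
      rw [h9] at h10
      exact lt_irrefl _ h10

end Fermat.Agent.EDesc
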