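/-
Cluster E' (S15), helper39: RE-TYPING a chain at `l' = 2`.

At `l' = 2` the Galois modules `ℤ/2` and `μ₂` coincide, so a `G_ℚ`-stable chain with steps of
index `2` is a `TypedChain` for ANY choice of the types `et`:
`typedChain_two_of_chain`, and `TypedChain.exists_retype_two` (same `L`, `F`, prescribed `et`).
The coordinate of every piece is `ι i w = 1` if `w ∈ F i`, `-1` otherwise.
-/
import Fermat.Agent.E.Desc.Defs

set_option autoImplicit false

noncomputable section

namespace Fermat.Agent.EDesc

local notation "Qb" => AlgebraicClosure ℚ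
local notation "GQb" => (AlgebraicClosure ℚ ≃ₐ[ℚ] AlgebraicClosure ℚ)

section Two

variable {W : Type*} [AddCommGroup W]

/-- in a step of index `2`: `w + w' ∈ F ↔ (w ∈ F ↔ w' ∈ F)`. -/
theorem retype_add_mem_iff {F F' : AddSubgroup W} (h : F.relIndex F' = 2) {w w' : W}
    (hw : w ∈ F') (hw' : w' ∈ F') : w + w' ∈ F ↔ (w ∈ F ↔ w' ∈ F) := by
  have h2 : (F.addSubgroupOf F').index = 2 := h
  have := AddSubgroup.add_mem_iff_of_index_two h2 (a := (⟨w, hw⟩ : F')) (b := ⟨w', hw'⟩)
  simpa [AddSubgroup.mem_addSubgroupOf] using this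

/-- the coordinate `±1` of a step of index `2`. -/
def retypeSign (F : AddSubgroup W) (w : W) : Qb := open Classical in if w ∈ F then 1 else -1

theorem retypeSign_eq_one_iff (F : AddSubgroup W) (w : W) : retypeSign F w = 1 ↔ w ∈ F := by
  classical
  unfold retypeSign
  by_cases h : w ∈ F
  · simp [h]
  · simp only [h, if_false, iff_false]
    intro h1
    have h2 : (2 : Qb) = 0 := by linear_combination -h1
    exact two_ne_zero h2

theorem retypeSign_map (F : AddSubgroup W) (w : W) (σ : GQb) :
    σ (retypeSign F w) = retypeSign F w := by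
  classical
  unfold retypeSign
  by_cases h : w ∈ F
  · simp [h]
  · simp [h]

variable [DistribMulAction GQb W]

/-- **a chain with steps of index `2` is a typed chain for any choice of the types.** -/
theorem typedChain_two_of_chain (L : ℕ) (F : ℕ → AddSubgroup W) (F_zero : F 0 = ⊥)
    (F_top : F L = ⊤) (mono : ∀ i, F i ≤ F (i + 1))
    (stable : ∀ i (σ : GQb) (w : W), w ∈ F i → σ • w ∈ F i)
    (index : ∀ i, i < L → (F i).relIndex (F (i + 1)) = 2) (et : ℕ → Prop) :
    ∃ C : TypedChain W 2, C.L = L ∧ C.F = F ∧ C.et = et := by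
  classical
  have hstab' : ∀ i (σ : GQb) (w : W), σ • w ∈ F i ↔ w ∈ F i := by
    intro i σ w
    constructor
    · intro h
      have := stable i σ⁻¹ _ h
      rwa [inv_smul_smul] at this
    · exact stable i σ w
  refine ⟨{ L := L
            F := F
            et := et
            ι := fun i w => retypeSign (F i) w
            F_zero := F_zero
            F_top := F_top
            mono := mono
            stable := stable
            index := index
            et_triv := ?_
            ι_mul := ?_
            ι_one_iff := ?_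
            ι_smul := ?_ }, rfl, rfl, rfl⟩
  · intro i hi _ σ w hw
    have hσw : σ • w ∈ F (i + 1) := stable (i + 1) σ w hw
    have h1 : σ • w + w ∈ F i := (retype_add_mem_iff (index i hi) hσw hw).mpr (hstab' i σ w)
    have h2 : w + w ∈ F i := (retype_add_mem_iff (index i hi) hw hw).mpr Iff.rfl
    have e : σ • w - w = (σ • w + w) - (w + w) := by abel
    rw [e]
    exact (F i).sub_mem h1 h2
  · intro i hi _ w w' hw hw'
    have h := retype_add_mem_iff (index i hi) hw hw'
    unfold retypeSign
    by_cases h1 : w ∈ F i <;> by_cases h2 : w' ∈ F i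
    · have h3 : w + w' ∈ F i := h.mpr (by simp [h1, h2])
      simp [h1, h2, h3]
    · have h3 : w + w' ∉ F i := fun h3 => h2 ((h.mp h3).mp h1)
      simp [h1, h2, h3]
    · have h3 : w + w' ∉ F i := fun h3 => h1 ((h.mp h3).mpr h2)
      simp [h1, h2, h3]
    · have h3 : w + w' ∈ F i := h.mpr (by simp [h1, h2])
      simp [h1, h2, h3]
  · intro i _ _ w _
    exact retypeSign_eq_one_iff (F i) w
  · intro i _ _ σ w _
    rw [retypeSign_map]
    unfold retypeSign
    by_cases h : w ∈ F i
    · simp [h, (hstab' i σ w).mpr h]
    · have h' : σ • w ∉ F i := fun h' => h ((hstab' i σ w).mp h')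
      simp [h, h']

/-- re-typing a typed chain at `l' = 2`: same chain, prescribed types. -/
theorem TypedChain.exists_retype_two (C : TypedChain W 2) (et : ℕ → Prop) :
    ∃ C' : TypedChain W 2, C'.L = C.L ∧ C'.F = C.F ∧ C'.et = et :=
  typedChain_two_of_chain C.L C.F C.F_zero C.F_top C.mono C.stable C.index et

end Two

end Fermat.Agent.EDesc
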