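/-
Cluster E' (Mazur's descent), seat DESC-FL-ASM (helper77), the piece form of PEU for the Kummer
cocycles (every prime `l' ∤ N`, `2` included; no typed chain):

* `kumFlat_unit_of_coord` : a Kummer cocycle `c` with values in a Galois-stable subgroup `F₁` of
  `W_k`, composed with a multiplicative equivariant coordinate `ι : F₁ → μ_{l'}`, is the Kummer
  cocycle of a UNIT at every place `Al` over `l'`, on all of `G_ℚ`;
* `kumFlat_unit_of_index_two` : the same for `l' = 2` and the sign `retypeSign F₀` of a step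
  `F₀ ≤ F₁` of index `2` (input of the `l' = 2` assembly).
-/
import Fermat.Agent.E.Desc.FlatAsmK
import Fermat.Agent.E.Desc.Retype2

set_option autoImplicit false

noncomputable section

namespace Fermat.Agent.EDesc

open ModularCurve AlgebraicCurve Fermat.Agent.FlatMod Fermat.Agent.FFL

local notation "Qb" => AlgebraicClosure ℚ
local notation "GQb" => (AlgebraicClosure ℚ ≃ₐ[ℚ] AlgebraicClosure ℚ)

variable {N : ℕ} [NeZero N]

/-- **PEU for the Kummer cocycles, piece form.** -/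
theorem kumFlat_unit_of_coord {l' : ℕ} (hl : l'.Prime) (hlN : ¬ l' ∣ N) {S : Finset ℕ} {k : ℕ}
    (Al : ValuationSubring Qb) (hAl : Al.LiesOverPrime l')
    (F₁ : AddSubgroup (EisW N l' S k))
    (hst : ∀ (σ : GQb) (w : EisW N l' S k), w ∈ F₁ → σ • w ∈ F₁)
    (ι : EisW N l' S k → Qb)
    (hmul : ∀ w ∈ F₁, ∀ w' ∈ F₁, ι (w + w') = ι w * ι w')
    (hpow : ∀ w ∈ F₁, ι w ^ l' = 1)
    (hsmul : ∀ (σ : GQb), ∀ w ∈ F₁, ι (σ • w) = σ (ι w))
    (c : GQb → EisW N l' S k) (hcoc : IsCoc c) (hfl : KumFlatCond N l' S k c)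
    (hval : ∀ σ, c σ ∈ F₁) :
    ∃ a : Qb, a ∈ Al ∧ a⁻¹ ∈ Al ∧ a ≠ 0 ∧ ∀ σ : GQb, ι (c σ) * a = σ a := by
  have : Fact l'.Prime := ⟨hl⟩
  have hne : ∀ w ∈ F₁, ι w ≠ 0 := by
    intro w hw h0
    have h1 := hpow w hw
    rw [h0, zero_pow hl.ne_zero] at h1
    exact zero_ne_one h1
  by_cases hk : k = 0
  · subst hk
    have h0 : ι 0 = 1 := by
      have h1 := hmul 0 F₁.zero_mem 0 F₁.zero_mem
      rw [add_zero] at h1
      exact (mul_eq_left₀ (hne 0 F₁.zero_mem)).mp h1.symm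
    refine ⟨1, Al.one_mem, by rw [inv_one]; exact Al.one_mem, one_ne_zero, fun σ => ?_⟩
    rw [eisW_eq_zero_of_zero (c σ), h0, map_one, mul_one]
  · have hcts := kumFlatCond_cts hfl
    obtain ⟨R, hR, hc⟩ := hfl
    have hI := mu_unit_inertia_of_peu (peuFlat hl hAl) (val_one_pow hl hk) c
      (eisKumFlat hl hlN S k R c hR hc) F₁ hst hval ι hmul hpow
      (fun σ _ w hw => hsmul σ w hw)
    refine unit_of_inertia_unit hl Al hAl (fun σ => ι (c σ)) (fun σ => hne _ (hval σ))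
      (fun σ τ => ?_) ?_ hI
    · show ι (c (σ * τ)) = ι (c σ) * σ (ι (c τ))
      rw [hcoc σ τ, hmul _ (hval σ) _ (hst σ _ (hval τ)), hsmul σ _ (hval τ)]
    · obtain ⟨E, hE, hE'⟩ := hcts
      exact ⟨E, hE, fun σ τ hτ => by rw [hE' σ τ hτ]⟩

/-- the sign of a step of index `2` is multiplicative. -/
theorem retypeSign_add {W : Type*} [AddCommGroup W] {F₀ F₁ : AddSubgroup W}
    (h : F₀.relIndex F₁ = 2) {w w' : W} (hw : w ∈ F₁) (hw' : w' ∈ F₁) :
    retypeSign F₀ (w + w') = retypeSign F₀ w * retypeSign F₀ w' := by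
  classical
  have h' := retype_add_mem_iff h hw hw'
  unfold retypeSign
  by_cases h1 : w ∈ F₀ <;> by_cases h2 : w' ∈ F₀
  · have h3 : w + w' ∈ F₀ := h'.mpr (by simp [h1, h2])
    simp [h1, h2, h3]
  · have h3 : w + w' ∉ F₀ := fun h3 => h2 ((h'.mp h3).mp h1)
    simp [h1, h2, h3]
  · have h3 : w + w' ∉ F₀ := fun h3 => h1 ((h'.mp h3).mpr h2)
    simp [h1, h2, h3]
  · have h3 : w + w' ∈ F₀ := h'.mpr (by simp [h1, h2])
    simp [h1, h2, h3]

theorem retypeSign_sq {W : Type*} [AddCommGroup W] (F₀ : AddSubgroup W) (w : W) :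
    retypeSign F₀ w ^ 2 = 1 := by
  classical
  unfold retypeSign
  by_cases h1 : w ∈ F₀
  · simp [h1]
  · simp [h1]

theorem retypeSign_smul {W : Type*} [AddCommGroup W] [DistribMulAction GQb W]
    {F₀ : AddSubgroup W} (hst : ∀ (σ : GQb) (w : W), w ∈ F₀ → σ • w ∈ F₀) (σ : GQb) (w : W) :
    retypeSign F₀ (σ • w) = σ (retypeSign F₀ w) := by
  classical
  rw [retypeSign_map]
  have hiff : σ • w ∈ F₀ ↔ w ∈ F₀ := by
    constructor
    · intro h
      have := hst σ⁻¹ _ h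
      rwa [inv_smul_smul] at this
    · exact hst σ w
  unfold retypeSign
  by_cases h : w ∈ F₀
  · simp [h, hiff.mpr h]
  · have h' : σ • w ∉ F₀ := fun h' => h (hiff.mp h')
    simp [h, h']

/-- **PEU on every piece at `l' = 2`**: the sign of a Kummer cocycle with values in `F₁` modulo a
subgroup `F₀` of index `2` is the Kummer cocycle of a unit at every place over `2`. -/
theorem kumFlat_unit_of_index_two (hN2 : ¬ 2 ∣ N) {S : Finset ℕ} {k : ℕ}
    (Al : ValuationSubring Qb) (hAl : Al.LiesOverPrime 2)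
    (F₀ F₁ : AddSubgroup (EisW N 2 S k))
    (hst₀ : ∀ (σ : GQb) (w : EisW N 2 S k), w ∈ F₀ → σ • w ∈ F₀)
    (hst₁ : ∀ (σ : GQb) (w : EisW N 2 S k), w ∈ F₁ → σ • w ∈ F₁)
    (hidx : F₀.relIndex F₁ = 2)
    (c : GQb → EisW N 2 S k) (hcoc : IsCoc c) (hfl : KumFlatCond N 2 S k c)
    (hval : ∀ σ, c σ ∈ F₁) :
    ∃ a : Qb, a ∈ Al ∧ a⁻¹ ∈ Al ∧ a ≠ 0 ∧ ∀ σ : GQb, retypeSign F₀ (c σ) * a = σ a :=
  kumFlat_unit_of_coord Nat.prime_two hN2 Al hAl F₁ hst₁ (retypeSign F₀)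
    (fun _ hw _ hw' => retypeSign_add hidx hw hw') (fun w _ => retypeSign_sq F₀ w)
    (fun σ w _ => retypeSign_smul hst₀ σ w) c hcoc hfl hval

end Fermat.Agent.EDesc
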