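/-
Cluster E' (Mazur's descent), `l' = 2`, REAL route (helper77): the flat condition at `2`.

For a typed chain `C` of `W_k` (`l' = 2`) whose types are read off `(c_∞ - 1) W`
(`RealTyped N C complexConjugation`), the condition

  `KumRealCond c :⟺ c` is a Kummer cocycle `∧ c (c_∞) ∈ (c_∞ - 1) W`

is a flat condition at every place `Al ∣ 2` (`FlatCond C Al`), and it contains the Kummer cocycles
of the points `R⁰ + c_∞ R⁰`, `2^k R⁰` rational: `eisFlatAtTw_two : EisFlatAtTw N c_∞ 2 S k C Al`,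
for a prime level `N ≡ 1 mod 4`.

* `mu_unit`  = PEU (`kumFlat_unit_of_coord`, E/Desc/FlatPiece.lean);
* `et_unram` = PEU on the piece + Kummer theory of `ℚ` (`fk2_sign_unram`, E/Desc/FlatKum2.lean).
-/
import Fermat.Agent.E.Desc.FlatPiece
import Fermat.Agent.E.Desc.FlatKum2
import Fermat.Agent.E.Desc.Main2Defs
import Fermat.Agent.E.Desc.RealDefs

set_option autoImplicit false

noncomputable section

namespace Fermat.Agent.EDesc

open ModularCurve AlgebraicCurve Fermat.Agent.FlatMod Fermat.Agent.FFL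

local notation "Qb" => AlgebraicClosure ℚ
local notation "GQb" => (AlgebraicClosure ℚ ≃ₐ[ℚ] AlgebraicClosure ℚ)

variable {N : ℕ} [NeZero N]

/-- the flat condition at `2` on the REAL route. -/
def KumRealCond (N : ℕ) [NeZero N] (τ : GQb) (S : Finset ℕ) (k : ℕ)
    (c : GQb → EisW N 2 S k) : Prop :=
  KumFlatCond N 2 S k c ∧ ∃ w : EisW N 2 S k, c τ = τ • w - w

theorem kumRealCond_add {τ : GQb} {S : Finset ℕ} {k : ℕ} {c c' : GQb → EisW N 2 S k}
    (h : KumRealCond N τ S k c) (h' : KumRealCond N τ S k c') :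
    KumRealCond N τ S k (c + c') := by
  obtain ⟨h1, w, hw⟩ := h
  obtain ⟨h1', w', hw'⟩ := h'
  refine ⟨kumFlatCond_add h1 h1', w + w', ?_⟩
  rw [Pi.add_apply, hw, hw', smul_add]
  abel

theorem kumRealCond_neg {τ : GQb} {S : Finset ℕ} {k : ℕ} {c : GQb → EisW N 2 S k}
    (h : KumRealCond N τ S k c) : KumRealCond N τ S k (-c) := by
  obtain ⟨h1, w, hw⟩ := h
  refine ⟨kumFlatCond_neg h1, -w, ?_⟩
  rw [Pi.neg_apply, hw, smul_neg]
  abel

theorem kumRealCond_cob {τ : GQb} {S : Finset ℕ} {k : ℕ} (w : EisW N 2 S k) :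
    KumRealCond N τ S k (fun σ => σ • w - w) :=
  ⟨kumFlatCond_cob w, w, rfl⟩

/-- a Kummer cocycle with values in `W_k` vanishes on the inertia groups at the primes
`r ∤ 2 N`. -/
theorem kumFlatCond_unram {l' : ℕ} (hl : l'.Prime) {S : Finset ℕ} {k : ℕ}
    {c : GQb → EisW N l' S k} (h : KumFlatCond N l' S k c) {r : ℕ} (hr : r.Prime)
    (hrN : ¬ r ∣ N) (hrl : r ≠ l') (A : ValuationSubring Qb) (hA : A.LiesOverPrime r)
    {σ : GQb} (hσ : σ ∈ A.inertiaSubgroupIn ℚ) : c σ = 0 := by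
  obtain ⟨R, hR, hc⟩ := h
  have hu : UnramCoc {r' : ℕ | r' ∣ N * l' ^ k} (kum R) :=
    kum_unramCoc (pow_ne_zero k hl.ne_zero) hR _ (fun r' _ h' => h')
  have hr' : r ∉ {r' : ℕ | r' ∣ N * l' ^ k} := by
    intro h'
    rcases (Nat.Prime.dvd_mul hr).mp h' with h1 | h1
    · exact hrN h1
    · exact hrl ((Nat.prime_dvd_prime_iff_eq hr hl).mp (hr.dvd_of_dvd_pow h1))
  apply Subtype.ext
  rw [hc σ]
  exact hu r hr hr' A hA σ hσ

omit [NeZero N] in
/-- the Kummer cocycle of `R⁰ + τ R⁰` vanishes at an involution `τ`. -/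
theorem kum_add_smul_self {τ : GQb} (hτ : τ * τ = 1) (R₀ : JZero N) :
    kum (R₀ + τ • R₀) τ = 0 := by
  rw [kum_apply, gal_smul_add, ← mul_smul, hτ, one_smul]
  abel

/-- **the flat condition at `2` (REAL route)** for a real-typed chain, at a prime level
`N ≡ 1 mod 4`. -/
theorem eisFlatAtTw_two (hN : N.Prime) (hN4 : N % 4 = 1) {S : Finset ℕ} (k : ℕ)
    (C : TypedChain (EisW N 2 S k) 2) (hC : RealTyped N C complexConjugation)
    (Al : ValuationSubring Qb) (hAl : Al.LiesOverPrime 2) :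
    EisFlatAtTw N complexConjugation 2 S k C Al := by
  have hN2 : ¬ 2 ∣ N := by
    intro h
    have h2 := (Nat.prime_dvd_prime_iff_eq Nat.prime_two hN).mp h
    omega
  refine ⟨KumRealCond N complexConjugation S k,
    ⟨fun c c' => kumRealCond_add, fun c => kumRealCond_neg, kumRealCond_cob, ?_, ?_⟩, ?_⟩
  · -- `et_unram`
    intro i hi het c hcoc hfl hval σ hσ
    obtain ⟨hK, w, hw⟩ := hfl
    have hsub := (hC i hi).mp het
    have hunit := kumFlat_unit_of_index_two hN2 Al hAl (C.F i) (C.F (i + 1)) (C.stable i)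
      (C.stable (i + 1)) (C.index i hi) c hcoc hK hval
    have hreal : retypeSign (C.F i) (c complexConjugation) = 1 := by
      rw [retypeSign_eq_one_iff]
      refine hsub ⟨hval _, ?_⟩
      exact ⟨w, by rw [eisTwist_apply, hw]⟩
    have hunr : ∀ r : ℕ, r.Prime → r ≠ 2 → r ≠ N → ∃ A : ValuationSubring Qb,
        A.LiesOverPrime r ∧ ∀ σ ∈ A.inertiaSubgroupIn ℚ, retypeSign (C.F i) (c σ) = 1 := by
      intro r hr hr2 hrN
      obtain ⟨A, hA⟩ := Fermat.Agent.FrobExists.exists_valuationSubring_liesOver r hr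
      refine ⟨A, hA, fun σ hσ => ?_⟩
      have hrN' : ¬ r ∣ N := fun h => hrN ((Nat.prime_dvd_prime_iff_eq hr hN).mp h)
      rw [kumFlatCond_unram Nat.prime_two hK hr hrN' hr2 A hA hσ, retypeSign_eq_one_iff]
      exact (C.F i).zero_mem
    have h1 := fk2_sign_unram N hN hN4 (fun σ => retypeSign (C.F i) (c σ))
      (fun σ => retypeSign_sq _ _) hunr hreal Al hAl hunit σ hσ
    exact (retypeSign_eq_one_iff (C.F i) (c σ)).mp h1
  · -- `mu_unit`
    intro i hi hnet c hcoc hfl hval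
    obtain ⟨a, ha, ha', ha0, h⟩ := kumFlat_unit_of_coord Nat.prime_two hN2 Al hAl
      (C.F (i + 1)) (C.stable (i + 1)) (C.ι i)
      (fun w hw w' hw' => C.ι_mul i hi hnet w w' hw hw')
      (fun w hw => typedChain_ι_pow C hi hnet hw)
      (fun σ w hw => C.ι_smul i hi hnet σ w hw) c hcoc hfl.1 hval
    exact ⟨a, ha, ha', ha0, fun σ _ => h σ⟩
  · -- the Kummer cocycles of `R⁰ + c_∞ R⁰`
    intro R₀ c hR hc
    refine ⟨⟨R₀ + complexConjugation • R₀, fun σ => ?_, hc⟩, 0, ?_⟩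
    · rw [nsmul_add, ← gal_smul_nsmul, hR complexConjugation, gal_smul_add, hR σ]
    · rw [smul_zero, sub_zero]
      apply Subtype.ext
      rw [hc]
      exact kum_add_smul_self complexConjugation_mul_self R₀

end Fermat.Agent.EDesc
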