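/-
Cluster E' (Mazur's descent), `l' = 2`, REAL route (helper77): the local input of DESC-MAIN,

  `eisLocalTw_two : EisChain N 2 S → EisReal N c_∞ 2 S → EisLocalTw N c_∞ 2 S`

for a prime level `N ≡ 1 mod 4`.  A typed chain of `W_k` is re-typed by `(c_∞ - 1) W`
(`Retype2.lean`); it carries the flat condition of `FlatTw2.lean`; the count
`#W ≤ #((c_∞ - 1) W) · 2^α` (every piece which is not `et` contributes a factor `2` to
`(c_∞ - 1) W`) turns `EisReal` into `#W ≤ c · 2^(2 α)`.
-/
import Fermat.Agent.E.Desc.FlatTw2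

set_option autoImplicit false

noncomputable section

namespace Fermat.Agent.EDesc

open ModularCurve AlgebraicCurve

local notation "Qb" => AlgebraicClosure ℚ
local notation "GQb" => (AlgebraicClosure ℚ ≃ₐ[ℚ] AlgebraicClosure ℚ)

section Count

variable {W : Type*} [AddCommGroup W] [DistribMulAction GQb W] [Finite W]

/-- the number of `et` pieces among the first `i`. -/
def etCount (et : ℕ → Prop) (i : ℕ) : ℕ :=
  open Classical in ((Finset.range i).filter et).card

theorem etCount_zero (et : ℕ → Prop) : etCount et 0 = 0 := by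
  classical
  simp [etCount]

theorem etCount_succ_of (et : ℕ → Prop) {i : ℕ} (h : et i) :
    etCount et (i + 1) = etCount et i + 1 := by
  classical
  unfold etCount
  rw [Finset.range_add_one, Finset.filter_insert, if_pos h, Finset.card_insert_of_notMem]
  intro h'
  exact Finset.notMem_range_self (Finset.mem_filter.mp h').1

theorem etCount_succ_of_not (et : ℕ → Prop) {i : ℕ} (h : ¬ et i) :
    etCount et (i + 1) = etCount et i := by
  classical
  unfold etCount
  rw [Finset.range_add_one, Finset.filter_insert, if_neg h]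

omit [Finite W] in
theorem typedChain_alpha_eq {l' : ℕ} (C : TypedChain W l') : C.alpha = etCount C.et C.L := rfl

omit [DistribMulAction GQb W] in
/-- a proper step of subgroups of a finite group has relative index at least `2`. -/
theorem two_le_relIndex_of_not_le {H K : AddSubgroup W} (h : ¬ K ≤ H) : 2 ≤ H.relIndex K := by
  have h0 : H.relIndex K ≠ 0 := by
    rw [AddSubgroup.relIndex]
    exact AddSubgroup.index_ne_zero_of_finite
  have h1 : H.relIndex K ≠ 1 := fun h1 => h (AddSubgroup.relIndex_eq_one.mp h1)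
  omega

omit [DistribMulAction GQb W] in
theorem one_le_relIndex (H K : AddSubgroup W) : 1 ≤ H.relIndex K := by
  have h0 : H.relIndex K ≠ 0 := by
    rw [AddSubgroup.relIndex]
    exact AddSubgroup.index_ne_zero_of_finite
  omega

/-- **the count**: if every piece which is not `et` meets `R` properly, then
`#W ≤ #R · 2^α`. -/
theorem typedChain_card_le (C : TypedChain W 2) (R : AddSubgroup W)
    (h : ∀ i, i < C.L → ¬ C.et i → ¬ (C.F (i + 1) ⊓ R ≤ C.F i)) :
    Nat.card W ≤ Nat.card R * 2 ^ C.alpha := by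
  have key : ∀ i, i ≤ C.L → (⊥ : AddSubgroup W).relIndex (C.F i) ≤
      (⊥ : AddSubgroup W).relIndex (C.F i ⊓ R) * 2 ^ etCount C.et i := by
    intro i
    induction i with
    | zero =>
      intro _
      rw [C.F_zero, bot_inf_eq, etCount_zero, pow_zero, mul_one]
    | succ i ih =>
      intro hi
      have hi' : i < C.L := hi
      have ih' := ih hi'.le
      have h1 : (⊥ : AddSubgroup W).relIndex (C.F (i + 1)) =
          (⊥ : AddSubgroup W).relIndex (C.F i) * 2 := by
        have h0 := AddSubgroup.relIndex_mul_relIndex (⊥ : AddSubgroup W) (C.F i) (C.F (i + 1))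
          bot_le (C.mono i)
        rw [C.index i hi'] at h0
        exact h0.symm
      have hle : C.F i ⊓ R ≤ C.F (i + 1) ⊓ R := inf_le_inf_right R (C.mono i)
      have h2 : (⊥ : AddSubgroup W).relIndex (C.F (i + 1) ⊓ R) =
          (⊥ : AddSubgroup W).relIndex (C.F i ⊓ R) *
            (C.F i ⊓ R).relIndex (C.F (i + 1) ⊓ R) :=
        (AddSubgroup.relIndex_mul_relIndex _ _ _ bot_le hle).symm
      rw [h1, h2]
      by_cases het : C.et i
      · rw [etCount_succ_of C.et het, pow_succ]
        have h3 := one_le_relIndex (C.F i ⊓ R) (C.F (i + 1) ⊓ R)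
        calc (⊥ : AddSubgroup W).relIndex (C.F i) * 2
            ≤ ((⊥ : AddSubgroup W).relIndex (C.F i ⊓ R) * 2 ^ etCount C.et i) * 2 :=
              Nat.mul_le_mul_right 2 ih'
          _ = (⊥ : AddSubgroup W).relIndex (C.F i ⊓ R) * 1 * (2 ^ etCount C.et i * 2) := by
              ring
          _ ≤ (⊥ : AddSubgroup W).relIndex (C.F i ⊓ R) *
                (C.F i ⊓ R).relIndex (C.F (i + 1) ⊓ R) * (2 ^ etCount C.et i * 2) :=
              Nat.mul_le_mul_right _ (Nat.mul_le_mul_left _ h3)
      · rw [etCount_succ_of_not C.et het]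
        have hnle : ¬ (C.F (i + 1) ⊓ R ≤ C.F i ⊓ R) := fun h' =>
          h i hi' het (le_trans h' inf_le_left)
        have h3 := two_le_relIndex_of_not_le hnle
        calc (⊥ : AddSubgroup W).relIndex (C.F i) * 2
            ≤ ((⊥ : AddSubgroup W).relIndex (C.F i ⊓ R) * 2 ^ etCount C.et i) * 2 :=
              Nat.mul_le_mul_right 2 ih'
          _ = (⊥ : AddSubgroup W).relIndex (C.F i ⊓ R) * 2 * 2 ^ etCount C.et i := by ring
          _ ≤ (⊥ : AddSubgroup W).relIndex (C.F i ⊓ R) *
                (C.F i ⊓ R).relIndex (C.F (i + 1) ⊓ R) * 2 ^ etCount C.et i :=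
              Nat.mul_le_mul_right _ (Nat.mul_le_mul_left _ h3)
  have h1 := key C.L le_rfl
  rw [C.F_top, top_inf_eq, AddSubgroup.relIndex_bot_left, AddSubgroup.relIndex_bot_left,
    ← typedChain_alpha_eq] at h1
  have h2 : Nat.card (⊤ : AddSubgroup W) = Nat.card W := AddSubgroup.card_top
  rw [h2] at h1
  exact h1

/-- from `#R² ≤ c #W` and `#W ≤ #R 2^α` to `#W ≤ c 2^(2α)`. -/
theorem card_le_of_real {w r c α : ℕ} (hw : 0 < w) (h1 : r ^ 2 ≤ c * w) (h2 : w ≤ r * 2 ^ α) :
    w ≤ c * 2 ^ (2 * α) := by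
  have h3 : w * w ≤ (c * 2 ^ (2 * α)) * w := by
    calc w * w ≤ (r * 2 ^ α) * (r * 2 ^ α) := Nat.mul_le_mul h2 h2
      _ = r ^ 2 * 2 ^ (2 * α) := by ring
      _ ≤ (c * w) * 2 ^ (2 * α) := Nat.mul_le_mul_right _ h1
      _ = (c * 2 ^ (2 * α)) * w := by ring
  exact Nat.le_of_mul_le_mul_right h3 hw

end Count

variable {N : ℕ} [NeZero N]

/-- **the local input of DESC-MAIN at `l' = 2`** (REAL route), for a prime level
`N ≡ 1 mod 4`. -/
theorem eisLocalTw_two (hN : N.Prime) (hN4 : N % 4 = 1) {S : Finset ℕ}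
    (hC : EisChain N 2 S) (hR : EisReal N complexConjugation 2 S) :
    EisLocalTw N complexConjugation 2 S := by
  have : Fact (Nat.Prime 2) := ⟨Nat.prime_two⟩
  obtain ⟨c, hc, hRk⟩ := hR
  refine ⟨c, hc, fun k => ?_⟩
  obtain ⟨C₀⟩ := hC k
  obtain ⟨C, hL, hF, het⟩ := C₀.exists_retype_two
    (fun i => C₀.F (i + 1) ⊓ eisRealSub N complexConjugation 2 S k ≤ C₀.F i)
  have hreal : RealTyped N C complexConjugation := by
    intro i _
    rw [het, hF]
  refine ⟨C, ?_, fun Al hAl => eisFlatAtTw_two hN hN4 k C hreal Al hAl⟩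
  have h2 := typedChain_card_le C (eisRealSub N complexConjugation 2 S k)
    (fun i hi hnet => fun h' => hnet ((hreal i hi).mpr h'))
  exact card_le_of_real Nat.card_pos (hRk k) h2

end Fermat.Agent.EDesc
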