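import Fermat.Agent.E.Desc.Main2Defs
import Fermat.Agent.E.Desc.Alg
import Fermat.Agent.E.Desc.Dev.Final

/-!
# E' / Desc / Main : DESC-MAIN, the assembly of Mazur's descent (seat DESC-MAIN, helper90)

`desc_main : J₀(N)(ℚ) f.g. → EisIdem → EisLocal → EisToric → EisKp → EisDescentAt N l' S`
(`N` prime `≠ l'`, both in `S`).

Proof: for every `k` the Selmer count `DevStatement` (E/Desc/Dev) for `W_k = EisW N l' S k`, with
`(W)`, `(FL)` (`EisLocal`), `(T1)` (`EisToric`), `(K-p)` (`EisKp`), bounds the number of classes of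
`e_k (m J(ℚ))` modulo `l'^k J(ℚ)` by a constant; then DESC-ALG (`desc_alg`).
-/

set_option autoImplicit false
set_option linter.unusedSectionVars false
set_option linter.style.haveILetI false

noncomputable section

namespace Fermat.Agent.EDesc

open ModularCurve AlgebraicCurve

local notation "Qb" => AlgebraicClosure ℚ
local notation "GQb" => (AlgebraicClosure ℚ ≃ₐ[ℚ] AlgebraicClosure ℚ)

variable (N : ℕ) [NeZero N]

/-! ### the Hecke ring acts on the rational points -/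

theorem dm_gal_smul_zsmul (σ : GQb) (z : ℤ) (x : JZero N) : σ • (z • x) = z • (σ • x) :=
  map_zsmul (galAdd σ) z x

/-- the free Hecke ring commutes with the Galois action. -/
theorem dm_heckeAct_smul (S : Finset ℕ) (e : FreeAlgebra ℤ (OutPrimes S)) (σ : GQb)
    (x : JZero N) : heckeAct N S e (σ • x) = σ • heckeAct N S e x := by
  induction e using FreeAlgebra.induction generalizing x with
  | grade0 r =>
    rw [AlgHom.commutes]
    simp only [Module.algebraMap_end_apply]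
    rw [dm_gal_smul_zsmul]
  | grade1 r =>
    simp only [heckeAct, FreeAlgebra.lift_ι_apply]
    exact Fermat.Agent.F3G.heckeGaloisComm N r.1 σ x
  | mul a b ha hb =>
    rw [map_mul]
    simp only [Module.End.mul_apply]
    rw [hb, ha]
  | add a b ha hb =>
    rw [map_add]
    simp only [LinearMap.add_apply]
    rw [ha, hb, gal_smul_add]

theorem dm_heckeAct_ratPt (S : Finset ℕ) (e : FreeAlgebra ℤ (OutPrimes S)) {x : JZero N}
    (hx : RatPt x) : RatPt (heckeAct N S e x) := fun σ => by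
  rw [← dm_heckeAct_smul, hx σ]

/-- the action of the free Hecke ring on the rational points, as a ring homomorphism. -/
def dm_ratHecke (S : Finset ℕ) : FreeAlgebra ℤ (OutPrimes S) →+*
    AddMonoid.End ↥(FixedPoints.addSubgroup GQb (JZero N)) where
  toFun e :=
    { toFun := fun x => ⟨heckeAct N S e x.1, fun σ => by
        have hx : RatPt (x.1 : JZero N) := fun τ => x.2 τ
        exact dm_heckeAct_ratPt N S e hx σ⟩
      map_zero' := Subtype.ext (map_zero (heckeAct N S e))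
      map_add' := fun x y => Subtype.ext (map_add (heckeAct N S e) x.1 y.1) }
  map_one' := by
    ext x
    show heckeAct N S 1 x.1 = x.1
    rw [map_one]
    rfl
  map_mul' a b := by
    ext x
    show heckeAct N S (a * b) x.1 = heckeAct N S a (heckeAct N S b x.1)
    rw [map_mul]
    rfl
  map_zero' := by
    ext x
    show heckeAct N S 0 x.1 = 0
    rw [map_zero]
    rfl
  map_add' a b := by
    ext x
    show heckeAct N S (a + b) x.1 = heckeAct N S a x.1 + heckeAct N S b x.1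
    rw [map_add]
    rfl

/-- the module structure of the rational points over the free Hecke ring. -/
@[reducible] def dm_ratHeckeModule (S : Finset ℕ) :
    Module (FreeAlgebra ℤ (OutPrimes S)) ↥(FixedPoints.addSubgroup GQb (JZero N)) :=
  Module.compHom _ (dm_ratHecke N S)

theorem dm_ratHeckeModule_smul_coe (S : Finset ℕ) (e : FreeAlgebra ℤ (OutPrimes S))
    (x : ↥(FixedPoints.addSubgroup GQb (JZero N))) :
    (((letI := dm_ratHeckeModule N S; e • x) : ↥(FixedPoints.addSubgroup GQb (JZero N))) :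
      JZero N) = heckeAct N S e x.1 := rfl

/-! ### `W_k` is smooth and unramified outside `{N, l'}` -/

theorem dm_eisW_smoothMod (l' : ℕ) [Fact l'.Prime] (S : Finset ℕ) (k : ℕ) :
    SmoothMod (EisW N l' S k) := by
  choose L hL hfix using fun w : EisW N l' S k => Fermat.Agent.S17W.openStab N (w : JZero N)
  haveI := hL
  refine ⟨⨆ w, L w, inferInstance, fun σ hσ w => Subtype.ext ?_⟩
  refine hfix w σ fun a ha => ?_
  exact (IntermediateField.mem_fixingSubgroup_iff _ σ).mp hσ a (le_iSup L w ha)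

theorem dm_eisW_unramMod (hN : N.Prime) (l' : ℕ) (hl : l'.Prime) (S : Finset ℕ) (k : ℕ) :
    UnramMod (EisW N l' S k) {N, l'} := by
  intro r hr hrS A hA σ hσ w
  apply Subtype.ext
  have hn : l' ^ k ≠ 0 := pow_ne_zero _ hl.ne_zero
  have hrS' : r ≠ N ∧ r ≠ l' := by
    simpa only [Set.mem_insert_iff, Set.mem_singleton_iff, not_or] using hrS
  have hrn : ¬ r ∣ N * l' ^ k := by
    intro h
    rcases (Nat.Prime.dvd_mul hr).1 h with h1 | h1
    · exact hrS'.1 ((Nat.prime_dvd_prime_iff_eq hr hN).1 h1)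
    · exact hrS'.2 ((Nat.prime_dvd_prime_iff_eq hr hl).1 (hr.dvd_of_dvd_pow h1))
  refine Fermat.Agent.S17.inertia_smul_eq_of_nsmul_fixed
    (Fermat.Agent.GaussInt.keyLemmaAt_all N) (l' ^ k) hn (w : JZero N) (fun τ => ?_) r hr hrn
    A hA σ hσ
  rw [w.2.1, gal_smul_zero]

/-! ### the count for a fixed `k` -/

/-- **the Selmer count** for `W_k`: the points `x i` whose classes `e (2 m_K (x i - x j))` are
not in `l'^k J(ℚ)` give pairwise non-cohomologous Selmer cocycles, to which `devStatement`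
applies. -/
theorem desc_count (hN : N.Prime) (l' : ℕ) [Fact l'.Prime] (hNl : N ≠ l') (S : Finset ℕ)
    (τ : GQb) (k : ℕ) (e : FreeAlgebra ℤ (OutPrimes S))
    (he : ∀ x : JZero N, l' ^ k • x = 0 → heckeAct N S e x ∈ eisTors N l' S k)
    (C : TypedChain (EisW N l' S k) l') (Ap Al : ValuationSubring Qb)
    (hAp : Ap.LiesOverPrime N) (hAl : Al.LiesOverPrime l')
    (hFlat : EisFlatAtTw N τ l' S k C Al) (mK : ℕ)
    (hmK : ∀ (P R : JZero N), RatPt P → l' ^ k • R = mK • P →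
      ∃ w : JZero N, l' ^ k • w = 0 ∧ ∀ σ ∈ Ap.inertiaSubgroupIn ℚ, σ • R - R = σ • w - w)
    (n : ℕ) (x : Fin n → JZero N) (hx : ∀ i, RatPt (x i))
    (hdist : ∀ i j, i ≠ j → ¬ ∃ Q : JZero N, RatPt Q ∧
      heckeAct N S e ((2 * mK) • (x i - x j)) = l' ^ k • Q) :
    n * l' ^ C.alpha * Nat.card (fixedBy (EisW N l' S k) (Ap.inertiaSubgroupIn ℚ)) ≤
      Nat.card (fixedBy (EisW N l' S k) ⊤) * Nat.card (EisW N l' S k) := by
  have hl : l'.Prime := Fact.out
  have hpos : 0 < l' ^ k := pow_pos hl.pos k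
  -- roots
  choose R₀ hR₀ using fun i => exists_nsmul_eq (N := N) hpos (mK • x i)
  have hR₀rat : ∀ i, RatPt (l' ^ k • R₀ i) := fun i => by
    rw [hR₀ i]; exact (hx i).nsmul mK
  have hτR₀ : ∀ i, l' ^ k • (τ • R₀ i) = mK • x i := fun i => by
    rw [← gal_smul_nsmul, hR₀ i, gal_smul_nsmul, hx i τ]
  -- the points `e (R₀ + τ R₀)`
  set R : Fin n → JZero N := fun i => heckeAct N S e (R₀ i + τ • R₀ i) with hRdef
  have hRsum : ∀ i, l' ^ k • (R₀ i + τ • R₀ i) = (2 * mK) • x i := fun i => by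
    rw [nsmul_add, hR₀ i, hτR₀ i, ← two_nsmul, mul_smul]
  have hRnsmul : ∀ i, l' ^ k • R i = heckeAct N S e ((2 * mK) • x i) := fun i => by
    rw [hRdef]
    simp only
    rw [← map_nsmul, hRsum i]
  have hrat : ∀ i, RatPt (l' ^ k • R i) := fun i => by
    rw [hRnsmul i]
    exact dm_heckeAct_ratPt N S e ((hx i).nsmul _)
  have hkumR : ∀ i σ, kum (R i) σ = heckeAct N S e (kum (R₀ i + τ • R₀ i) σ) := fun i σ =>
    kum_map (heckeAct N S e).toAddMonoidHom (fun ρ y => dm_heckeAct_smul N S e ρ y) _ σ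
  have hsumrat : ∀ i, RatPt (l' ^ k • (R₀ i + τ • R₀ i)) := fun i => by
    rw [hRsum i]; exact (hx i).nsmul _
  have hval : ∀ i σ, kum (R i) σ ∈ Set.range (eisEmb N l' S k).ι := fun i σ => by
    have h1 : kum (R i) σ ∈ eisTors N l' S k := by
      rw [hkumR i σ]
      exact he _ (nsmul_kum (hsumrat i) σ)
    exact ⟨⟨_, h1⟩, rfl⟩
  have hdist' : ∀ i j, i ≠ j →
      ¬ ∃ Q : JZero N, RatPt Q ∧ l' ^ k • R i - l' ^ k • R j = l' ^ k • Q := by
    intro i j hij ⟨Q, hQ, hQe⟩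
    refine hdist i j hij ⟨Q, hQ, ?_⟩
    rw [← hQe, hRnsmul i, hRnsmul j, ← map_sub, nsmul_sub]
  have hS : ∀ r : ℕ, r.Prime → r ∣ N * l' ^ k → r ∈ ({N, l'} : Set ℕ) := by
    intro r hr h
    rcases (Nat.Prime.dvd_mul hr).1 h with h1 | h1
    · exact Or.inl ((Nat.prime_dvd_prime_iff_eq hr hN).1 h1)
    · exact Or.inr ((Nat.prime_dvd_prime_iff_eq hr hl).1 (hr.dvd_of_dvd_pow h1))
  obtain ⟨c, hc, hcoc, hcts, hunr, hne⟩ :=
    exists_selmer_family (eisEmb N l' S k) hpos.ne' ({N, l'} : Set ℕ) hS n R hrat hval hdist'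
  have hc' : ∀ i σ, ((c i σ : EisW N l' S k) : JZero N) = kum (R i) σ := hc
  -- the condition at `p`
  have hcob : ∀ i, ∃ w : EisW N l' S k, IsCobOn (Ap.inertiaSubgroupIn ℚ) (c i) w := by
    intro i
    obtain ⟨w₀, hw₀, hw₀'⟩ := hmK (x i) (R₀ i) (hx i) (hR₀ i)
    obtain ⟨w₁, hw₁, hw₁'⟩ := hmK (x i) (τ • R₀ i) (hx i) (hτR₀ i)
    have hw : l' ^ k • (w₀ + w₁) = 0 := by rw [nsmul_add, hw₀, hw₁, add_zero]
    refine ⟨⟨heckeAct N S e (w₀ + w₁), he _ hw⟩, fun σ hσ => Subtype.ext ?_⟩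
    rw [hc' i σ, hkumR i σ]
    show _ = σ • heckeAct N S e (w₀ + w₁) - heckeAct N S e (w₀ + w₁)
    rw [← dm_heckeAct_smul, ← map_sub, kum_add, kum_apply, kum_apply, hw₀' σ hσ, hw₁' σ hσ,
      gal_smul_add]
    congr 1
    abel
  -- flatness
  obtain ⟨Flat, hFC, hFK⟩ := hFlat
  have hflat : ∀ i, Flat (c i) := fun i => by
    refine hFK (heckeAct N S e (R₀ i)) (c i) ?_ (fun σ => ?_)
    · rw [← map_nsmul]
      exact dm_heckeAct_ratPt N S e (hR₀rat i)
    · rw [hc' i σ, hRdef]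
      simp only
      rw [map_add, dm_heckeAct_smul]
  exact devStatement N l' hN hl hNl (EisW N l' S k) (dm_eisW_smoothMod N l' S k)
    (dm_eisW_unramMod N hN l' hl S k) (fun w => ⟨k, Subtype.ext w.2.1⟩) C Ap Al hAp hAl Flat hFC
    n c hcoc hcts hunr hcob hflat hne

/-! ### the constants -/

/-- the numerical step: `n a A ≤ G W`, `W ≤ c₁ a²`, `W ≤ c₂ A²` give `n ≤ c₁ c₂ G`. -/
theorem desc_numeric {n a A G W c₁ c₂ : ℕ} (hW : 0 < W) (h : n * a * A ≤ G * W)
    (h1 : W ≤ c₁ * a ^ 2) (h2 : W ≤ c₂ * A ^ 2) : n ≤ c₁ * c₂ * G := by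
  have e1 : n ^ 2 * (W * W) ≤ n ^ 2 * ((c₁ * a ^ 2) * (c₂ * A ^ 2)) :=
    Nat.mul_le_mul_left _ (Nat.mul_le_mul h1 h2)
  have e2 : (n * a * A) ^ 2 ≤ (G * W) ^ 2 := Nat.pow_le_pow_left h 2
  have e3 : n ^ 2 * (W * W) ≤ c₁ * c₂ * G ^ 2 * (W * W) := by
    calc n ^ 2 * (W * W) ≤ n ^ 2 * ((c₁ * a ^ 2) * (c₂ * A ^ 2)) := e1
      _ = c₁ * c₂ * (n * a * A) ^ 2 := by ring
      _ ≤ c₁ * c₂ * (G * W) ^ 2 := Nat.mul_le_mul_left _ e2
      _ = c₁ * c₂ * G ^ 2 * (W * W) := by ring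
  have e4 : n ^ 2 ≤ c₁ * c₂ * G ^ 2 := Nat.le_of_mul_le_mul_right e3 (Nat.mul_pos hW hW)
  have e5 : c₁ * c₂ * G ^ 2 ≤ (c₁ * c₂ * G) ^ 2 := by
    have : c₁ * c₂ ≤ (c₁ * c₂) ^ 2 := by
      rw [pow_two]
      exact Nat.le_mul_self _
    calc c₁ * c₂ * G ^ 2 ≤ (c₁ * c₂) ^ 2 * G ^ 2 := Nat.mul_le_mul_right _ this
      _ = (c₁ * c₂ * G) ^ 2 := by ring
  exact (Nat.pow_le_pow_iff_left (by norm_num : (2 : ℕ) ≠ 0)).1 (e4.trans e5)

/-- the rational points of `W_k` inject into the torsion of `J₀(N)(ℚ)`. -/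
theorem dm_card_fixed_le (hFG : AddGroup.FG ↥(FixedPoints.addSubgroup GQb (JZero N)))
    (l' : ℕ) [Fact l'.Prime] (S : Finset ℕ) (k : ℕ) :
    Nat.card (fixedBy (EisW N l' S k) (⊤ : Subgroup GQb)) ≤
      Nat.card ↥(Submodule.torsion ℤ ↥(FixedPoints.addSubgroup GQb (JZero N))) := by
  have hl : l'.Prime := Fact.out
  haveI : Module.Finite ℤ ↥(FixedPoints.addSubgroup GQb (JZero N)) :=
    Module.Finite.iff_addGroup_fg.mpr hFG
  haveI : Finite ↥(Submodule.torsion ℤ ↥(FixedPoints.addSubgroup GQb (JZero N))) :=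
    Module.finite_of_fg_torsion _ (Submodule.torsion_isTorsion)
  have hrat : ∀ w : fixedBy (EisW N l' S k) (⊤ : Subgroup GQb),
      ((w : EisW N l' S k) : JZero N) ∈ FixedPoints.addSubgroup GQb (JZero N) := fun w σ =>
    congrArg Subtype.val (w.2 σ (Subgroup.mem_top σ))
  have htors : ∀ w : fixedBy (EisW N l' S k) (⊤ : Subgroup GQb),
      (⟨((w : EisW N l' S k) : JZero N), hrat w⟩ : ↥(FixedPoints.addSubgroup GQb (JZero N))) ∈
        Submodule.torsion ℤ ↥(FixedPoints.addSubgroup GQb (JZero N)) := fun w => by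
    rw [Submodule.mem_torsion_iff]
    refine ⟨⟨((l' ^ k : ℕ) : ℤ), mem_nonZeroDivisors_of_ne_zero ?_⟩, Subtype.ext ?_⟩
    · exact_mod_cast pow_ne_zero k hl.ne_zero
    · show ((l' ^ k : ℕ) : ℤ) • ((w : EisW N l' S k) : JZero N) = 0
      rw [natCast_zsmul]
      exact w.1.2.1
  refine Nat.card_le_card_of_injective (fun w => ⟨⟨((w : EisW N l' S k) : JZero N), hrat w⟩,
    htors w⟩) (fun w w' h => ?_)
  have h1 : ((w : EisW N l' S k) : JZero N) = ((w' : EisW N l' S k) : JZero N) :=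
    congrArg (fun z => ((z : ↥(FixedPoints.addSubgroup GQb (JZero N))) : JZero N))
      (congrArg Subtype.val h)
  exact Subtype.ext (Subtype.ext h1)

/-! ### DESC-MAIN -/

/-- **DESC-MAIN**, twisted form (every `l'`; at `l' = 2` take `τ` = complex conjugation). -/
theorem desc_main_tw (hN : N.Prime) (l' : ℕ) (hl : l'.Prime) (hNl : N ≠ l')
    (S : Finset ℕ) (_hNS : N ∈ S) (_hlS : l' ∈ S) (τ : GQb)
    (hFG : AddGroup.FG ↥(FixedPoints.addSubgroup GQb (JZero N)))
    (hIdem : EisIdem N l' S) (hLocal : EisLocalTw N τ l' S) (hToric : EisToric N l' S)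
    (hKp : EisKp N l') : EisDescentAt N l' S := by
  haveI : Fact l'.Prime := ⟨hl⟩
  obtain ⟨c₁, hc₁, hLoc⟩ := hLocal
  obtain ⟨c₂, hc₂, hTor⟩ := hToric
  obtain ⟨mK, hmK, hKp'⟩ := hKp
  obtain ⟨Ap, hAp⟩ := Fermat.Agent.FrobExists.exists_valuationSubring_liesOver N hN
  obtain ⟨Al, hAl⟩ := Fermat.Agent.FrobExists.exists_valuationSubring_liesOver l' hl
  letI := dm_ratHeckeModule N S
  haveI : Module.Finite ℤ ↥(FixedPoints.addSubgroup GQb (JZero N)) :=
    Module.Finite.iff_addGroup_fg.mpr hFG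
  obtain ⟨t, ht, htors⟩ := desc_alg (M := ↥(FixedPoints.addSubgroup GQb (JZero N))) l'
    ((eisChar l' S : FreeAlgebra ℤ (OutPrimes S) →ₐ[ℤ] ZMod l') :
      FreeAlgebra ℤ (OutPrimes S) →+* ZMod l') (2 * mK)
    (c₁ * c₂ * Nat.card ↥(Submodule.torsion ℤ ↥(FixedPoints.addSubgroup GQb (JZero N))))
    (Nat.mul_ne_zero two_ne_zero hmK.ne') (fun k => by
      obtain ⟨e, he1, he⟩ := hIdem k
      refine ⟨e, ?_, fun n x hx => ?_⟩
      · show eisChar l' S e ≠ 0
        rw [he1]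
        exact one_ne_zero
      · obtain ⟨C, hC, hF⟩ := hLoc k
        have hcount := desc_count N hN l' hNl S τ k e he C Ap Al hAp hAl (hF Al hAl) mK
          (fun P R hP hR => hKp' k P R hP hR Ap hAp) n (fun i => ((x i : _) : JZero N))
          (fun i σ => (x i).2 σ) (fun i j hij ⟨Q, hQ, hQe⟩ => by
            refine hx i j hij ⟨Q, fun σ => hQ σ⟩ (Subtype.ext ?_)
            exact hQe)
        have hWpos : 0 < Nat.card (EisW N l' S k) := Nat.card_pos
        have h1 : Nat.card (EisW N l' S k) ≤ c₁ * (l' ^ C.alpha) ^ 2 := by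
          rw [← pow_mul, mul_comm C.alpha 2]; exact hC
        have h2 := hTor k Ap hAp
        have h3 := desc_numeric hWpos hcount h1 h2
        exact h3.trans (Nat.mul_le_mul_left _ (dm_card_fixed_le N hFG l' S k)))
  refine ⟨t, ht, fun z hz => ?_⟩
  have h := htors ⟨z, fun σ => hz σ⟩
  obtain ⟨m, hm, hm'⟩ := h.exists_nsmul_eq_zero
  refine ⟨m, hm, ?_⟩
  exact congrArg Subtype.val hm'

/-- **DESC-MAIN** (the form of the blueprint, for `EisLocal`). -/
theorem desc_main (hN : N.Prime) (l' : ℕ) (hl : l'.Prime) (hNl : N ≠ l') (S : Finset ℕ)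
    (hNS : N ∈ S) (hlS : l' ∈ S)
    (hFG : AddGroup.FG ↥(FixedPoints.addSubgroup GQb (JZero N)))
    (hIdem : EisIdem N l' S) (hLocal : EisLocal N l' S) (hToric : EisToric N l' S)
    (hKp : EisKp N l') : EisDescentAt N l' S :=
  desc_main_tw N hN l' hl hNl S hNS hlS 1 hFG hIdem (eisLocalTw_of 1 hLocal) hToric hKp

end Fermat.Agent.EDesc
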