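/-
Cluster E' (helper3), leaf DESC-TAME (owner helper49).

`W` a finite `G_ℚ`-module of `l'`-power order with smooth action, `A_p` a place of `ℚ̄` over
`p ≠ l'`, and `(s - 1)(t - 1) = 0` on `W` for all `s, t` in the inertia group `I_p` at `A_p`
(hypothesis (T1) of the blueprint).  Then `#W ≤ (#W^{I_p})²`.

Proof: every `σ ∈ I_p` acts with `(σ - 1)² = 0`, so `σ ^ n = 1 + n (σ - 1)` and the image of `σ` in
`Perm W` has `l'`-power order, prime to `p`; by tame inertia (`TameInertia.tame_inertia`) the image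
of `I_p` is generated by one `τ₀`.  Then `W^{I_p} = ker (τ₀ - 1)` and `(τ₀ - 1) W ⊆ W^{I_p}`.
-/
import Fermat.Agent.E.Desc.Defs
import Fermat.Agent.Lib.TameInertia.Main

set_option autoImplicit false

namespace Fermat.Agent.EDesc

local notation "Qb" => AlgebraicClosure ℚ
local notation "GQb" => (AlgebraicClosure ℚ ≃ₐ[ℚ] AlgebraicClosure ℚ)

section Tame

variable {W : Type*} [AddCommGroup W] [DistribMulAction GQb W]

/-- `(σ - 1)² = 0` implies `σ ^ n = 1 + n (σ - 1)`. -/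
lemma tame_pow_smul (σ : GQb) (h : ∀ w : W, σ • (σ • w - w) = σ • w - w) (n : ℕ) (w : W) :
    σ ^ n • w = w + n • (σ • w - w) := by
  induction n with
  | zero => simp
  | succ n ih =>
    have e : σ • (n • (σ • w - w)) = n • (σ • w - w) := by
      rw [← DistribSMul.toAddMonoidHom_apply, map_nsmul, DistribSMul.toAddMonoidHom_apply,
        h w]
    rw [pow_succ', mul_smul, ih, smul_add, e, succ_nsmul]
    abel

omit [DistribMulAction GQb W] in
/-- A finite group all of whose elements are killed by a power of `l'` has an exponent `l' ^ K`. -/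
lemma tame_exists_exp [Finite W] (l' : ℕ) (hW : ∀ w : W, ∃ k : ℕ, l' ^ k • w = 0) :
    ∃ K : ℕ, ∀ w : W, l' ^ K • w = 0 := by
  classical
  have := Fintype.ofFinite W
  choose k hk using hW
  refine ⟨Finset.univ.sup k, fun w => ?_⟩
  have hle : k w ≤ Finset.univ.sup k := Finset.le_sup (Finset.mem_univ w)
  obtain ⟨d, hd⟩ := Nat.exists_eq_add_of_le hle
  rw [hd, pow_add, mul_comm, mul_smul, hk w, smul_zero]

/-- **DESC-TAME**, single-element form.  If `(s - 1)² = 0` on the finite `l'`-group `W` for every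
`s` in the inertia group at a place over `p ≠ l'` (cluster T's `TorsionInertiaUnipotent`), then
`#W ≤ (#W^{I_p})²`. -/
theorem desc_tame' (p l' : ℕ) (hp : p.Prime) (hl' : l'.Prime) (hpl : p ≠ l') [Finite W]
    (hsm : SmoothMod W) (hW : ∀ w : W, ∃ k : ℕ, l' ^ k • w = 0)
    (Ap : ValuationSubring Qb) (hAp : Ap.LiesOverPrime p)
    (hT1 : ∀ s ∈ Ap.inertiaSubgroupIn ℚ, ∀ w : W, s • (s • w - w) = s • w - w) :
    Nat.card W ≤ Nat.card (fixedBy W (Ap.inertiaSubgroupIn ℚ)) ^ 2 := by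
  classical
  obtain ⟨K, hK⟩ := tame_exists_exp l' hW
  let χ : GQb →* Equiv.Perm W := MulAction.toPermHom GQb W
  have hχ : ∀ (σ : GQb) (w : W), χ σ w = σ • w := fun _ _ => rfl
  -- the kernel of `χ` is open
  obtain ⟨E, hE, hEfix⟩ := hsm
  have hopen : IsOpen (χ.ker : Set GQb) := by
    have := hE
    refine Subgroup.isOpen_mono ?_ (IntermediateField.fixingSubgroup_isOpen E)
    intro σ hσ
    rw [MonoidHom.mem_ker]
    ext w
    exact hEfix σ hσ w
  -- the image of inertia has order prime to `p`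
  have hcop : ∀ σ ∈ Ap.inertiaSubgroupIn ℚ, (orderOf (χ σ)).Coprime p := by
    intro σ hσ
    have h1 : (χ σ) ^ (l' ^ K) = 1 := by
      ext w
      rw [← map_pow, hχ, tame_pow_smul σ (fun w => hT1 σ hσ w), hK, add_zero]
      rfl
    have h2 := orderOf_dvd_of_pow_eq_one h1
    exact Nat.Coprime.coprime_dvd_left h2
      (Nat.Coprime.pow_left K ((Nat.coprime_primes hl' hp).2 (Ne.symm hpl)))
  obtain ⟨⟨τ₀, hτ₀, hgen⟩, -⟩ :=
    Fermat.Agent.TameInertia.tame_inertia χ hopen p hp Ap hAp hcop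
  -- `f = τ₀ - 1`
  let f : W →+ W := DistribSMul.toAddMonoidHom W τ₀ - AddMonoidHom.id W
  have hf : ∀ w, f w = τ₀ • w - w := fun _ => rfl
  -- every element of inertia acts as a power of `τ₀`
  have hpow : ∀ σ ∈ Ap.inertiaSubgroupIn ℚ, ∃ k : ℕ, ∀ w : W, σ • w = τ₀ ^ k • w := by
    intro σ hσ
    obtain ⟨k, hk⟩ := hgen σ hσ
    refine ⟨k, fun w => ?_⟩
    have h1 : σ • w = (χ τ₀ ^ k) w := by rw [← hk, hχ]
    rw [h1, ← map_pow, hχ]
  have hfix : ∀ w : W, τ₀ • w = w → ∀ n : ℕ, τ₀ ^ n • w = w := by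
    intro w hw n
    induction n with
    | zero => simp
    | succ n ih => rw [pow_succ, mul_smul, hw, ih]
  have hker : f.ker ≤ fixedBy W (Ap.inertiaSubgroupIn ℚ) := by
    intro w hw σ hσ
    rw [AddMonoidHom.mem_ker, hf, sub_eq_zero] at hw
    obtain ⟨k, hk⟩ := hpow σ hσ
    rw [hk, hfix w hw k]
  have hrange : f.range ≤ fixedBy W (Ap.inertiaSubgroupIn ℚ) := by
    rintro _ ⟨w, rfl⟩ σ hσ
    obtain ⟨k, hk⟩ := hpow σ hσ
    rw [hf, hk]
    exact hfix _ (hT1 τ₀ hτ₀ w) k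
  -- count
  have hcard : Nat.card W = Nat.card f.range * Nat.card f.ker := by
    rw [AddSubgroup.card_eq_card_quotient_mul_card_addSubgroup f.ker]
    congr 1
    exact Nat.card_congr (QuotientAddGroup.quotientKerEquivRange f).toEquiv
  rw [hcard, pow_two]
  exact Nat.mul_le_mul (AddSubgroup.card_le_of_le hrange) (AddSubgroup.card_le_of_le hker)

/-- **DESC-TAME.**  If `(s - 1)(t - 1) = 0` on the finite `l'`-group `W` for all `s, t` in the
inertia group at a place over `p ≠ l'`, then `#W ≤ (#W^{I_p})²`. -/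
theorem desc_tame (p l' : ℕ) (hp : p.Prime) (hl' : l'.Prime) (hpl : p ≠ l') [Finite W]
    (hsm : SmoothMod W) (hW : ∀ w : W, ∃ k : ℕ, l' ^ k • w = 0)
    (Ap : ValuationSubring Qb) (hAp : Ap.LiesOverPrime p)
    (hT1 : ∀ s ∈ Ap.inertiaSubgroupIn ℚ, ∀ t ∈ Ap.inertiaSubgroupIn ℚ, ∀ w : W,
      s • (t • w - w) = t • w - w) :
    Nat.card W ≤ Nat.card (fixedBy W (Ap.inertiaSubgroupIn ℚ)) ^ 2 :=
  desc_tame' p l' hp hl' hpl hsm hW Ap hAp fun s hs w => hT1 s hs s hs w

end Tame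

end Fermat.Agent.EDesc
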