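/-
Cluster E' (helper3), leaf DESC-TORIC (owner helper49): the counting form `EisToric` of (T1).

If the inertia at the level `N = p` acts unipotently of level two on the torsion of `J₀(N)(ℚ̄)`
(cluster T's `TorsionInertiaUnipotent`), then `#W_k ≤ (#W_k^{I_p})²` for the Eisenstein parts
`W_k = EisW N l' S k`, `l' ≠ p` (constant `c = 1`): `desc_tame'` applied to `W_k`, which is a finite
`l'`-group with smooth action (`F3.torsionOpenStab`).
-/
import Fermat.Agent.E.Desc.Tame
import Fermat.Agent.E.Desc.MainDefs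
import Fermat.Agent.F3.OpenStab
import Fermat.Agent.Lib.BadRed.Bridge.Targets

set_option autoImplicit false

namespace Fermat.Agent.EDesc

open ModularCurve AlgebraicCurve

local notation "Qb" => AlgebraicClosure ℚ
local notation "GQb" => (AlgebraicClosure ℚ ≃ₐ[ℚ] AlgebraicClosure ℚ)

variable (N : ℕ) [NeZero N]

/-- The Galois action on `W_k` is smooth. -/
theorem eisW_smoothMod (l' : ℕ) [Fact l'.Prime] (S : Finset ℕ) (k : ℕ) :
    SmoothMod (EisW N l' S k) := by
  classical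
  have hpos : 0 < l' ^ k := pow_pos (Fact.out : l'.Prime).pos k
  have hex : ∀ w : EisW N l' S k, ∃ L : IntermediateField ℚ Qb, FiniteDimensional ℚ L ∧
      ∀ σ : GQb, (∀ y ∈ L, σ y = y) → σ • (w : JZero N) = (w : JZero N) :=
    fun w => Fermat.Agent.F3.torsionOpenStab N (l' ^ k) hpos (w : JZero N) w.2.1
  choose L hLfd hL using hex
  have := Fintype.ofFinite (EisW N l' S k)
  have hfd : ∀ w, FiniteDimensional ℚ (L w) := hLfd
  refine ⟨⨆ w, L w, IntermediateField.finiteDimensional_iSup_of_finite, fun σ hσ w => ?_⟩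
  apply Subtype.ext
  rw [eisW_coe_smul]
  refine hL w σ fun y hy => ?_
  have hy' : y ∈ ⨆ w, L w := (le_iSup L w) hy
  exact hσ ⟨y, hy'⟩

/-- `W_k` is an `l'`-group. -/
theorem eisW_pow_smul (l' : ℕ) (S : Finset ℕ) (k : ℕ) (w : EisW N l' S k) : l' ^ k • w = 0 := by
  apply Subtype.ext
  rw [AddSubgroup.coe_nsmul]
  exact w.2.1

/-- **DESC-TORIC**, single-element form: (T1) on the `l'`-power torsion, for every place over the
level `N = p ≠ l'`, gives `EisToric N l' S` (with `c = 1`). -/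
theorem eisToric_of' (hN : N.Prime) (l' : ℕ) [Fact l'.Prime] (hNl : N ≠ l') (S : Finset ℕ)
    (hT1 : ∀ (k : ℕ) (x : JZero N), l' ^ k • x = 0 → ∀ Ap : ValuationSubring Qb,
      Ap.LiesOverPrime N → ∀ s ∈ Ap.inertiaSubgroupIn ℚ, s • (s • x - x) = s • x - x) :
    EisToric N l' S := by
  refine ⟨1, Nat.one_pos, fun k Ap hAp => ?_⟩
  rw [one_mul]
  refine desc_tame' N l' hN (Fact.out : l'.Prime) hNl (eisW_smoothMod N l' S k)
    (fun w => ⟨k, eisW_pow_smul N l' S k w⟩) Ap hAp fun s hs w => ?_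
  apply Subtype.ext
  have h := hT1 k (w : JZero N) w.2.1 Ap hAp s hs
  simpa using h

/-- **DESC-TORIC** (helper3's form): (T1) for pairs `s, t` of inertia elements, on all torsion. -/
theorem eisToric_of (hN : N.Prime) (l' : ℕ) [Fact l'.Prime] (hNl : N ≠ l') (S : Finset ℕ)
    (hT1 : ∀ (n : ℕ) (x : JZero N), 0 < n → n • x = 0 → ∀ Ap : ValuationSubring Qb,
      Ap.LiesOverPrime N → ∀ s ∈ Ap.inertiaSubgroupIn ℚ, ∀ t ∈ Ap.inertiaSubgroupIn ℚ,
        s • (t • x - x) = t • x - x) :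
    EisToric N l' S :=
  eisToric_of' N hN l' hNl S fun k x hx Ap hAp s hs =>
    hT1 (l' ^ k) x (pow_pos (Fact.out : l'.Prime).pos k) hx Ap hAp s hs s hs

/-- **DESC-TORIC from cluster T**: `TorsionInertiaUnipotent N` gives `EisToric N l' S` for a prime
level `N ≠ l'`. -/
theorem eisToric_of_T1 (hN : N.Prime) (l' : ℕ) [Fact l'.Prime] (hNl : N ≠ l') (S : Finset ℕ)
    (hT1 : Fermat.Agent.BadRed.TorsionInertiaUnipotent N) : EisToric N l' S := by
  refine eisToric_of' N hN l' hNl S fun k x hx Ap hAp s hs => ?_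
  have hsq : ¬ N ^ 2 ∣ N := by
    intro h
    have h1 : N ^ 2 ≤ N := Nat.le_of_dvd hN.pos h
    have h2 : 2 ≤ N := hN.two_le
    nlinarith
  have hnd : ¬ N ∣ l' ^ k := by
    intro h
    have h1 := hN.dvd_of_dvd_pow h
    exact hNl ((Nat.prime_dvd_prime_iff_eq hN (Fact.out : l'.Prime)).1 h1)
  have h := hT1 (l' ^ k) N hN dvd_rfl hsq hnd Ap hAp s hs x hx
  -- `s² x - 2 s x + x = 0`
  have e : s • (s • x - x) - (s • x - x) = s • s • x - (2 : ℤ) • (s • x) + x := by
    rw [gal_smul_sub, two_zsmul]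
    abel
  exact sub_eq_zero.mp (e.trans h)

end Fermat.Agent.EDesc
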