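/-
Cluster E' (helper3), leaf DESC-TORIC, unconditional form (owner helper49).

`EisToric N l' S` for a prime level `N ≠ l'`, from cluster T's (T1)
`BadRed.torsionInertiaUnipotent_all` and `eisToric_of_T1`.
-/
import Fermat.Agent.E.Desc.Toric
import Fermat.Agent.Lib.BadRed.Final.Main

set_option autoImplicit false

namespace Fermat.Agent.EDesc

/-- **(T1), counting form, unconditional**: the inertia at the prime level `N = p` fixes at least
"half" of the Eisenstein part `W_k` of `J₀(N)[l'^k]`, `l' ≠ p`. -/
theorem eisToric (N : ℕ) [NeZero N] (hN : N.Prime) (l' : ℕ) [Fact l'.Prime] (hNl : N ≠ l')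
    (S : Finset ℕ) : EisToric N l' S :=
  eisToric_of_T1 N hN l' hNl S (Fermat.Agent.BadRed.torsionInertiaUnipotent_all N)

end Fermat.Agent.EDesc
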